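import Fermat.Agent.L00.Unr1

set_option autoImplicit false

/-!
# Valuations of elements of `ℚbar` fixed by the inertia group over a number field `K`
-/

namespace Fermat.Agent.L00.Unr

open scoped NumberField Pointwise
open Fermat.Agent.H05 Fermat.Agent.H09

variable {L : Type*} [Field L] [CharZero L] [IsGalois ℚ L]

/-- the embedding of the ring of integers into the integral closure of `ℤ` -/
noncomputable def iota (F : IntermediateField ℚ L) : 𝓞 F →+* integralClosure ℤ L where
  toFun x := ⟨((x : F) : L), by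
    have := x.2
    rw [mem_integralClosure_iff] at this ⊢
    exact this.map (F.val.restrictScalars ℤ)⟩
  map_one' := rfl
  map_mul' := fun _ _ => rfl
  map_zero' := rfl
  map_add' := fun _ _ => rfl

/-- the prime of `F` below the place `A` -/
noncomputable def primeOf (A : ValuationSubring L) (F : IntermediateField ℚ L) : Ideal (𝓞 F) :=
  (center A).comap (iota F)

theorem mem_primeOf (A : ValuationSubring L) (F : IntermediateField ℚ L) (x : 𝓞 F) :
    x ∈ primeOf A F ↔ ((x : F) : L) ∈ A.nonunits := by
  unfold primeOf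
  rw [Ideal.mem_comap, mem_center_iff]
  exact Iff.rfl

instance (A : ValuationSubring L) (F : IntermediateField ℚ L) : (primeOf A F).IsPrime := by
  unfold primeOf
  infer_instance

theorem primeOf_ne_bot {A : ValuationSubring L} {ℓ : ℕ} (hℓ : ℓ.Prime) (hA : A.LiesOverPrime ℓ)
    (F : IntermediateField ℚ L) : primeOf A F ≠ ⊥ := by
  intro h
  have h1 : ((ℓ : ℕ) : 𝓞 F) ∈ primeOf A F := by
    unfold primeOf
    rw [Ideal.mem_comap, map_natCast]
    exact natCast_mem_center hA
  rw [h, Ideal.mem_bot, Nat.cast_eq_zero] at h1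
  exact hℓ.ne_zero h1

theorem exists_normal_containing (K : IntermediateField ℚ L) [FiniteDimensional ℚ K] (z : L) :
    ∃ F : IntermediateField ℚ L, FiniteDimensional ℚ F ∧ Normal ℚ F ∧ K ≤ F ∧ z ∈ F := by
  have h1 : FiniteDimensional ℚ (IntermediateField.adjoin ℚ {z}) :=
    IntermediateField.adjoin.finiteDimensional (Algebra.IsIntegral.isIntegral z)
  have h2 : FiniteDimensional ℚ (K ⊔ IntermediateField.adjoin ℚ {z} : IntermediateField ℚ L) :=
    inferInstance
  refine ⟨IntermediateField.normalClosure ℚ
    (K ⊔ IntermediateField.adjoin ℚ {z} : IntermediateField ℚ L) L, inferInstance, ?_, ?_, ?_⟩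
  · convert normalClosure.normal ℚ (K ⊔ IntermediateField.adjoin ℚ {z} : IntermediateField ℚ L) L
    exact Subsingleton.elim _ _
  · exact le_sup_left.trans (IntermediateField.le_normalClosure _)
  · exact IntermediateField.le_normalClosure _
      ((le_sup_right : _ ≤ K ⊔ IntermediateField.adjoin ℚ {z})
        (IntermediateField.subset_adjoin ℚ {z} (Set.mem_singleton z)))

/-- lift an automorphism of `F` (normal) trivial on residues to an element of inertia -/
theorem exists_inertia_lift' {A : ValuationSubring L} {ℓ : ℕ} (hℓ : ℓ.Prime)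
    (hA : A.LiesOverPrime ℓ) (F : IntermediateField ℚ L) [FiniteDimensional ℚ F]
    (hF : Normal ℚ F) (σ : L ≃ₐ[ℚ] L)
    (hσ : ∀ x : 𝓞 F, σ ((x : F) : L) - ((x : F) : L) ∈ A.nonunits) :
    ∃ h ∈ F.fixingSubgroup, h * σ ∈ A.inertiaSubgroupIn ℚ := by
  have hgal : IsGalois ℚ F := { }
  have hHn : F.fixingSubgroup.Normal := (InfiniteGalois.normal_iff_isGalois F).mpr hgal
  have hcl : IsClosed (F.fixingSubgroup : Set (L ≃ₐ[ℚ] L)) :=
    InfiniteGalois.fixingSubgroup_isClosed F
  apply exists_inertia_lift hℓ hA F.fixingSubgroup hcl σ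
  intro x hx
  have hxF : (x : L) ∈ F := by
    have h1 : (x : L) ∈ IntermediateField.fixedField F.fixingSubgroup := by
      rw [IntermediateField.mem_fixedField_iff]
      intro g hg
      exact congrArg Subtype.val (hx g hg)
    rwa [InfiniteGalois.fixedField_fixingSubgroup] at h1
  have hxint : IsIntegral ℤ (⟨(x : L), hxF⟩ : F) := by
    have h2 : IsIntegral ℤ (x : L) := x.2
    exact (isIntegral_algHom_iff (F.val.restrictScalars ℤ) F.val.injective).mp h2
  have h3 := hσ ⟨⟨(x : L), hxF⟩, hxint⟩
  rw [mem_center_iff]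
  exact h3

/-- **Valuations of elements fixed by inertia over `K`.** -/
theorem exists_uniformizer {A : ValuationSubring L} {ℓ : ℕ} (hℓ : ℓ.Prime)
    (hA : A.LiesOverPrime ℓ) (K : IntermediateField ℚ L) [FiniteDimensional ℚ K] :
    ∃ π : L, π ∈ K ∧ π ≠ 0 ∧ A.valuation π < 1 ∧
      ∀ z : L, z ≠ 0 → (∀ σ ∈ A.inertiaSubgroupIn ℚ ⊓ K.fixingSubgroup, σ z = z) →
      ∃ n : ℤ, A.valuation z = A.valuation π ^ n := by
  classical
  have hKn : NumberField K := { to_charZero := inferInstance, to_finiteDimensional := inferInstance }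
  obtain ⟨π, hπw, hπ⟩ := exists_isUnif (primeOf A K) (primeOf_ne_bot hℓ hA K)
  have hπ0 : π ≠ 0 := by
    rintro rfl
    unfold IsUnif at hπ
    rw [Ideal.map_span, Set.image_singleton, map_zero, Ideal.span_singleton_zero] at hπ
    have := IsLocalization.AtPrime.isDiscreteValuationRing_of_dedekind_domain (𝓞 K)
      (primeOf_ne_bot hℓ hA K) (Localization.AtPrime (primeOf A K))
    exact IsDiscreteValuationRing.not_a_field _ hπ.symm
  refine ⟨((π : K) : L), (π : K).2, ?_, ?_, ?_⟩
  · intro h
    apply hπ0
    have h1 : (π : K) = 0 := Subtype.ext h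
    exact_mod_cast h1
  · rw [← ValuationSubring.mem_nonunits_iff]
    exact (mem_primeOf A K π).mp hπw
  intro z hz0 hfix
  obtain ⟨F, hFfin, hFn, hKF, hzF⟩ := exists_normal_containing K z
  have hFg : IsGalois ℚ F := { }
  have hFN : NumberField F := { to_charZero := inferInstance, to_finiteDimensional := hFfin }
  letI : Algebra K F := (IntermediateField.inclusion hKF).toRingHom.toAlgebra
  have hst : IsScalarTower ℚ K F := IsScalarTower.of_algebraMap_eq (fun x => rfl)
  have hKFg : IsGalois K F := IsGalois.tower_top_of_isGalois ℚ K F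
  have halg : ∀ x : K, ((algebraMap K F x : F) : L) = (x : L) := fun x => rfl
  have hunder : (primeOf A F).under (𝓞 K) = primeOf A K := by
    ext x
    rw [Ideal.mem_comap, mem_primeOf, mem_primeOf]
    exact Iff.rfl
  have hkey := exists_zpow_of_fixed K F (primeOf A F) (primeOf_ne_bot hℓ hA F) π
    (by rw [hunder]; exact hπw)
    (by
      have : ∀ (w w' : Ideal (𝓞 K)) [w.IsPrime] [w'.IsPrime], w = w' → IsUnif w' π → IsUnif w π := by
        intro w w' _ _ h h'
        subst h
        exact h'
      exact this _ _ hunder hπ)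
    ⟨z, hzF⟩ (fun h => hz0 (congrArg Subtype.val h)) (by
      intro τ hτ
      let σ : L ≃ₐ[ℚ] L := (τ.restrictScalars ℚ).liftNormal L
      have hσF : ∀ x : F, σ (x : L) = ((τ x : F) : L) :=
        fun x => AlgEquiv.liftNormal_commutes (τ.restrictScalars ℚ) _ x
      have hσK : σ ∈ K.fixingSubgroup := by
        rw [IntermediateField.mem_fixingSubgroup_iff]
        intro x hx
        have h1 := hσF (algebraMap K F ⟨x, hx⟩)
        rw [τ.commutes] at h1
        exact h1
      obtain ⟨h, hhF, hh⟩ := exists_inertia_lift' hℓ hA F hFn σ (by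
        intro x
        have h3 := hτ x
        have h3' : τ • x - x ∈ primeOf A F := h3
        rw [mem_primeOf] at h3'
        have e2 : (((τ • x - x : 𝓞 F) : F) : L) = σ ((x : F) : L) - ((x : F) : L) := by
          rw [hσF]
          push_cast
          rfl
        rwa [e2] at h3')
      have hhK : h * σ ∈ K.fixingSubgroup :=
        mul_mem ((IntermediateField.fixingSubgroup_antitone hKF) hhF) hσK
      have h4 := hfix _ ⟨hh, hhK⟩
      apply Subtype.ext
      rw [← hσF ⟨z, hzF⟩]
      have h5 : h (σ z) = σ z := by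
        have h6 : σ z ∈ F := by
          rw [hσF ⟨z, hzF⟩]
          exact (τ ⟨z, hzF⟩).2
        exact (IntermediateField.mem_fixingSubgroup_iff F h).mp hhF _ h6
      change σ z = z
      rw [← h5]
      exact h4)
  obtain ⟨n, c, d, hc, hd, hcd⟩ := hkey
  have hunit : ∀ x : 𝓞 F, x ∉ primeOf A F → A.valuation ((x : F) : L) = 1 := by
    intro x hx
    rw [mem_primeOf, ValuationSubring.mem_nonunits_iff, not_lt] at hx
    have hxA : ((x : F) : L) ∈ A := mem_of_isIntegral A (iota F x).2
    rw [← A.valuation_le_one_iff] at hxA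
    exact le_antisymm hxA hx
  refine ⟨n, ?_⟩
  have h6 : z * ((c : F) : L) = ((π : K) : L) ^ n * ((d : F) : L) := by
    have h8 := congrArg (algebraMap F L) hcd
    rw [map_mul, map_mul, map_zpow₀] at h8
    exact h8
  have h7 := congrArg A.valuation h6
  rw [map_mul, map_mul, hunit c hc, hunit d hd, mul_one, mul_one, map_zpow₀] at h7
  exact h7

end Fermat.Agent.L00.Unr
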