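import Fermat.Agent.L00.LKum5
set_option autoImplicit false
set_option linter.unusedSectionVars false
set_option linter.style.haveILetI false

/-!
# Local degrees (lead, WP-Cb)
-/

noncomputable section

open Fermat.Agent.H05 Fermat.Agent.TW Fermat.Agent.LF
open Fermat.Agent.L00.Unr
open scoped NumberField Pointwise

namespace Fermat.Agent.L00.LKum

variable {A : ValuationSubring Qb} {p q : ℕ} {w : Qb → ℝ}

section Tower

variable (A : ValuationSubring Qb) {K N : IntermediateField ℚ Qb}

/-- restriction of the decomposition group to a finite level -/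
def res (hKN : K ≤ N) (_hN : Normal ℚ N) :
    letI : Algebra K N := (IntermediateField.inclusion hKN).toRingHom.toAlgebra
    DK A K →* (N ≃ₐ[K] N) :=
  letI : Algebra K N := (IntermediateField.inclusion hKN).toRingHom.toAlgebra
  haveI : IsScalarTower ℚ K N := IsScalarTower.of_algebraMap_eq (fun _ => rfl)
  haveI : IsScalarTower K N Qb := IsScalarTower.of_algebraMap_eq (fun _ => rfl)
  haveI : Normal K N := Normal.tower_top_of_normal ℚ K N
  (AlgEquiv.restrictNormalHom (K₁ := Qb) N).comp
    ((IntermediateField.fixingSubgroupEquiv K).toMonoidHom.comp (Subgroup.inclusion DK_le_fix))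

theorem res_apply (hKN : K ≤ N) (hN : Normal ℚ N) (σ : DK A K) (x : N) :
    letI : Algebra K N := (IntermediateField.inclusion hKN).toRingHom.toAlgebra
    ((res A hKN hN σ x : N) : Qb) = (σ : GQ) (x : Qb) := by
  letI : Algebra K N := (IntermediateField.inclusion hKN).toRingHom.toAlgebra
  haveI : IsScalarTower ℚ K N := IsScalarTower.of_algebraMap_eq (fun _ => rfl)
  haveI : IsScalarTower K N Qb := IsScalarTower.of_algebraMap_eq (fun _ => rfl)
  haveI : Normal K N := Normal.tower_top_of_normal ℚ K N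
  exact AlgEquiv.restrictNormal_commutes
    (IntermediateField.fixingSubgroupEquiv K (Subgroup.inclusion DK_le_fix σ)) N x

/-- **local degree of a Galois extension** -/
theorem relIndex_DK (hq : q.Prime) (hA : A.LiesOverPrime q) [FiniteDimensional ℚ K]
    [FiniteDimensional ℚ N] (hKN : K ≤ N) (hN : Normal ℚ N) :
    (DK A N).relIndex (DK A K) * ((primeOf A K).ramificationIdx ℤ * (primeOf A K).inertiaDeg ℤ) =
      (primeOf A N).ramificationIdx ℤ * (primeOf A N).inertiaDeg ℤ := by
  have hg := Fermat.Agent.H51.isGalois_Qbar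
  classical
  letI : Algebra K N := (IntermediateField.inclusion hKN).toRingHom.toAlgebra
  haveI : IsScalarTower ℚ K N := IsScalarTower.of_algebraMap_eq (fun _ => rfl)
  haveI : IsScalarTower K N Qb := IsScalarTower.of_algebraMap_eq (fun _ => rfl)
  haveI : Normal K N := Normal.tower_top_of_normal ℚ K N
  have hKn : NumberField K := ⟨⟩
  have hNn : NumberField N := ⟨⟩
  have hNg : IsGalois ℚ N := { }
  have hKNg : IsGalois K N := IsGalois.tower_top_of_isGalois ℚ K N
  haveI : FiniteDimensional K N := Module.Finite.right ℚ K N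
  have hunder : (primeOf A N).under (𝓞 K) = primeOf A K := by
    ext x
    rw [Ideal.mem_comap, mem_primeOf, mem_primeOf]
    exact Iff.rfl
  haveI : (primeOf A N).LiesOver (primeOf A K) := ⟨hunder.symm⟩
  have h1 := Ideal.ramificationIdx_tower (R := ℤ) (primeOf A K) (primeOf A N)
  have h2 := Ideal.inertiaDeg_tower (R := ℤ) (primeOf A K) (primeOf A N)
  have : IsGaloisGroup Gal(N/K) (𝓞 K) (𝓞 N) :=
    IsGaloisGroup.of_isFractionRing Gal(N/K) (𝓞 K) (𝓞 N) K N
  have hK0 := primeOf_ne_bot hq hA K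
  have : PerfectField (primeOf A K).ResidueField := perfect_residue K _ hK0
  have h3 := Ideal.card_stabilizer_eq (G := Gal(N/K)) (primeOf A K) (primeOf A N)
  rw [Ideal.ramificationIdxIn_eq_ramificationIdx (primeOf A K) (primeOf A N) Gal(N/K),
    Ideal.inertiaDegIn_eq_inertiaDeg (primeOf A K) (primeOf A N) Gal(N/K)] at h3
  have h4 : (DK A N).relIndex (DK A K) =
      Nat.card (MulAction.stabilizer Gal(N/K) (primeOf A N)) := by
    have hker : (DK A N).subgroupOf (DK A K) = (res A hKN hN).ker := by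
      ext σ
      rw [Subgroup.mem_subgroupOf, MonoidHom.mem_ker]
      constructor
      · intro hσ
        apply AlgEquiv.ext
        intro x
        apply Subtype.ext
        rw [res_apply]
        exact (IntermediateField.mem_fixingSubgroup_iff N _).mp hσ.2 x x.2
      · intro hσ
        refine ⟨σ.2.1, ?_⟩
        refine (IntermediateField.mem_fixingSubgroup_iff N _).mpr ?_
        intro x hx
        have := res_apply A hKN hN σ ⟨x, hx⟩
        rw [hσ] at this
        exact this.symm
    rw [Subgroup.relIndex, hker, Subgroup.index_ker]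
    congr 1
    have hrange : (res A hKN hN).range = MulAction.stabilizer Gal(N/K) (primeOf A N) := by
      ext τ
      have hstab : τ ∈ MulAction.stabilizer Gal(N/K) (primeOf A N) ↔
          ∀ x : 𝓞 N, τ • x ∈ primeOf A N ↔ x ∈ primeOf A N := by
        rw [MulAction.mem_stabilizer_iff]
        constructor
        · intro h x
          conv_lhs => rw [← h]
          exact Ideal.smul_mem_pointwise_smul_iff
        · intro h
          ext x
          rw [Ideal.mem_pointwise_smul_iff_inv_smul_mem, ← h (τ⁻¹ • x), smul_inv_smul]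
      rw [hstab]
      constructor
      · rintro ⟨σ, rfl⟩ x
        rw [mem_primeOf, mem_primeOf]
        have h5 : (((res A hKN hN σ • x : 𝓞 N) : N) : Qb) = (σ : GQ) ((x : N) : Qb) :=
          res_apply A hKN hN σ (x : N)
        rw [h5]
        have h6 := smul_nonunits_iff (σ : GQ) A ((x : N) : Qb)
        have h7 : ((σ : GQ))⁻¹ • A = A := inv_mem (DK_le_dec σ.2)
        rw [h7] at h6
        exact h6.symm
      · intro hτ
        -- lift to the algebraic closure
        let σ0 : GQ := (τ.restrictScalars ℚ).liftNormal Qb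
        have hσ0 : ∀ x : N, σ0 (x : Qb) = ((τ x : N) : Qb) :=
          fun x => AlgEquiv.liftNormal_commutes (τ.restrictScalars ℚ) Qb x
        have htr : ∀ x ∈ N, IsIntegral ℤ x → (x ∈ A.nonunits ↔ x ∈ (σ0⁻¹ • A).nonunits) := by
          intro x hx hxi
          rw [smul_nonunits_iff]
          have hxint : IsIntegral ℤ (⟨x, hx⟩ : N) :=
            (isIntegral_algHom_iff (N.val.restrictScalars ℤ) N.val.injective).mp hxi
          obtain ⟨y, hy⟩ : ∃ y : 𝓞 N, (y : N) = ⟨x, hx⟩ := ⟨⟨⟨x, hx⟩, hxint⟩, rfl⟩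
          have h5 := hτ y
          rw [mem_primeOf, mem_primeOf] at h5
          have h6 : (((τ • y : 𝓞 N) : N) : Qb) = σ0 ((y : N) : Qb) := (hσ0 (y : N)).symm
          rw [h6, hy] at h5
          exact h5.symm
        obtain ⟨ρ, hρ, hρA⟩ := exists_smul_eq_of_trace hq hA N htr
        have hmem : σ0 * ρ ∈ DK A K := by
          refine ⟨?_, ?_⟩
          · change (σ0 * ρ) • A = A
            rw [mul_smul, hρA, smul_inv_smul]
          · refine (IntermediateField.mem_fixingSubgroup_iff K _).mpr ?_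
            intro x hx
            rw [AlgEquiv.mul_apply, (IntermediateField.mem_fixingSubgroup_iff N _).mp hρ x (hKN hx)]
            have h7 := hσ0 ⟨x, hKN hx⟩
            have h8 : τ ⟨x, hKN hx⟩ = ⟨x, hKN hx⟩ := τ.commutes (⟨x, hx⟩ : K)
            rw [h8] at h7
            exact h7
        refine ⟨⟨σ0 * ρ, hmem⟩, ?_⟩
        apply AlgEquiv.ext
        intro x
        apply Subtype.ext
        rw [res_apply]
        change (σ0 * ρ) (x : Qb) = _
        rw [AlgEquiv.mul_apply, (IntermediateField.mem_fixingSubgroup_iff N _).mp hρ x x.2]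
        exact hσ0 x
    rw [hrange]
  rw [h4, h3, h1, h2]
  ring

/-- **local degree** -/
theorem relIndex_DK' (hq : q.Prime) (hA : A.LiesOverPrime q) [FiniteDimensional ℚ K]
    [FiniteDimensional ℚ N] (hKN : K ≤ N) :
    (DK A N).relIndex (DK A K) * ((primeOf A K).ramificationIdx ℤ * (primeOf A K).inertiaDeg ℤ) =
      (primeOf A N).ramificationIdx ℤ * (primeOf A N).inertiaDeg ℤ := by
  have hg := Fermat.Agent.H51.isGalois_Qbar
  obtain ⟨M, hMfin, hMn, hNM, -⟩ := exists_normal_containing N (0 : Qb)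
  have h1 := relIndex_DK A hq hA (hKN.trans hNM) hMn
  have h2 := relIndex_DK A hq hA hNM hMn
  have hMn' : NumberField M := ⟨⟩
  have h3 : (DK A M).relIndex (DK A N) * (DK A N).relIndex (DK A K) =
      (DK A M).relIndex (DK A K) :=
    Subgroup.relIndex_mul_relIndex _ _ _ (DK_mono hNM) (DK_mono hKN)
  have h4 : (DK A M).relIndex (DK A N) ≠ 0 := by
    have hf0 : (M.fixingSubgroup).index ≠ 0 := by
      have h6 : Module.finrank ℚ M = (M.fixingSubgroup).index :=
        @IntermediateField.finrank_eq_fixingSubgroup_index ℚ Qb _ _ _ M _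
      rw [← h6]
      exact Module.finrank_pos.ne'
    have hf : (M.fixingSubgroup).FiniteIndex := ⟨hf0⟩
    have h5 : (DK A M) = M.fixingSubgroup ⊓ DK A N := by
      ext σ
      constructor
      · intro h
        exact ⟨h.2, h.1, DK_le_fix (DK_mono hNM h)⟩
      · intro h
        exact ⟨h.2.1, h.1⟩
    rw [h5, Subgroup.inf_relIndex_right]
    have hfi : (M.fixingSubgroup.subgroupOf (DK A N)).FiniteIndex := inferInstance
    exact hfi.index_ne_zero
  apply Nat.eq_of_mul_eq_mul_left (Nat.pos_of_ne_zero h4)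
  rw [h2, ← mul_assoc, h3, h1]

/-- the local degree of `K` at `A` -/
def locDeg (K : IntermediateField ℚ Qb) : ℕ :=
  (primeOf A K).ramificationIdx ℤ * (primeOf A K).inertiaDeg ℤ

theorem liesOver (hq : q.Prime) (hA : A.LiesOverPrime q) [FiniteDimensional ℚ K]
    (h : NVal A q w) {π : 𝓞 K} (u : Unif A w K π) :
    (primeOf A K).LiesOver (Ideal.span {(q : ℤ)}) := by
  have hKn : NumberField K := ⟨⟩
  have hqZ : (Ideal.span {(q : ℤ)}) ≠ ⊥ := by
    rw [Ne, Ideal.span_singleton_eq_bot]
    exact_mod_cast hq.ne_zero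
  have hprime : (Ideal.span {(q : ℤ)}).IsPrime := by
    rw [Ideal.span_singleton_prime (by exact_mod_cast hq.ne_zero)]
    exact Nat.prime_iff_prime_int.mp hq
  have hmax : (Ideal.span {(q : ℤ)}).IsMaximal := hprime.isMaximal hqZ
  constructor
  apply hmax.eq_of_le (Ideal.IsPrime.ne_top inferInstance)
  rw [Ideal.span_le, Set.singleton_subset_iff]
  change algebraMap ℤ (𝓞 K) (q : ℤ) ∈ primeOf A K
  rw [mem_primeOf]
  have e1 : (((algebraMap ℤ (𝓞 K) (q : ℤ) : 𝓞 K) : K) : Qb) = (q : Qb) := by
    simp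
  rw [e1]
  apply h.nonunits_iff.2
  right
  rw [h.norm]; exact one_pos

theorem exp_eq (hq : q.Prime) (hA : A.LiesOverPrime q) [FiniteDimensional ℚ K]
    (h : NVal A q w) {π : 𝓞 K} (u : Unif A w K π) :
    ((primeOf A K).ramificationIdx ℤ : ℝ) * w ((π : K) : Qb) = 1 := by
  have hKn : NumberField K := ⟨⟩
  have hqZ : (Ideal.span {(q : ℤ)}) ≠ ⊥ := by
    rw [Ne, Ideal.span_singleton_eq_bot]
    exact_mod_cast hq.ne_zero
  have hprime : (Ideal.span {(q : ℤ)}).IsPrime := by
    rw [Ideal.span_singleton_prime (by exact_mod_cast hq.ne_zero)]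
    exact Nat.prime_iff_prime_int.mp hq
  have hmem : ∀ n : ℕ, Ideal.map (algebraMap ℤ (𝓞 K)) (Ideal.span {(q : ℤ)}) ≤ primeOf A K ^ n ↔
      n * w ((π : K) : Qb) ≤ 1 := by
    intro n
    rw [Ideal.map_span, Set.image_singleton, Ideal.span_le, Set.singleton_subset_iff,
      SetLike.mem_coe, mem_pow_iff hq hA h u]
    have e1 : (((algebraMap ℤ (𝓞 K) (q : ℤ) : 𝓞 K) : K) : Qb) = (q : Qb) := by
      simp
    rw [e1]
    unfold Bl
    rw [h.norm]
    constructor
    · rintro (h0 | h0)
      · exact absurd h0 (Nat.cast_ne_zero.mpr hq.ne_zero)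
      · exact h0
    · exact Or.inr
  obtain ⟨m, hm⟩ := u.val (q : Qb) (natCast_mem _ _) (Nat.cast_ne_zero.mpr hq.ne_zero)
  rw [h.norm] at hm
  have hm0 : 0 ≤ m := by
    by_contra hcon
    push Not at hcon
    have h1 : (m : ℝ) < 0 := by exact_mod_cast hcon
    have := u.pos
    nlinarith
  obtain ⟨n, rfl⟩ := Int.eq_ofNat_of_zero_le hm0
  have hover := liesOver A hq hA h u
  have h1 : (Ideal.span {(q : ℤ)}).ramificationIdx' (primeOf A K) = n := by
    apply Ideal.ramificationIdx'_spec
    · rw [hmem]; push_cast at hm; exact hm.ge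
    · rw [hmem]
      push_cast at hm ⊢
      have := u.pos
      intro h2
      nlinarith
  rw [Ideal.ramificationIdx'_eq_ramificationIdx _ _ hqZ] at h1
  rw [h1]
  push_cast at hm
  exact hm.symm

theorem nrm_eq (hq : q.Prime) (hA : A.LiesOverPrime q) [FiniteDimensional ℚ K]
    (h : NVal A q w) {π : 𝓞 K} (u : Unif A w K π) :
    nrm A K = q ^ (primeOf A K).inertiaDeg ℤ := by
  have hKn : NumberField K := ⟨⟩
  have hover := liesOver A hq hA h u
  have h1 := Ideal.absNorm_pow_inertiaDeg (Ideal.span {(q : ℤ)}) (primeOf A K)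
  rw [Ideal.absNorm_span_singleton, Algebra.norm_self, MonoidHom.id_apply, Int.natAbs_natCast] at h1
  rw [h1, Ideal.absNorm_apply]
  rfl

/-- `|O_Z/q| = q^(local degree)` -/
theorem relIndex_Bt_one (hq : q.Prime) (hA : A.LiesOverPrime q) [FiniteDimensional ℚ K]
    (h : NVal A q w) : (Bt h K 1).relIndex (Bt h K 0) = q ^ locDeg A K := by
  obtain ⟨π, u⟩ := exists_unif hq hA h K
  have h1 := exp_eq A hq hA h u
  have h2 := relIndex_Bt hq hA h u ((primeOf A K).ramificationIdx ℤ)
  rw [h1, nrm_eq A hq hA h u, ← pow_mul] at h2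
  rw [h2, locDeg, mul_comm]

theorem locDeg_mul (hq : q.Prime) (hA : A.LiesOverPrime q) [FiniteDimensional ℚ K]
    [FiniteDimensional ℚ N] (hKN : K ≤ N) :
    (DK A N).relIndex (DK A K) * locDeg A K = locDeg A N := relIndex_DK' A hq hA hKN

/-- number of `p`-th roots of unity -/
theorem card_mu (hp : p.Prime) {ζ : Qb} (hζ : IsPrimitiveRoot ζ p) (hζK : ζ ∈ ZK A K) :
    Nat.card {z : (ZK A K)ˣ // z ^ p = 1} = p := by
  have hζ' : IsPrimitiveRoot (⟨ζ, hζK⟩ : ZK A K) p :=
    IsPrimitiveRoot.of_map_of_injective (f := (ZK A K).val) hζ (ZK A K).val.injective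
  have : NeZero p := ⟨hp.ne_zero⟩
  have h1 := hζ'.card_rootsOfUnity
  refine Eq.trans ?_ h1
  exact Nat.card_congr (Equiv.subtypeEquivRight (fun z => (mem_rootsOfUnity p z).symm))

/-- **(L1)**, final form -/
theorem index_pow_eq (hq : q.Prime) (hA : A.LiesOverPrime q) [FiniteDimensional ℚ K]
    (hp : p.Prime) {ζ : Qb} (hζ : IsPrimitiveRoot ζ p) (hζK : ζ ∈ ZK A K) :
    (powMonoidHom p : (ZK A K)ˣ →* (ZK A K)ˣ).range.index =
      p ^ (2 + if q = p then locDeg A K else 0) := by
  obtain ⟨w, h⟩ := exists_NVal hq hA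
  rw [index_pow hq hA h hp, card_mu A hp hζ hζK]
  split_ifs with hqp
  · subst hqp
    rw [h.norm, relIndex_Bt_one A hq hA h]
    ring
  · have hndvd : ¬ q ∣ p := fun hd => hqp ((Nat.prime_dvd_prime_iff_eq hq hp).mp hd)
    have hwp : w (p : Qb) = 0 := by
      have := h.w_intCast hq hA (n := (p : ℤ)) (by exact_mod_cast hndvd)
      simpa using this
    rw [hwp, AddSubgroup.relIndex_self]
    ring

/-- without roots of unity in `Z` (`p` odd or not): the index when `μ_p(Z) = 1` -/
theorem index_pow_eq' (hq : q.Prime) (hA : A.LiesOverPrime q) [FiniteDimensional ℚ K]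
    (hp : p.Prime) (hμ : ∀ z ∈ ZK A K, z ^ p = 1 → z = 1) :
    (powMonoidHom p : (ZK A K)ˣ →* (ZK A K)ˣ).range.index =
      p ^ (1 + if q = p then locDeg A K else 0) := by
  obtain ⟨w, h⟩ := exists_NVal hq hA
  have hcard : Nat.card {z : (ZK A K)ˣ // z ^ p = 1} = 1 := by
    rw [Nat.card_eq_one_iff_unique]
    refine ⟨⟨fun a b => ?_⟩, ⟨⟨1, one_pow p⟩⟩⟩
    have key : ∀ c : {z : (ZK A K)ˣ // z ^ p = 1}, c.1 = 1 := by
      intro c
      apply Units.ext
      apply Subtype.ext
      refine hμ _ (c.1 : ZK A K).2 ?_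
      have := congrArg (fun z : (ZK A K)ˣ => cu z) c.2
      simpa [cu] using this
    exact Subtype.ext ((key a).trans (key b).symm)
  rw [index_pow hq hA h hp, hcard]
  split_ifs with hqp
  · subst hqp
    rw [h.norm, relIndex_Bt_one A hq hA h]
    ring
  · have hndvd : ¬ q ∣ p := fun hd => hqp ((Nat.prime_dvd_prime_iff_eq hq hp).mp hd)
    have hwp : w (p : Qb) = 0 := by
      have := h.w_intCast hq hA (n := (p : ℤ)) (by exact_mod_cast hndvd)
      simpa using this
    rw [hwp, AddSubgroup.relIndex_self]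
    ring

end Tower

end Fermat.Agent.L00.LKum
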