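import Fermat.Agent.CC.Iface2
import Fermat.Agent.L00.LKum6
set_option autoImplicit false
set_option linter.unusedSectionVars false
set_option linter.style.haveILetI false

/-!
# The interface `Prop`s of Program C proved by the lead
-/

noncomputable section

open Fermat.Agent.H05 Fermat.Agent.TW Fermat.Agent.LF
open Fermat.Agent.L00.Unr
open scoped NumberField Pointwise

namespace Fermat.Agent.L00

open Fermat.Agent.CC (CcUnif CcFrob CcTame CbCard IK lev)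

theorem zpow_w {A : ValuationSubring Qb} {q : ℕ} {w : Qb → ℝ} (h : NVal A q w) {x z : Qb}
    (hx : x ≠ 0) (hz : z ≠ 0) {n : ℤ} (e : A.valuation z = A.valuation x ^ n) :
    w z = n * w x := by
  rw [← map_zpow₀, h.log.eq_iff hz (zpow_ne_zero n hx)] at e
  rw [e, LKum.w_zpow h hx]

theorem ccUnif : CcUnif := by
  intro A q w hq hA h K hK
  have hg := Fermat.Agent.H51.isGalois_Qbar
  obtain ⟨π, hπK, hπ0, hπ1, hval⟩ := exists_uniformizer hq hA K
  refine ⟨π, hπK, hπ0, (h.log.pos_iff hπ0).1 hπ1, ?_⟩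
  intro b hb0 hb
  obtain ⟨n, hn⟩ := hval b hb0 hb
  exact ⟨n, zpow_w h hπ0 hb0 hn⟩

theorem ccFrob : CcFrob := by
  intro A q hq hA K hK
  have hg := Fermat.Agent.H51.isGalois_Qbar
  obtain ⟨φ, hφK, hφ⟩ := exists_frob hq hA K
  have hmem : φ ∈ DK A K := ⟨hφ.mem_decompositionSubgroup, hφK⟩
  obtain ⟨f, hf, hfe⟩ := exists_nrm_eq hq hA K
  refine ⟨φ, ⟨hmem, ⟨f, hf, ?_⟩, ?_⟩, ?_⟩
  · intro x hx
    have := frob_pow_sub hφ hx 1
    rw [pow_one, pow_one, hfe] at this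
    exact this
  · intro L hL g hg'
    obtain ⟨F, hFfin, hFn, hKF, -⟩ := exists_normal_containing (K ⊔ L) (0 : Qb)
    obtain ⟨n, τ, hτ, u, hu, he⟩ := generation hq hA K F hFn (le_sup_left.trans hKF) hφK hφ
      hg'.1 hg'.2
    refine ⟨n, τ, hτ, ?_⟩
    rw [he, inv_mul_cancel_left]
    exact IntermediateField.fixingSubgroup_antitone (le_sup_right.trans hKF) hu.2
  · intro N hN
    obtain ⟨χ, h1, ⟨F, hF, h2⟩, h3⟩ := exists_unram_char hq hA K hN
    refine ⟨fun g => Multiplicative.toAdd (χ g), ?_, ?_, ?_, ?_⟩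
    · intro g h
      exact congrArg Multiplicative.toAdd (map_mul χ g h)
    · refine ⟨(F.fixingSubgroup).comap (DK A K).subtype, ⟨F.fixingSubgroup, ⟨F, hF, le_rfl⟩, le_rfl⟩, ?_⟩
      intro g s hs
      exact congrArg Multiplicative.toAdd ((map_mul χ g s).trans
        ((congrArg (χ g * ·) (h2 s hs)).trans (mul_one _)))
    · intro g hgI
      exact congrArg Multiplicative.toAdd (h1 g hgI.1)
    · intro hφD
      exact congrArg Multiplicative.toAdd (h3 ⟨φ, hφD⟩ hφ)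

theorem locDeg_bot {A : ValuationSubring Qb} {q : ℕ} (hq : q.Prime) (hA : A.LiesOverPrime q) :
    LKum.locDeg A ⊥ = 1 := by
  have hg := Fermat.Agent.H51.isGalois_Qbar
  obtain ⟨w, h⟩ := exists_NVal hq hA
  have hn : NumberField (⊥ : IntermediateField ℚ Qb) := ⟨⟩
  obtain ⟨π, u⟩ := LKum.exists_unif hq hA h (⊥ : IntermediateField ℚ Qb)
  have hover := LKum.liesOver A hq hA h u
  have hnor : Normal ℚ (⊥ : IntermediateField ℚ Qb) :=
    Normal.of_algEquiv (IntermediateField.botEquiv ℚ Qb).symm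
  have hgal : IsGalois ℚ (⊥ : IntermediateField ℚ Qb) := { }
  have : IsGaloisGroup Gal((⊥ : IntermediateField ℚ Qb)/ℚ) ℤ (𝓞 (⊥ : IntermediateField ℚ Qb)) :=
    IsGaloisGroup.of_isFractionRing _ ℤ (𝓞 (⊥ : IntermediateField ℚ Qb)) ℚ
      (⊥ : IntermediateField ℚ Qb)
  have hqZ : (Ideal.span {(q : ℤ)}) ≠ ⊥ := by
    rw [Ne, Ideal.span_singleton_eq_bot]
    exact_mod_cast hq.ne_zero
  have hprime : (Ideal.span {(q : ℤ)}).IsPrime := by
    rw [Ideal.span_singleton_prime (by exact_mod_cast hq.ne_zero)]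
    exact Nat.prime_iff_prime_int.mp hq
  have hmax : (Ideal.span {(q : ℤ)}).IsMaximal := hprime.isMaximal hqZ
  have hperf : PerfectField (Ideal.span {(q : ℤ)}).ResidueField := by
    have hfin : Finite (ℤ ⧸ Ideal.span {(q : ℤ)}) := Ideal.finiteQuotientOfFreeOfNeBot _ hqZ
    have hb := Ideal.bijective_algebraMap_quotient_residueField (Ideal.span {(q : ℤ)})
    have : Finite (Ideal.span {(q : ℤ)}).ResidueField := Finite.of_surjective _ hb.2
    infer_instance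
  have h3 := Ideal.card_stabilizer_eq (G := Gal((⊥ : IntermediateField ℚ Qb)/ℚ))
    (Ideal.span {(q : ℤ)}) (primeOf A ⊥)
  rw [Ideal.ramificationIdxIn_eq_ramificationIdx (Ideal.span {(q : ℤ)}) (primeOf A ⊥)
      Gal((⊥ : IntermediateField ℚ Qb)/ℚ),
    Ideal.inertiaDegIn_eq_inertiaDeg (Ideal.span {(q : ℤ)}) (primeOf A ⊥)
      Gal((⊥ : IntermediateField ℚ Qb)/ℚ)] at h3
  rw [LKum.locDeg, ← h3]
  have hsub : Subsingleton Gal((⊥ : IntermediateField ℚ Qb)/ℚ) := by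
    refine ⟨fun a b => ?_⟩
    apply AlgEquiv.ext
    intro x
    obtain ⟨y, hy⟩ := IntermediateField.mem_bot.mp x.2
    have hx : x = algebraMap ℚ (⊥ : IntermediateField ℚ Qb) y := Subtype.ext hy.symm
    rw [hx, a.commutes, b.commutes]
  exact Nat.card_unique

theorem cbCard : CbCard := by
  intro A q p hq hp hp2 hA K hK hζ
  obtain ⟨ζ, hζK, hζ⟩ := hζ
  rw [LKum.index_pow_eq A hq hA hp hζ (le_ZK hζK)]
  congr 2
  split_ifs with hqp
  · have h1 := LKum.locDeg_mul A hq hA (K := ⊥) (N := K) bot_le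
    have h2 : LKum.locDeg A ⊥ = 1 := locDeg_bot hq hA
    rw [← h1, h2, mul_one]
  · rfl

theorem ccTame : CcTame := by
  intro A q p w hq hp hpq hA h K hK ϖ hϖ π hπ f hf hfc g hg'
  have hg := Fermat.Agent.H51.isGalois_Qbar
  classical
  obtain ⟨hϖK, hϖ0, hϖ1, hϖv⟩ := hϖ
  have hndvd : ¬ q ∣ p := fun hd => hpq ((Nat.prime_dvd_prime_iff_eq hq hp).mp hd).symm
  have : NeZero (p : Qb) := ⟨Nat.cast_ne_zero.2 hp.ne_zero⟩
  obtain ⟨ζ, hζ⟩ := HasEnoughRootsOfUnity.exists_primitiveRoot Qb p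
  have hpos := hp.pos
  haveI : NeZero p := ⟨hp.ne_zero⟩
  obtain ⟨U, ⟨V, ⟨F, hF, hFV⟩, hVU⟩, hU⟩ := hfc
  have hπ0 : π ≠ 0 := by
    rintro rfl
    rw [zero_pow hp.ne_zero] at hπ
    exact hϖ0 hπ.symm
  have hf1 : f 1 = 0 := by
    have := hf 1 1
    rw [mul_one] at this
    simpa using this
  have hzpow : ∀ a b : ZMod p, ζ ^ (a + b).val = ζ ^ a.val * ζ ^ b.val := by
    intro a b
    rw [← pow_add, ZMod.val_add]
    conv_rhs => rw [← Nat.mod_add_div (a.val + b.val) p, pow_add, pow_mul, hζ.pow_eq_one,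
      one_pow, mul_one]
  let f' : GQ → Qb := fun σ => if hσ : σ ∈ IK A K then ζ ^ (f ⟨σ, hσ⟩).val else 1
  have hf' : ∀ σ (hσ : σ ∈ IK A K), f' σ = ζ ^ (f ⟨σ, hσ⟩).val := fun σ hσ => dif_pos hσ
  obtain ⟨n, hn⟩ := inertia_char_eq hq hA K (m := p) hndvd ϖ hϖK hϖ0
    (by
      intro z hz0 hz
      obtain ⟨n, hn⟩ := hϖv z hz0 hz
      refine ⟨n, ?_⟩
      rw [← map_zpow₀, h.log.eq_iff hz0 (zpow_ne_zero n hϖ0), LKum.w_zpow h hϖ0]
      exact hn)
    π hπ f'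
    (by
      intro σ hσ
      rw [hf' σ hσ, ← pow_mul, mul_comm, pow_mul, hζ.pow_eq_one, one_pow])
    (by
      intro σ hσ τ hτ
      rw [hf' σ hσ, hf' τ hτ, hf' (σ * τ) (mul_mem hσ hτ), ← hzpow, ← hf]
      rfl)
    F.fixingSubgroup (IntermediateField.fixingSubgroup_isOpen F)
    (by
      intro σ hσ hσF
      rw [hf' σ hσ]
      have h1 := hU 1 ⟨σ, hσ⟩ (hVU (show (⟨σ, hσ⟩ : IK A K) ∈ V.comap (IK A K).subtype from hFV hσF))
      rw [one_mul, hf1] at h1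
      rw [h1, ZMod.val_zero, pow_zero])
  have h1 := hn g g.2
  rw [hf' g g.2, hg', div_self hπ0, one_zpow] at h1
  have h2 : p ∣ (f ⟨g, g.2⟩).val := (hζ.pow_eq_one_iff_dvd _).mp h1
  have h3 : (f ⟨g, g.2⟩).val < p := ZMod.val_lt _
  have h4 : (f ⟨g, g.2⟩).val = 0 := Nat.eq_zero_of_dvd_of_lt h2 h3
  exact (ZMod.val_eq_zero _).mp h4

end Fermat.Agent.L00
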