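import Fermat.Agent.L00.Recip8
set_option autoImplicit false
set_option linter.unusedSectionVars false
set_option linter.style.haveILetI false
set_option maxHeartbeats 400000

/-!
# Reciprocity (lead, Program C [6])
-/

noncomputable section

namespace Fermat.Agent.L00.Recip

open Fermat.Agent.CC Fermat.Agent.CFT Fermat.Agent.H05
open Fermat.Agent.LF (DK ZK mem_ZK)
open Fermat.Agent.TW (NVal Bl Bs exists_NVal)
open scoped Pointwise

variable {p m : ℕ} [Fact p.Prime] [Fact m.Prime]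

theorem sum_zero (h2 : p ≠ 2) (hGe : NormIndexGe p)
    (ind : (ZMod m)ˣ →* Multiplicative (ZMod p))
    (hs : Function.Surjective ind) (hk : ∀ u, ind u = 1 ↔ ∃ y, y ^ p = u) (hmp : m ≠ p)
    (S : Finset ℕ) (hSp : ∀ ℓ ∈ S, ℓ.Prime) (hmS : m ∉ S) (a : H0 GQ (UL Qb)) {r₀ : ℚ}
    (hr₀ : r₀ ≠ 0) (har : a.1.val = (r₀ : Qb))
    (hA : ∀ (A : ValuationSubring Qb) (q : ℕ), q.Prime → A.LiesOverPrime q → q ∉ S →
      kc (Act.self (DK A ⊥)).smooth (ULdiv p) (chiD ind A) (chiD_mul ind A) (chiD_const ind A)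
        (resD A a) = 0) :
    ∑ ℓ ∈ S, ((padicValRat ℓ r₀ : ℤ) : ZMod p) * cc ind ℓ = 0 := by
  classical
  have hm : m.Prime := Fact.out
  have hm0 : (m : ℚ) ≠ 0 := Nat.cast_ne_zero.mpr hm.ne_zero
  set n : ℤ := padicValRat m r₀ with hn
  set r : ℚ := r₀ * (m : ℚ) ^ (-n) with hr
  have hr0 : r ≠ 0 := mul_ne_zero hr₀ (zpow_ne_zero _ hm0)
  have hval : ∀ ℓ : ℕ, ℓ.Prime → ℓ ≠ m → padicValRat ℓ r = padicValRat ℓ r₀ := by
    intro ℓ hℓ hℓm
    have : Fact ℓ.Prime := ⟨hℓ⟩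
    rw [hr, padicValRat.mul hr₀ (zpow_ne_zero _ hm0), padicValRat.zpow,
      padicValRat.of_nat, padicValNat.eq_zero_of_not_dvd (fun h =>
        hℓm ((Nat.prime_dvd_prime_iff_eq hℓ hm).mp h))]
    simp
  have hrm : padicValRat m r = 0 := by
    rw [hr, padicValRat.mul hr₀ (zpow_ne_zero _ hm0), padicValRat.zpow,
      padicValRat.self hm.one_lt, ← hn]
    ring
  set T : Finset ℕ := S ∪ (r.num.natAbs.primeFactors ∪ r.den.primeFactors) with hT
  have hTp : ∀ ℓ ∈ T, ℓ.Prime := by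
    intro ℓ hℓ
    rcases Finset.mem_union.mp hℓ with h | h
    · exact hSp ℓ h
    · rcases Finset.mem_union.mp h with h | h
      · exact Nat.prime_of_mem_primeFactors h
      · exact Nat.prime_of_mem_primeFactors h
  have hsum := cc_rat h2 ind T hTp hr0 hrm
    (Finset.subset_union_left.trans Finset.subset_union_right)
    (Finset.subset_union_right.trans Finset.subset_union_right)
  -- at `m`
  obtain ⟨B, hB⟩ := exists_liesOverPrime Qb hm
  have hback : a.1.val = (r : Qb) * (m : Qb) ^ n := by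
    have h3 : r₀ = r * (m : ℚ) ^ n := by
      rw [hr, mul_assoc, ← zpow_add₀ hm0, neg_add_cancel, zpow_zero, mul_one]
    rw [har]
    conv_lhs => rw [h3]
    push_cast
    rfl
  obtain ⟨b, hb, hdvd, hib⟩ := ind_at_m hGe ind hs hk hmp hB (resD B a)
    (hA B m hm hB hmS) hr0 n hback hrm
  obtain ⟨hnum, hden⟩ := not_dvd_of_val hr0 hrm
  have h4 : cc ind r.num = cc ind r.den := by
    rw [cc_congr ind hdvd, cc_mul ind hb (by rwa [Int.natCast_dvd_natCast]), cc_of_not hb, hib,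
      toAdd_one, zero_add]
  rw [h4, sub_self] at hsum
  rw [← hsum]
  refine Finset.sum_subset_zero_on_sdiff Finset.subset_union_left (fun ℓ hℓ => ?_)
    (fun ℓ hℓ => ?_)
  · obtain ⟨hℓT, hℓS⟩ := Finset.mem_sdiff.mp hℓ
    have hℓp := hTp ℓ hℓT
    by_cases hℓm : ℓ = m
    · rw [hℓm, cc_of_dvd (dvd_refl _), mul_zero]
    · obtain ⟨A, hAℓ⟩ := exists_liesOverPrime Qb hℓp
      obtain ⟨w, hw⟩ := exists_NVal hℓp hAℓ
      have hndvd : ¬ (m : ℤ) ∣ (ℓ : ℤ) := by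
        rw [Int.natCast_dvd_natCast]
        exact fun h => hℓm ((Nat.prime_dvd_prime_iff_eq hm hℓp).mp h).symm
      rw [hval ℓ hℓp hℓm, cc_of_not hndvd]
      refine val_ind hℓp hAℓ hℓm ind hw (resD A a) (hA A ℓ hℓp hAℓ hℓS) ?_ (uz ℓ hndvd) ?_
      · change w a.1.val = _
        rw [har]
        exact w_rat hℓp hAℓ hw hr₀
      · change ((ℓ : ℤ) : ZMod m) = _
        push_cast
        rfl
  · rw [hval ℓ (hSp ℓ hℓ) (fun h => hmS (h ▸ hℓ))]

/-- **Reciprocity** -/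
theorem recip {p : ℕ} [hp : Fact p.Prime] (h2 : p ≠ 2) : CC.Recip p := by
  classical
  intro S hpS A hA inv hinv x
  have hLe := CFT.normIndexLe hp.out h2
  have hGe := CFT.normIndexGe hp.out h2
  have hHN := CFT.hasseNorm hp.out h2
  let S' : Finset ℕ := S.image (fun q : Nat.Primes => (q : ℕ))
  have hS'p : ∀ ℓ ∈ S', ℓ.Prime := by
    intro ℓ hℓ
    obtain ⟨q, -, rfl⟩ := Finset.mem_image.mp hℓ
    exact q.2
  obtain ⟨m, hm, -, hmS, hpm, hind⟩ := exists_prime hp.out S' ∅ hS'p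
  have hmfact : Fact m.Prime := ⟨hm⟩
  have hmS' : ∀ ℓ ∈ S, ((ℓ : Nat.Primes) : ℕ) ≠ m := by
    rintro ℓ hℓ rfl
    exact hmS (Finset.mem_image_of_mem _ hℓ)
  have hmp : m ≠ p := fun h => hmS' _ hpS h.symm
  obtain ⟨ind, hs, hk⟩ := exists_ind hpm
  have hind' : ∀ ℓ ∈ S, ∀ u : (ZMod m)ˣ, (u : ZMod m) = (((ℓ : Nat.Primes) : ℕ) : ZMod m) →
      ind u ≠ 1 := by
    intro ℓ hℓ u hu h1
    obtain ⟨y, hy⟩ := (hk u).mp h1
    refine hind ℓ (Finset.mem_image_of_mem _ hℓ) ⟨(y : ZMod m), ?_⟩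
    rw [← hu, ← hy]
    push_cast
    rfl
  obtain ⟨a, ha⟩ := exists_a hHN hLe hGe hpS x ind hs hmS' hind'
  -- `a` is rational
  have har : ∃ r₀ : ℚ, a.1.val = (r₀ : Qb) := by
    have h3 : a.1.val ∈ (⊥ : IntermediateField ℚ Qb) := by
      refine LF.mem_of_fixed _ fun σ _ => ?_
      have h4 := congrArg UL.val (a.2 σ)
      rw [UL.val_smul] at h4
      exact h4
    obtain ⟨r, hr⟩ := IntermediateField.mem_bot.mp h3
    exact ⟨r, by rw [← hr]; exact eq_ratCast _ r⟩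
  obtain ⟨r₀, har⟩ := har
  have hr₀ : r₀ ≠ 0 := by
    rintro rfl
    exact a.1.val_ne_zero (by rw [har]; exact Rat.cast_zero)
  have hloc : ∀ B : ValuationSubring Qb, loc2 (cont_D S B ⊥) (Mu p) x =
      kc (Act.self (DK B ⊥)).smooth (ULdiv p) (chiD ind B) (chiD_mul ind B) (chiD_const ind B)
        (resD B a) := by
    intro B
    rw [← resH2_toG, ha, kc_resD]
  have hsum := sum_zero h2 hGe ind hs hk hmp S' hS'p hmS a hr₀ har (by
    intro B q hq hB hqS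
    rw [← hloc]
    refine unr_vanish x hq hB ?_ ?_
    · rintro rfl
      exact hqS (Finset.mem_image_of_mem (fun q : Nat.Primes => (q : ℕ)) hpS)
    · rintro ℓ hℓ rfl
      exact hqS (Finset.mem_image_of_mem _ hℓ))
  have hsum' : ∑ q ∈ S, ((padicValRat ((q : Nat.Primes) : ℕ) r₀ : ℤ) : ZMod p) *
      cc ind ((q : Nat.Primes) : ℕ) = 0 := by
    rw [← hsum]
    exact (Finset.sum_image (f := fun ℓ : ℕ => ((padicValRat ℓ r₀ : ℤ) : ZMod p) * cc ind ℓ)
      (fun q _ q' _ h => Nat.Primes.coe_nat_injective h)).symm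
  clear hsum
  rename' hsum' => hsum
  rw [← hsum, ← Finset.sum_coe_sort S]
  refine Finset.sum_congr rfl fun q _ => ?_
  have hq : ((q : Nat.Primes) : ℕ).Prime := (q : Nat.Primes).2
  obtain ⟨w, hw⟩ := exists_NVal hq (hA q)
  obtain ⟨φ, hφ⟩ := exists_isFrobeniusAt hq (hA q)
  have hφD : φ ∈ DK (A q) (⊥ : IntermediateField ℚ Qb) := by rw [dec_eq]; exact hφ.1
  have hqm := hmS' q q.2
  have hndvd : ¬ (m : ℤ) ∣ (((q : Nat.Primes) : ℕ) : ℤ) := by
    rw [Int.natCast_dvd_natCast]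
    exact fun h => hqm ((Nat.prime_dvd_prime_iff_eq hm hq).mp h).symm
  rw [hloc, hinv q w hw _ (ULdiv p) ⟨φ, hφD⟩ hφ (chiD ind (A q)) (chiD_mul ind (A q))
    (chiD_const ind (A q)) (fun g hg => chi_inertia ind hq (hA q) hqm hg.1) (resD (A q) a)
    (padicValRat ((q : Nat.Primes) : ℕ) r₀) (by
      change w a.1.val = _
      rw [har]
      exact w_rat hq (hA q) hw hr₀)]
  congr 1
  change chi ind φ = _
  rw [cc_of_not hndvd]
  refine chi_frob ind hq (hA q) hqm (frob_nonunits hφ) _ ?_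
  change (((((q : Nat.Primes) : ℕ) : ℤ)) : ZMod m) = _
  push_cast
  rfl

end Fermat.Agent.L00.Recip
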