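import Fermat.Agent.L00.S55D
set_option autoImplicit false
set_option linter.unusedSectionVars false
set_option linter.style.haveILetI false
set_option maxHeartbeats 400000
set_option synthInstance.maxHeartbeats 400000

/-!
# Translation of `Ш` (lead, Program C (E)): the pairing
-/

noncomputable section

namespace Fermat.Agent.L00.Tr

open Fermat.Agent.CC CategoryTheory groupCohomology ExtCitation
open Fermat.Agent.LF (DK)

variable {p : ℕ} [hp : Fact p.Prime]

/-- the action on `μ_p` -/
theorem tau_smul (g : GQ) (c : ZMod p) :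
    g • ((tauT p).symm c) = (tauT p).symm (((cycloChar p g : (ZMod p)ˣ) : ZMod p) * c) := by
  haveI : NeZero p := ⟨hp.out.ne_zero⟩
  set t := (tauT p).symm c with ht
  have h1 : p • (TorP.incl p (UL Qb) t) = 0 := TorP.incl_mem _
  have h2 := congrArg UL.val h1
  rw [UL.val_nsmul, UL.val_zero] at h2
  have h3 := Recip.cyclo_spec (m := p) g h2
  have h4 : g • t = ((cycloChar p g : (ZMod p)ˣ) : ZMod p).val • t := by
    apply TorP.incl_injective
    rw [TorP.incl_smul, map_nsmul]
    apply UL.ext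
    rw [UL.val_smul, UL.val_nsmul]
    exact h3
  rw [h4, ht, ← map_nsmul]
  congr 1
  rw [nsmul_eq_mul, ZMod.natCast_zmod_val]

variable (M : Rep (ZMod p) GQ)

/-- the dual module -/
abbrev MD : Rep (ZMod p) GQ := M.dualTwist (cycloChar p)

/-- conversion -/
def dv (f : MT (MD M)) : Module.Dual (ZMod p) M := f

/-- conversion -/
def dvi (f : Module.Dual (ZMod p) M) : MT (MD M) := f

theorem dv_dvi (f : Module.Dual (ZMod p) M) : dv M (dvi M f) = f := rfl

theorem dv_add (f f' : MT (MD M)) : dv M (f + f') = dv M f + dv M f' := rfl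

theorem dv_smul (g : GQ) (f : MT (MD M)) (m : M) :
    dv M (g • f) m = ((cycloChar p g : (ZMod p)ˣ) : ZMod p) * dv M f (M.ρ g⁻¹ m) := rfl

theorem dv_inj {f f' : MT (MD M)} (h : ∀ m : M, dv M f m = dv M f' m) : f = f' :=
  LinearMap.ext (f := dv M f) (g := dv M f') h

/-- the pairing with values in `μ_p` -/
def ePair : MT M →+ MT (MD M) →+ Mu p :=
  AddMonoidHom.mk' (fun m => AddMonoidHom.mk' (fun f : MT (MD M) =>
    (tauT p).symm (dv M f m)) (fun f f' => by
      rw [← map_add, dv_add]; rfl)) (fun m m' => by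
    ext f
    change (tauT p).symm (dv M f (m + m')) = (tauT p).symm (dv M f m) + (tauT p).symm (dv M f m')
    rw [← map_add]
    congr 1
    exact map_add (dv M f) m m')

theorem ePair_apply (m : MT M) (f : MT (MD M)) :
    ePair M m f = (tauT p).symm (dv M f m) := rfl

theorem ePair_eq : EqPair GQ (ePair M) := by
  intro g m f
  rw [ePair_apply, ePair_apply, tau_smul]
  congr 1
  refine (dv_smul M g f (g • m)).trans ?_
  congr 2
  change (M.ρ g⁻¹ * M.ρ g) m = m
  rw [← map_mul, inv_mul_cancel, map_one]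
  rfl

theorem kill_MT (B : Rep (ZMod p) GQ) (m : MT B) : p • m = 0 := by
  rw [← Nat.cast_smul_eq_nsmul (ZMod p), ZMod.natCast_self, zero_smul]

variable {S : Finset Nat.Primes} (hpS : pP p ∈ S)
  (hsm : ∀ m : M, ∃ F : IntermediateField ℚ (AlgebraicClosure ℚ), FiniteDimensional ℚ F ∧
      ∀ s ∈ F.fixingSubgroup, M.ρ s m = m)
  (hMur : ∀ q : Nat.Primes, q ∉ S → ∀ A : ValuationSubring (AlgebraicClosure ℚ),
      A.LiesOverPrime (q : ℕ) → ∀ g ∈ A.inertiaSubgroupIn ℚ, M.ρ g = 1)

include hsm hMur in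
theorem smooth_M : (levS S).Smooth (MT M) := by
  intro m
  refine ⟨MulAction.stabilizer GQ m, levS_open ?_ fun q hq A hA g hg => ?_, fun s hs => hs⟩
  · obtain ⟨F, hF, h⟩ := hsm m
    exact ⟨F, hF, fun s hs => h s hs⟩
  · change M.ρ g m = m
    rw [hMur q hq A hA g hg]
    rfl

instance finite_MT [FiniteDimensional (ZMod p) M] : Finite (MT M) :=
  Module.finite_of_finite (ZMod p) (M := M)

instance finite_MTD [FiniteDimensional (ZMod p) M] : Finite (MT (MD M)) :=
  Module.finite_of_finite (ZMod p) (M := Module.Dual (ZMod p) M)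

include hpS hsm hMur in
theorem smooth_MD [FiniteDimensional (ZMod p) M] : (levS S).Smooth (MT (MD M)) := by
  intro f
  obtain ⟨U, hU, hUM⟩ := (smooth_M M hsm hMur).finite (Set.toFinite (Set.univ : Set (MT M)))
  have hfin : Finite (Mu p) := Finite.of_equiv _ (tauT p).symm.toEquiv
  obtain ⟨V, hV, hVμ⟩ := (smooth_Mu hpS).finite (Set.toFinite (Set.univ : Set (Mu p)))
  refine ⟨U ⊓ V, (levS S).inf _ _ hU hV, fun s hs => ?_⟩
  have h1 : ((cycloChar p s : (ZMod p)ˣ) : ZMod p) = 1 := by
    have h2 := tau_smul (p := p) s 1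
    rw [hVμ _ trivial s hs.2, mul_one] at h2
    exact ((tauT p).symm.injective h2).symm
  refine dv_inj M fun m => ?_
  rw [dv_smul, h1, one_mul]
  have h3 : M.ρ s⁻¹ m = m := hUM m trivial _ (inv_mem hs.1)
  rw [h3]

include hpS hsm hMur in
theorem pr_ePair [FiniteDimensional (ZMod p) M] : Pr p (levS S) (ePair M) where
  fA := finite_MT M
  fB := finite_MTD M
  he := ePair_eq M
  smA := smooth_M M hsm hMur
  smB := smooth_MD M hpS hsm hMur
  kA := kill_MT M
  kB := kill_MT (MD M)
  hl := fun a h => by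
    refine (Module.forall_dual_apply_eq_zero_iff (ZMod p) (V := M) a).mp fun f => ?_
    have h1 := h (dvi M f)
    rw [ePair_apply, EmbeddingLike.map_eq_zero_iff] at h1
    exact h1
  hr := fun f h => by
    refine dv_inj M fun m => ?_
    have h1 : (tauT p).symm (dv M f m) = 0 := h m
    rw [EmbeddingLike.map_eq_zero_iff] at h1
    exact h1

/-- linear algebra: spaces of equal cardinality are in perfect duality -/
theorem exists_pairing {V W : Type} [AddCommGroup V] [AddCommGroup W] [Module (ZMod p) V]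
    [Module (ZMod p) W] [Finite V] [Finite W] (h : Nat.card V = Nat.card W) :
    ∃ B : V →ₗ[ZMod p] W →ₗ[ZMod p] ZMod p,
      (∀ y, (∀ x, B y x = 0) → y = 0) ∧ (∀ x, (∀ y, B y x = 0) → x = 0) := by
  have : Module.Finite (ZMod p) V := Module.Finite.of_finite
  have : Module.Finite (ZMod p) W := Module.Finite.of_finite
  have h1 : Module.finrank (ZMod p) V = Module.finrank (ZMod p) W := by
    have e1 := Module.natCard_eq_pow_finrank (K := ZMod p) (V := V)
    have e2 := Module.natCard_eq_pow_finrank (K := ZMod p) (V := W)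
    rw [h, e2, Nat.card_zmod] at e1
    exact (Nat.pow_right_injective hp.out.two_le e1).symm
  have h2 : Module.finrank (ZMod p) V = Module.finrank (ZMod p) (Module.Dual (ZMod p) W) := by
    rw [h1, Subspace.dual_finrank_eq]
  let e := LinearEquiv.ofFinrankEq V (Module.Dual (ZMod p) W) h2
  refine ⟨e.toLinearMap, fun y hy => ?_, fun x hx => ?_⟩
  · have : e y = 0 := LinearMap.ext hy
    exact (LinearEquiv.map_eq_zero_iff e).mp this
  · refine (Module.forall_dual_apply_eq_zero_iff (ZMod p) x).mp fun f => ?_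
    obtain ⟨y, rfl⟩ := e.surjective f
    exact hx y

/-- **S55 from the cardinality form of Poitou–Tate duality** -/
theorem s55_of_PTcard (hPT : PTcard p) (hp2 : p ≠ 2) (S : Finset Nat.Primes)
    (hpS : pPrime p ∈ S) (M : Rep (ZMod p) GQ) [FiniteDimensional (ZMod p) M]
    (hsm : ∀ m : M, ∃ F : IntermediateField ℚ (AlgebraicClosure ℚ), FiniteDimensional ℚ F ∧
      ∀ s ∈ F.fixingSubgroup, M.ρ s m = m)
    (hMur : ∀ q : Nat.Primes, q ∉ S → ∀ A : ValuationSubring (AlgebraicClosure ℚ),
      A.LiesOverPrime (q : ℕ) → ∀ g ∈ A.inertiaSubgroupIn ℚ, M.ρ g = 1) :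
    ∃ B : sha₁ S (M.dualTwist (cycloChar p)) →ₗ[ZMod p] sha₂ S M →ₗ[ZMod p] ZMod p,
      (∀ y, (∀ x, B y x = 0) → y = 0) ∧ (∀ x, (∀ y, B y x = 0) → x = 0) := by
  have hpS' : pP p ∈ S := hpS
  obtain ⟨h1, h2, h3⟩ := hPT S hpS' (plc S) (plc_over S) (MT M) (MT (MD M)) (ePair M)
    (pr_ePair M hpS' hsm hMur)
  have hc1 := card_sha1 S (MD M) hp2 (smooth_MD M hpS' hsm hMur)
  have hc2 := card_sha2 S M hp2 (smooth_M M hsm hMur)
  have hf1 : Finite (sha₁ S (MD M)) := by
    apply Nat.finite_of_card_ne_zero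
    rw [hc1]
    exact Nat.card_pos.ne'
  have hf2 : Finite (sha₂ S M) := by
    apply Nat.finite_of_card_ne_zero
    rw [hc2]
    exact Nat.card_pos.ne'
  exact exists_pairing (by rw [hc1, hc2, h3])

end Fermat.Agent.L00.Tr
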