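import Mathlib

/-! Hilbert symbol block, part 1: ternary forms `a X² + b Y² = Z²` over a field and over `ℚ_[p]`. -/

namespace Fermat.Agent.L00.HilbQ

/-- `a X² + b Y² = Z²` has a nontrivial zero. -/
def Iso {K : Type*} [Field K] (a b : K) : Prop :=
  ∃ x y z : K, (x ≠ 0 ∨ y ≠ 0 ∨ z ≠ 0) ∧ a * x ^ 2 + b * y ^ 2 = z ^ 2

section Field

variable {K : Type*} [Field K]

theorem Iso.symm {a b : K} (h : Iso a b) : Iso b a := by
  obtain ⟨x, y, z, h0, h1⟩ := h
  exact ⟨y, x, z, by tauto, by rw [← h1]; ring⟩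

theorem iso_comm {a b : K} : Iso a b ↔ Iso b a := ⟨Iso.symm, Iso.symm⟩

theorem iso_of_sq {s : K} (b : K) : Iso (s ^ 2) b :=
  ⟨1, 0, s, Or.inl one_ne_zero, by ring⟩

theorem iso_mul_sq_left {a b c : K} (hc : c ≠ 0) : Iso (a * c ^ 2) b ↔ Iso a b := by
  constructor
  · rintro ⟨x, y, z, h0, h1⟩
    refine ⟨c * x, y, z, ?_, by rw [← h1]; ring⟩
    rcases h0 with h | h | h
    · exact Or.inl (mul_ne_zero hc h)
    · exact Or.inr (Or.inl h)
    · exact Or.inr (Or.inr h)
  · rintro ⟨x, y, z, h0, h1⟩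
    refine ⟨x / c, y, z, ?_, by rw [← h1]; field_simp⟩
    rcases h0 with h | h | h
    · exact Or.inl (div_ne_zero h hc)
    · exact Or.inr (Or.inl h)
    · exact Or.inr (Or.inr h)

theorem iso_mul_sq_right {a b c : K} (hc : c ≠ 0) : Iso a (b * c ^ 2) ↔ Iso a b := by
  rw [iso_comm, iso_mul_sq_left hc, iso_comm]

theorem iso_sub {a b : K} (hc : a ≠ 0) : Iso a (-(a * b)) ↔ Iso a b := by
  have key : ∀ b : K, Iso a b → Iso a (-(a * b)) := by
    rintro b ⟨x, y, z, h0, h1⟩
    refine ⟨z, y, a * x, ?_, by rw [← h1]; ring⟩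
    rcases h0 with h | h | h
    · exact Or.inr (Or.inr (mul_ne_zero hc h))
    · exact Or.inr (Or.inl h)
    · exact Or.inl h
  refine ⟨fun h => ?_, key b⟩
  have h2 := key _ h
  have h3 : -(a * -(a * b)) = b * a ^ 2 := by ring
  rwa [h3, iso_mul_sq_right hc] at h2

/-- the norm group property -/
theorem Iso.mul {a b c : K} (hb : Iso a b) (hc : Iso a c) : Iso a (b * c) := by
  by_cases hs : ∃ s : K, s ^ 2 = a
  · obtain ⟨s, rfl⟩ := hs
    exact iso_of_sq _
  have key : ∀ {b : K}, Iso a b → ∃ u v : K, b = u ^ 2 - a * v ^ 2 := by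
    rintro b ⟨x, y, z, h0, h1⟩
    by_cases hy : y = 0
    · exfalso
      subst hy
      by_cases hx : x = 0
      · subst hx
        have : z = 0 := by
          have : z ^ 2 = 0 := by rw [← h1]; ring
          exact pow_eq_zero_iff (two_ne_zero) |>.mp this
        simp_all
      · exact hs ⟨z / x, by field_simp; rw [← h1]; ring⟩
    · exact ⟨z / y, x / y, by field_simp; rw [← h1]; ring⟩
  obtain ⟨u, v, rfl⟩ := key hb
  obtain ⟨u', v', rfl⟩ := key hc
  by_cases hv : u * u' + a * v * v' = 0 ∧ u * v' + v * u' = 0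
  · refine ⟨0, 1, 0, by simp, ?_⟩
    have : (u ^ 2 - a * v ^ 2) * (u' ^ 2 - a * v' ^ 2)
      = (u * u' + a * v * v') ^ 2 - a * (u * v' + v * u') ^ 2 := by ring
    rw [this, hv.1, hv.2]; ring
  · exact ⟨u * v' + v * u', 1, u * u' + a * v * v', by simp, by ring⟩

theorem Iso.of_mul {a b c : K} (hb0 : b ≠ 0) (hb : Iso a b) (hc : Iso a (b * c)) : Iso a c := by
  have h := hb.mul hc
  have : b * (b * c) = c * b ^ 2 := by ring
  rwa [this, iso_mul_sq_right hb0] at h

end Field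

section Padic

variable {p : ℕ} [hp : Fact p.Prime]

theorem exists_sq_of_near (u s : ℤ_[p]) (h : ‖u - s ^ 2‖ < ‖2 * s‖ ^ 2) : ∃ z : ℤ_[p], z ^ 2 = u := by
  open Polynomial in
  have h1 : ‖(X ^ 2 - C u : ℤ_[p][X]).aeval s‖ < ‖(derivative (X ^ 2 - C u : ℤ_[p][X])).aeval s‖ ^ 2 := by
    have e1 : (X ^ 2 - C u : ℤ_[p][X]).aeval s = -(u - s ^ 2) := by simp
    have e2 : (derivative (X ^ 2 - C u : ℤ_[p][X])).aeval s = 2 * s := by
      simp only [derivative_sub, derivative_X_pow, derivative_C, sub_zero, map_mul, aeval_C]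
      simp
    rw [e1, e2, norm_neg]
    exact h
  obtain ⟨z, hz, -⟩ := hensels_lemma h1
  refine ⟨z, ?_⟩
  have : z ^ 2 - u = 0 := by simpa using hz
  exact sub_eq_zero.mp this

/-- every nontrivial zero over `ℚ_[p]` can be made integral and primitive. -/
theorem iso_iff_primitive (a b : ℤ_[p]) : Iso (a : ℚ_[p]) (b : ℚ_[p]) ↔
    ∃ x y z : ℤ_[p], (‖x‖ = 1 ∨ ‖y‖ = 1 ∨ ‖z‖ = 1) ∧ a * x ^ 2 + b * y ^ 2 = z ^ 2 := by
  constructor
  · rintro ⟨x, y, z, h0, h1⟩
    -- scale by the element of the largest norm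
    have main : ∀ x y z : ℚ_[p], ∀ m : ℚ_[p], m ≠ 0 → ‖x‖ ≤ ‖m‖ → ‖y‖ ≤ ‖m‖ → ‖z‖ ≤ ‖m‖ →
        (m = x ∨ m = y ∨ m = z) → (a : ℚ_[p]) * x ^ 2 + b * y ^ 2 = z ^ 2 →
        ∃ x y z : ℤ_[p], (‖x‖ = 1 ∨ ‖y‖ = 1 ∨ ‖z‖ = 1) ∧ a * x ^ 2 + b * y ^ 2 = z ^ 2 := by
      intro x y z m hm hx hy hz hmm h1
      have hm' : 0 < ‖m‖ := norm_pos_iff.mpr hm
      have hle : ∀ t : ℚ_[p], ‖t‖ ≤ ‖m‖ → ‖t / m‖ ≤ 1 := by
        intro t ht
        rw [norm_div]
        exact (div_le_one hm').mpr ht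
      refine ⟨⟨x / m, hle x hx⟩, ⟨y / m, hle y hy⟩, ⟨z / m, hle z hz⟩, ?_, ?_⟩
      · rcases hmm with rfl | rfl | rfl
        · left
          show ‖m / m‖ = 1
          rw [div_self hm, norm_one]
        · right; left
          show ‖m / m‖ = 1
          rw [div_self hm, norm_one]
        · right; right
          show ‖m / m‖ = 1
          rw [div_self hm, norm_one]
      · apply PadicInt.ext
        push_cast
        show (a : ℚ_[p]) * (x / m) ^ 2 + b * (y / m) ^ 2 = (z / m) ^ 2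
        field_simp
        linear_combination h1
    rcases le_total ‖x‖ ‖y‖ with hxy | hxy
    · rcases le_total ‖y‖ ‖z‖ with hyz | hyz
      · refine main x y z z ?_ (hxy.trans hyz) hyz le_rfl (by tauto) h1
        rintro rfl
        simp only [norm_zero, norm_le_zero_iff] at hyz
        subst hyz
        simp only [norm_zero, norm_le_zero_iff] at hxy
        simp_all
      · refine main x y z y ?_ hxy le_rfl hyz (by tauto) h1
        rintro rfl
        simp only [norm_zero, norm_le_zero_iff] at hyz hxy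
        simp_all
    · rcases le_total ‖x‖ ‖z‖ with hyz | hyz
      · refine main x y z z ?_ hyz (hxy.trans hyz) le_rfl (by tauto) h1
        rintro rfl
        simp only [norm_zero, norm_le_zero_iff] at hyz
        subst hyz
        simp only [norm_zero, norm_le_zero_iff] at hxy
        simp_all
      · refine main x y z x ?_ le_rfl hxy hyz (by tauto) h1
        rintro rfl
        simp only [norm_zero, norm_le_zero_iff] at hyz hxy
        simp_all
  · rintro ⟨x, y, z, h0, h1⟩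
    refine ⟨x, y, z, ?_, ?_⟩
    · have key : ∀ t : ℤ_[p], ‖t‖ = 1 → (t : ℚ_[p]) ≠ 0 := by
        intro t ht h
        have : ‖(t : ℚ_[p])‖ = 1 := by simpa using ht
        rw [h, norm_zero] at this
        exact zero_ne_one this
      rcases h0 with h | h | h
      · exact Or.inl (key _ h)
      · exact Or.inr (Or.inl (key _ h))
      · exact Or.inr (Or.inr (key _ h))
    · have := congrArg (fun t : ℤ_[p] => (t : ℚ_[p])) h1
      simpa using this

end Padic

end Fermat.Agent.L00.HilbQ
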