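import Fermat.Agent.L00.HilbQ4

/-! Hilbert symbol block, part 5: isotropy over `ℚ_[p]` is detected by the symbol; parity of the
number of anisotropic places; local bilinearity. -/

namespace Fermat.Agent.L00.HilbQ

open ZMod

open scoped NumberTheorySymbols

section Padic

variable {p : ℕ} [hp : Fact p.Prime]

theorem norm_up {a : ℤ} (ha : a ≠ 0) : ‖((up p a : ℤ) : ℤ_[p])‖ = 1 := by
  rw [PadicInt.norm_intCast_eq_one_iff]
  have h := up_not_dvd hp.out ha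
  rw [isCoprime_comm, Prime.coprime_iff_not_dvd (Nat.prime_iff_prime_int.mp hp.out)]
  exact h

theorem cast_eq {a : ℤ} : ((a : ℤ) : ℚ_[p]) = (p : ℚ_[p]) ^ padicValInt p a * (up p a : ℤ) := by
  conv_lhs => rw [← pow_mul_up hp.out a]
  push_cast; rfl

theorem p_ne_zero : (p : ℚ_[p]) ≠ 0 := by exact_mod_cast hp.out.ne_zero

/-- reduction of `a` modulo squares, even valuation -/
theorem iso_even {a : ℤ} {b : ℚ_[p]} (h : Even (padicValInt p a)) :
    Iso (a : ℚ_[p]) b ↔ Iso (((up p a : ℤ) : ℤ_[p]) : ℚ_[p]) b := by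
  obtain ⟨k, hk⟩ := h
  have : (a : ℚ_[p]) = (((up p a : ℤ) : ℤ_[p]) : ℚ_[p]) * ((p : ℚ_[p]) ^ k) ^ 2 := by
    rw [cast_eq, hk]; push_cast; ring
  rw [this, iso_mul_sq_left (pow_ne_zero _ p_ne_zero)]

theorem iso_odd {a : ℤ} {b : ℚ_[p]} (h : Odd (padicValInt p a)) :
    Iso (a : ℚ_[p]) b ↔ Iso ((p : ℚ_[p]) * (((up p a : ℤ) : ℤ_[p]) : ℚ_[p])) b := by
  obtain ⟨k, hk⟩ := h
  have : (a : ℚ_[p]) = ((p : ℚ_[p]) * (((up p a : ℤ) : ℤ_[p]) : ℚ_[p])) * ((p : ℚ_[p]) ^ k) ^ 2 := by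
    rw [cast_eq, hk]; push_cast; ring
  rw [this, iso_mul_sq_left (pow_ne_zero _ p_ne_zero)]

theorem coe_unit_ne_zero {u : ℤ_[p]} (hu : ‖u‖ = 1) : (u : ℚ_[p]) ≠ 0 := by
  intro h
  have : ‖(u : ℚ_[p])‖ = 1 := by simpa using hu
  rw [h, norm_zero] at this
  exact zero_ne_one this

theorem iso_p_p {u w : ℤ_[p]} (hu : ‖u‖ = 1) :
    Iso ((p : ℚ_[p]) * u) ((p : ℚ_[p]) * w) ↔ Iso ((-(u * w) : ℤ_[p]) : ℚ_[p]) ((p : ℚ_[p]) * u) := by
  rw [← iso_sub (mul_ne_zero p_ne_zero (coe_unit_ne_zero hu))]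
  have : -((p : ℚ_[p]) * u * ((p : ℚ_[p]) * w)) = ((-(u * w) : ℤ_[p]) : ℚ_[p]) * (p : ℚ_[p]) ^ 2 := by
    push_cast; ring
  rw [this, iso_mul_sq_right p_ne_zero, iso_comm]

theorem isSquare_iff_jacobi {u : ℤ} (h2 : p ≠ 2) (hu : ¬ (p : ℤ) ∣ u) :
    IsSquare (PadicInt.toZMod ((u : ℤ) : ℤ_[p])) ↔ J(u | p) = 1 := by
  rw [← jacobiSym.legendreSym.to_jacobiSym]
  have h0 : ((u : ℤ) : ZMod p) ≠ 0 := by
    intro h
    exact hu ((ZMod.intCast_zmod_eq_zero_iff_dvd u p).mp h)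
  rw [legendreSym.eq_one_iff p h0, map_intCast]

theorem iso_iff_hs_odd (h2 : p ≠ 2) {a b : ℤ} (ha : a ≠ 0) (hb : b ≠ 0) :
    Iso (a : ℚ_[p]) (b : ℚ_[p]) ↔ hs p a b = 1 := by
  have hu := norm_up (p := p) ha
  have hw := norm_up (p := p) hb
  have hu' := up_not_dvd hp.out ha
  have hw' := up_not_dvd hp.out hb
  have jneg : J(-1 | p) ^ 2 = 1 := jacobiSym.sq_one (by simp)
  have ja : J(up p a | p) ^ 2 = 1 := jacobiSym.sq_one (coprime_up hp.out ha)
  have jb : J(up p b | p) ^ 2 = 1 := jacobiSym.sq_one (coprime_up hp.out hb)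
  have ev : ∀ (x : ℤ) (n : ℕ), x ^ 2 = 1 → Even n → x ^ n = 1 := by
    rintro x n hx ⟨k, rfl⟩
    rw [← two_mul, pow_mul, hx, one_pow]
  have od : ∀ (x : ℤ) (n : ℕ), x ^ 2 = 1 → Odd n → x ^ n = x := by
    rintro x n hx ⟨k, rfl⟩
    rw [pow_succ, pow_mul, hx, one_pow, one_mul]
  rcases Nat.even_or_odd (padicValInt p a) with hva | hva <;>
  rcases Nat.even_or_odd (padicValInt p b) with hvb | hvb
  · rw [iso_even hva, iso_comm, iso_even hvb, iso_comm, hs_odd h2,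
      ev _ _ jneg (hva.mul_right _), ev _ _ jb hva, ev _ _ ja hvb]
    simp only [mul_one, iff_true]
    exact iso_units_odd h2 hu hw
  · rw [iso_even hva, iso_comm, iso_odd hvb, iso_comm, hs_odd h2,
      ev _ _ jneg (hva.mul_right _), ev _ _ jb hva, od _ _ ja hvb, iso_unit_p_odd h2 hu hw,
      isSquare_iff_jacobi h2 hu']
    simp
  · rw [iso_odd hva, iso_comm, iso_even hvb, hs_odd h2,
      ev _ _ jneg (hvb.mul_left _), od _ _ jb hva, ev _ _ ja hvb, iso_unit_p_odd h2 hw hu,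
      isSquare_iff_jacobi h2 hw']
    simp
  · rw [iso_odd hva, iso_comm, iso_odd hvb, iso_comm, hs_odd h2,
      od _ _ jneg (hva.mul hvb), od _ _ jb hva, od _ _ ja hvb, iso_p_p hu,
      iso_unit_p_odd h2 (by rw [norm_neg, norm_mul, hu, hw, mul_one]) hu]
    have e : (-(((up p a : ℤ) : ℤ_[p]) * ((up p b : ℤ) : ℤ_[p]))) =
        (((-1) * up p b * up p a : ℤ) : ℤ_[p]) := by push_cast; ring
    rw [e, isSquare_iff_jacobi h2, jacobiSym.mul_left, jacobiSym.mul_left]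
    have hpp : Prime (p : ℤ) := Nat.prime_iff_prime_int.mp hp.out
    intro h
    rcases hpp.dvd_or_dvd h with h | h
    · rcases hpp.dvd_or_dvd h with h | h
      · exact not_dvd_neg_one hp.out h
      · exact hw' h
    · exact hu' h

end Padic

theorem r8_intCast (a : ℤ) : r8 (a : ℤ_[2]) = (a : ZMod 8) := map_intCast _ _

theorem e4_ev_ev : ∀ U W : ZMod 8, (U = 1 ∨ U = 3 ∨ U = 5 ∨ U = 7) → (W = 1 ∨ W = 3 ∨ W = 5 ∨ W = 7) →
    ((U = 1 ∨ U = 5 ∨ W = 1 ∨ W = 5) ↔ e4 U W = 1) := by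
  intro U W hU hW
  rcases hU with rfl | rfl | rfl | rfl <;> rcases hW with rfl | rfl | rfl | rfl <;> decide

theorem e4_ev_od : ∀ U W : ZMod 8, (U = 1 ∨ U = 3 ∨ U = 5 ∨ U = 7) → (W = 1 ∨ W = 3 ∨ W = 5 ∨ W = 7) →
    ((U = 1 ∨ U + 2 * W = 1) ↔ e4 U W * χ₈ U = 1) := by
  intro U W hU hW
  rcases hU with rfl | rfl | rfl | rfl <;> rcases hW with rfl | rfl | rfl | rfl <;> decide

theorem e4_od_od : ∀ U W : ZMod 8, (U = 1 ∨ U = 3 ∨ U = 5 ∨ U = 7) → (W = 1 ∨ W = 3 ∨ W = 5 ∨ W = 7) →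
    ((-(U * W) = 1 ∨ -(U * W) + 2 * U = 1) ↔ e4 U W * χ₈ W * χ₈ U = 1) := by
  intro U W hU hW
  rcases hU with rfl | rfl | rfl | rfl <;> rcases hW with rfl | rfl | rfl | rfl <;> decide

theorem iso_iff_hs_two {a b : ℤ} (ha : a ≠ 0) (hb : b ≠ 0) :
    Iso (a : ℚ_[2]) (b : ℚ_[2]) ↔ hs 2 a b = 1 := by
  have hu := norm_up (p := 2) ha
  have hw := norm_up (p := 2) hb
  have hu' : ¬ (2 : ℤ) ∣ up 2 a := by exact_mod_cast up_not_dvd Nat.prime_two ha
  have hw' : ¬ (2 : ℤ) ∣ up 2 b := by exact_mod_cast up_not_dvd Nat.prime_two hb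
  have ja := chi8_sq hu'
  have jb := chi8_sq hw'
  have cu := odd_cast hu'
  have cw := odd_cast hw'
  have ev : ∀ (x : ℤ) (n : ℕ), x ^ 2 = 1 → Even n → x ^ n = 1 := by
    rintro x n hx ⟨k, rfl⟩
    rw [← two_mul, pow_mul, hx, one_pow]
  have od : ∀ (x : ℤ) (n : ℕ), x ^ 2 = 1 → Odd n → x ^ n = x := by
    rintro x n hx ⟨k, rfl⟩
    rw [pow_succ, pow_mul, hx, one_pow, one_mul]
  rcases Nat.even_or_odd (padicValInt 2 a) with hva | hva <;>
  rcases Nat.even_or_odd (padicValInt 2 b) with hvb | hvb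
  · rw [iso_even hva, iso_comm, iso_even hvb, iso_comm, hs_two,
      ev _ _ jb hva, ev _ _ ja hvb, mul_one, mul_one, iso_units_two hu hw, r8_intCast, r8_intCast]
    exact e4_ev_ev _ _ cu cw
  · rw [iso_even hva, iso_comm, iso_odd hvb, iso_comm, hs_two, ev _ _ jb hva, od _ _ ja hvb,
      mul_one]
    have := iso_unit_two hu hw
    rw [r8_intCast, r8_intCast] at this
    exact this.trans (e4_ev_od _ _ cu cw)
  · rw [iso_odd hva, iso_comm, iso_even hvb, hs_two, od _ _ jb hva, ev _ _ ja hvb,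
      mul_one]
    have := iso_unit_two hw hu
    rw [r8_intCast, r8_intCast] at this
    rw [e4_comm]
    exact this.trans (e4_ev_od _ _ cw cu)
  · rw [iso_odd hva, iso_comm, iso_odd hvb, iso_comm, hs_two, od _ _ jb hva, od _ _ ja hvb,
      iso_p_p hu]
    have := iso_unit_two (u := (-(((up 2 a : ℤ) : ℤ_[2]) * ((up 2 b : ℤ) : ℤ_[2]))))
      (by rw [norm_neg, norm_mul, hu, hw, mul_one]) hu
    rw [map_neg, map_mul, r8_intCast, r8_intCast] at this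
    exact this.trans (e4_od_od _ _ cu cw)

/-- Isotropy of `a X² + b Y² = Z²` over `ℚ_[p]` is detected by the symbol. -/
theorem iso_iff_hs {p : ℕ} [hp : Fact p.Prime] {a b : ℤ} (ha : a ≠ 0) (hb : b ≠ 0) :
    Iso (a : ℚ_[p]) (b : ℚ_[p]) ↔ hs p a b = 1 := by
  by_cases h2 : p = 2
  · subst h2; exact iso_iff_hs_two ha hb
  · exact iso_iff_hs_odd h2 ha hb

/-- every nonzero element of `ℚ_[p]` is a nonzero integer times a nonzero square. -/
theorem exists_int_mul_sq {p : ℕ} [hp : Fact p.Prime] (x : ℚ_[p]) (hx : x ≠ 0) :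
    ∃ n : ℤ, n ≠ 0 ∧ ∃ s : ℚ_[p], s ≠ 0 ∧ x = n * s ^ 2 := by
  have hp0 : (p : ℚ_[p]) ≠ 0 := p_ne_zero
  -- unit part
  obtain ⟨u, hu⟩ : ∃ u : ℤ_[p], ‖u‖ = 1 ∧ x = (p : ℚ_[p]) ^ x.valuation * u := by
    refine ⟨⟨x * (p : ℚ_[p]) ^ (-x.valuation), ?_⟩, ?_, ?_⟩
    · rw [norm_mul, Padic.norm_eq_zpow_neg_valuation hx, Padic.norm_p_zpow, neg_neg,
        ← zpow_add₀ (by exact_mod_cast hp.out.ne_zero)]
      simp
    · show ‖x * (p : ℚ_[p]) ^ (-x.valuation)‖ = 1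
      rw [norm_mul, Padic.norm_eq_zpow_neg_valuation hx, Padic.norm_p_zpow, neg_neg,
        ← zpow_add₀ (by exact_mod_cast hp.out.ne_zero)]
      simp
    · show x = (p : ℚ_[p]) ^ x.valuation * (x * (p : ℚ_[p]) ^ (-x.valuation))
      rw [mul_left_comm, ← zpow_add₀ hp0]; simp
  obtain ⟨hu1, hxu⟩ := hu
  -- approximate the unit by a natural number
  obtain ⟨n, s, hs0, hn0, hns⟩ : ∃ n : ℤ, ∃ s : ℤ_[p], (s : ℚ_[p]) ≠ 0 ∧ n ≠ 0 ∧ u = n * s ^ 2 := by
    obtain ⟨v, hv⟩ := (PadicInt.isUnit_iff (z := u)).mpr hu1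
    set n : ℕ := PadicInt.appr u 3 with hn
    have hnear : ‖u - (n : ℤ_[p])‖ ≤ (p : ℝ) ^ (-(3 : ℕ) : ℤ) := by
      rw [PadicInt.norm_le_pow_iff_mem_span_pow]
      exact PadicInt.appr_spec 3 u
    have hp1 : (1 : ℝ) < p := by exact_mod_cast hp.out.one_lt
    have hp3 : (p : ℝ) ^ (-(3 : ℕ) : ℤ) < 1 := by
      rw [zpow_neg, zpow_natCast]
      exact inv_lt_one_of_one_lt₀ (one_lt_pow₀ hp1 (by norm_num))
    have hn1 : ‖(n : ℤ_[p])‖ = 1 := by
      have h1 : ‖u - (n : ℤ_[p])‖ < ‖u‖ := by rw [hu1]; exact lt_of_le_of_lt hnear hp3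
      have h2 := IsUltrametricDist.norm_eq_of_add_norm_lt_max (x := -(n : ℤ_[p])) (y := u)
      by_contra hne
      have hlt : ‖(n : ℤ_[p])‖ < 1 := lt_of_le_of_ne (PadicInt.norm_le_one _) hne
      have h3 : ‖u‖ ≤ max ‖u - (n : ℤ_[p])‖ ‖(n : ℤ_[p])‖ := by
        have := PadicInt.nonarchimedean (u - (n : ℤ_[p])) (n : ℤ_[p])
        simpa using this
      rw [hu1] at h3
      have := max_lt (lt_of_le_of_lt hnear hp3) hlt
      exact absurd h3 (not_le.mpr this)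
    obtain ⟨w, hw⟩ := (PadicInt.isUnit_iff (z := (n : ℤ_[p]))).mpr hn1
    -- t = u / n
    set t : ℤ_[p] := u * ((w⁻¹ : ℤ_[p]ˣ) : ℤ_[p]) with ht
    have hwinv : (n : ℤ_[p]) * ((w⁻¹ : ℤ_[p]ˣ) : ℤ_[p]) = 1 := by rw [← hw]; simp
    have htu : u = (n : ℤ_[p]) * t := by rw [ht, mul_left_comm, hwinv, mul_one]
    have hinv1 : ‖((w⁻¹ : ℤ_[p]ˣ) : ℤ_[p])‖ = 1 := PadicInt.norm_units _
    have ht1 : ‖t - 1 ^ 2‖ ≤ (p : ℝ) ^ (-(3 : ℕ) : ℤ) := by
      have : t - 1 ^ 2 = (u - (n : ℤ_[p])) * ((w⁻¹ : ℤ_[p]ˣ) : ℤ_[p]) := by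
        rw [sub_mul, hwinv, ht]; ring
      rw [this, norm_mul, hinv1, mul_one]
      exact hnear
    have h2 : (p : ℝ) ^ (-(3 : ℕ) : ℤ) < ‖(2 * 1 : ℤ_[p])‖ ^ 2 := by
      by_cases h2 : p = 2
      · subst h2
        rw [mul_one, norm_two_two]; norm_num
      · rw [mul_one, norm_two h2]
        simpa using hp3
    obtain ⟨s, hs⟩ := exists_sq_of_near t 1 (lt_of_le_of_lt ht1 h2)
    refine ⟨n, s, ?_, ?_, ?_⟩
    · intro h0
      have hs0 : s = 0 := PadicInt.ext h0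
      rw [hs0] at hs
      have : t = 0 := by rw [← hs]; ring
      rw [this, mul_zero] at htu
      rw [htu, norm_zero] at hu1
      exact zero_ne_one hu1
    · intro h0
      have : (n : ℤ_[p]) = 0 := by exact_mod_cast congrArg (fun z : ℤ => (z : ℤ_[p])) h0
      rw [this, norm_zero] at hn1
      exact zero_ne_one hn1
    · rw [hs]; push_cast; exact htu
  rcases Int.even_or_odd' x.valuation with ⟨k, hk | hk⟩
  · refine ⟨n, hn0, (p : ℚ_[p]) ^ k * s, mul_ne_zero (zpow_ne_zero _ hp0) hs0, ?_⟩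
    have hc : (u : ℚ_[p]) = (n : ℚ_[p]) * (s : ℚ_[p]) ^ 2 := by rw [hns]; push_cast; rfl
    have e : (p : ℚ_[p]) ^ x.valuation = ((p : ℚ_[p]) ^ k) ^ 2 := by
      rw [hk, ← zpow_natCast, ← zpow_mul, mul_comm]; rfl
    rw [hxu, e, hc]; ring
  · refine ⟨n * p, mul_ne_zero hn0 (by exact_mod_cast hp.out.ne_zero), (p : ℚ_[p]) ^ k * s,
      mul_ne_zero (zpow_ne_zero _ hp0) hs0, ?_⟩
    have hc : (u : ℚ_[p]) = (n : ℚ_[p]) * (s : ℚ_[p]) ^ 2 := by rw [hns]; push_cast; rfl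
    have e : (p : ℚ_[p]) ^ x.valuation = ((p : ℚ_[p]) ^ k) ^ 2 * p := by
      rw [hk, zpow_add₀ hp0, zpow_one, ← zpow_natCast, ← zpow_mul, mul_comm k]; rfl
    rw [hxu, e, hc]; push_cast; ring

/-- **Local bilinearity**: the norm group of `ℚ_p(√u)` has index at most two. -/
theorem iso_mul_iff {p : ℕ} [hp : Fact p.Prime] {u a b : ℚ_[p]} (hu : u ≠ 0) (ha : a ≠ 0)
    (hb : b ≠ 0) : Iso u (a * b) ↔ (Iso u a ↔ Iso u b) := by
  obtain ⟨u', hu', s, hs, rfl⟩ := exists_int_mul_sq u hu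
  obtain ⟨a', ha', t, ht, rfl⟩ := exists_int_mul_sq a ha
  obtain ⟨b', hb', r, hr, rfl⟩ := exists_int_mul_sq b hb
  have e : ((a' : ℚ_[p]) * t ^ 2 * (b' * r ^ 2)) = ((a' * b' : ℤ) : ℚ_[p]) * (t * r) ^ 2 := by
    push_cast; ring
  rw [e, iso_mul_sq_left hs, iso_mul_sq_right (mul_ne_zero ht hr), iso_mul_sq_left hs,
    iso_mul_sq_right ht, iso_mul_sq_left hs, iso_mul_sq_right hr,
    iso_iff_hs hu' (mul_ne_zero ha' hb'), iso_iff_hs hu' ha', iso_iff_hs hu' hb',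
    hs_mul_right hp.out ha' hb']
  rcases hs_eq hp.out hu' ha' with h | h <;> rcases hs_eq hp.out hu' hb' with h' | h' <;>
  rw [h, h'] <;> norm_num

/-- isotropy at a prime, without instance argument. -/
def IsoAt (p : ℕ) (a b : ℚ) : Prop := ∀ _ : Fact p.Prime, Iso (a : ℚ_[p]) (b : ℚ_[p])

theorem iso_real_iff {a b : ℤ} (ha : a ≠ 0) (hb : b ≠ 0) : Iso (a : ℝ) (b : ℝ) ↔ hsInf a b = 1 := by
  unfold hsInf
  constructor
  · rintro ⟨x, y, z, h0, h1⟩
    rw [if_neg]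
    rintro ⟨ha', hb'⟩
    have ha'' : (a : ℝ) < 0 := by exact_mod_cast ha'
    have hb'' : (b : ℝ) < 0 := by exact_mod_cast hb'
    have hx : x = 0 := by
      by_contra hx
      have : 0 < x ^ 2 := by positivity
      nlinarith [sq_nonneg y, sq_nonneg z, mul_neg_of_neg_of_pos ha'' this]
    subst hx
    have hy : y = 0 := by
      by_contra hy
      have : 0 < y ^ 2 := by positivity
      nlinarith [sq_nonneg z, mul_neg_of_neg_of_pos hb'' this]
    subst hy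
    have hz : z = 0 := by
      have : z ^ 2 = 0 := by rw [← h1]; ring
      exact pow_eq_zero_iff two_ne_zero |>.mp this
    simp_all
  · intro h
    have h' : ¬ (a < 0 ∧ b < 0) := by
      intro h'
      rw [if_pos h'] at h
      norm_num at h
    rw [not_and_or, not_lt, not_lt] at h'
    rcases h' with h' | h'
    · have : (0 : ℝ) ≤ a := by exact_mod_cast h'
      exact ⟨1, 0, Real.sqrt a, Or.inl one_ne_zero, by rw [Real.sq_sqrt this]; ring⟩
    · have : (0 : ℝ) ≤ b := by exact_mod_cast h'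
      exact ⟨0, 1, Real.sqrt b, Or.inr (Or.inl one_ne_zero), by rw [Real.sq_sqrt this]; ring⟩

open Classical in
/-- **Parity**: the number of primes where `a X² + b Y² = Z²` is anisotropic is even iff the form is
isotropic over `ℝ` (integers). -/
theorem even_aniso_int {a b : ℤ} (ha : a ≠ 0) (hb : b ≠ 0) (S : Finset ℕ) (hS : ∀ p ∈ S, p.Prime)
    (hS' : ∀ p : ℕ, p.Prime → (p : ℤ) ∣ 2 * a * b → p ∈ S) :
    Even (S.filter (fun p => ¬ IsoAt p a b)).card ↔ Iso (a : ℝ) (b : ℝ) := by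
  have h1 := product_formula ha hb S hS hS'
  rw [iso_real_iff ha hb]
  have key : ∀ p ∈ S, hs p a b = if ¬ IsoAt p a b then -1 else 1 := by
    intro p hp
    have hpp := hS p hp
    have hF := Fact.mk hpp
    have h2 := iso_iff_hs (p := p) ha hb
    have h3 : IsoAt p a b ↔ Iso (a : ℚ_[p]) (b : ℚ_[p]) := by
      unfold IsoAt
      push_cast
      exact ⟨fun h => h hF, fun h _ => h⟩
    by_cases h : IsoAt p a b
    · rw [if_neg (not_not.mpr h)]
      exact h2.mp (h3.mp h)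
    · rw [if_pos h]
      rcases hs_eq hpp ha hb with h' | h'
      · exact absurd (h3.mpr (h2.mpr h')) h
      · exact h'
  rw [Finset.prod_congr rfl key, ← Finset.prod_filter, Finset.prod_const] at h1
  constructor
  · intro h
    rw [h.neg_one_pow, mul_one] at h1
    exact h1
  · intro h
    rw [h, one_mul] at h1
    by_contra hodd
    rw [Nat.not_even_iff_odd] at hodd
    rw [hodd.neg_one_pow] at h1
    norm_num at h1

/-- off the primes dividing `2ab` the form is isotropic -/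
theorem isoAt_of_not_dvd {a b : ℤ} {p : ℕ} (hp : p.Prime) (h : ¬ (p : ℤ) ∣ 2 * a * b) :
    IsoAt p a b := by
  intro hp'
  have h2 : p ≠ 2 := by
    rintro rfl
    exact h ⟨a * b, by push_cast; ring⟩
  have ha : ¬ (p : ℤ) ∣ a := fun h' => h (h'.trans ⟨2 * b, by ring⟩)
  have hb : ¬ (p : ℤ) ∣ b := fun h' => h (h'.trans ⟨2 * a, by ring⟩)
  have ha0 : a ≠ 0 := by rintro rfl; exact ha (dvd_zero _)
  have hb0 : b ≠ 0 := by rintro rfl; exact hb (dvd_zero _)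
  push_cast
  exact (iso_iff_hs ha0 hb0).mpr (hs_of_not_dvd h2 ha hb)

theorem rat_eq (a : ℚ) (ha : a ≠ 0) : ∃ n : ℤ, n ≠ 0 ∧ ∃ d : ℚ, d ≠ 0 ∧ a = n * d ^ 2 := by
  refine ⟨a.num * a.den, mul_ne_zero (Rat.num_ne_zero.mpr ha) (by exact_mod_cast a.den_nz),
    1 / a.den, by
      have : (a.den : ℚ) ≠ 0 := by exact_mod_cast a.den_nz
      positivity, ?_⟩
  have h1 : (a.den : ℚ) ≠ 0 := by exact_mod_cast a.den_nz
  push_cast
  conv_lhs => rw [← Rat.num_div_den a]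
  field_simp

/-- **Parity for rational coefficients.** The set of primes where the form is anisotropic is finite
and has even cardinality iff the form is isotropic over `ℝ`. -/
theorem even_aniso {a b : ℚ} (ha : a ≠ 0) (hb : b ≠ 0) :
    {p : ℕ | p.Prime ∧ ¬ IsoAt p a b}.Finite ∧
    (Even {p : ℕ | p.Prime ∧ ¬ IsoAt p a b}.ncard ↔ Iso (a : ℝ) (b : ℝ)) := by
  classical
  obtain ⟨n, hn, d, hd, rfl⟩ := rat_eq a ha
  obtain ⟨m, hm, e, he, rfl⟩ := rat_eq b hb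
  have hpre : ∀ p : ℕ, IsoAt p (n * d ^ 2) (m * e ^ 2) ↔ IsoAt p n m := by
    intro p
    unfold IsoAt
    refine forall_congr' fun hp => ?_
    have hd' : (d : ℚ_[p]) ≠ 0 := by exact_mod_cast hd
    have he' : (e : ℚ_[p]) ≠ 0 := by exact_mod_cast he
    push_cast
    rw [iso_mul_sq_left hd', iso_mul_sq_right he']
  simp only [hpre]
  have hd' : (d : ℝ) ≠ 0 := by exact_mod_cast hd
  have he' : (e : ℝ) ≠ 0 := by exact_mod_cast he
  have hreal : Iso (((n * d ^ 2 : ℚ)) : ℝ) (((m * e ^ 2 : ℚ)) : ℝ) ↔ Iso (n : ℝ) (m : ℝ) := by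
    push_cast
    rw [iso_mul_sq_left hd', iso_mul_sq_right he']
  rw [hreal]
  set S : Finset ℕ := (2 * n * m).natAbs.primeFactors with hS
  have h0 : (2 * n * m).natAbs ≠ 0 := by
    rw [Int.natAbs_ne_zero]
    exact mul_ne_zero (mul_ne_zero two_ne_zero hn) hm
  have hmem : ∀ p : ℕ, p.Prime → (p : ℤ) ∣ 2 * n * m → p ∈ S := by
    intro p hp hd
    exact Nat.mem_primeFactors.mpr ⟨hp, Int.natCast_dvd.mp hd, h0⟩
  have hset : {p : ℕ | p.Prime ∧ ¬ IsoAt p n m} = ↑(S.filter (fun p => ¬ IsoAt p n m)) := by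
    ext p
    simp only [Set.mem_ofPred_eq, Finset.coe_filter]
    constructor
    · rintro ⟨hp, h⟩
      refine ⟨?_, h⟩
      by_contra hpS
      exact h (isoAt_of_not_dvd hp (fun hd => hpS (hmem p hp hd)))
    · rintro ⟨hp, h⟩
      exact ⟨(Nat.mem_primeFactors.mp hp).1, h⟩
  rw [hset]
  refine ⟨Finset.finite_toSet _, ?_⟩
  rw [Set.ncard_coe_finset]
  exact even_aniso_int hn hm S (fun p hp => (Nat.mem_primeFactors.mp hp).1) hmem

end Fermat.Agent.L00.HilbQ
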