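import Fermat.Agent.L00.Unr3
import Fermat.Agent.H12.Tame

set_option autoImplicit false

/-!
# The decomposition group over `K` is generated by Frobenius, inertia and small subgroups
-/

namespace Fermat.Agent.L00.Unr

open scoped NumberField Pointwise
open Fermat.Agent.H05 Fermat.Agent.H09

variable {L : Type*} [Field L] [CharZero L] [IsGalois ℚ L]

theorem exists_pow {A : ValuationSubring L} {ℓ : ℕ} (hℓ : ℓ.Prime) (hA : A.LiesOverPrime ℓ)
    (K F : IntermediateField ℚ L) [FiniteDimensional ℚ K] [FiniteDimensional ℚ F]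
    (hF : Normal ℚ F) (hKF : K ≤ F) {σ : L ≃ₐ[ℚ] L} (hσD : σ ∈ A.decompositionSubgroup ℚ)
    (hσK : σ ∈ K.fixingSubgroup) :
    ∃ n : ℕ, ∀ x : 𝓞 F, σ ((x : F) : L) - ((x : F) : L) ^ (nrm A K ^ n) ∈ A.nonunits := by
  classical
  have hKn : NumberField K := { to_charZero := inferInstance, to_finiteDimensional := inferInstance }
  have hFN : NumberField F := { to_charZero := inferInstance, to_finiteDimensional := inferInstance }
  let _ : Algebra K F := (IntermediateField.inclusion hKF).toRingHom.toAlgebra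
  have hst : IsScalarTower ℚ K F := IsScalarTower.of_algebraMap_eq (fun x => rfl)
  have hmaxK : (primeOf A K).IsMaximal :=
    Ideal.IsPrime.isMaximal inferInstance (primeOf_ne_bot hℓ hA K)
  have hmaxF : (primeOf A F).IsMaximal :=
    Ideal.IsPrime.isMaximal inferInstance (primeOf_ne_bot hℓ hA F)
  have hfinK : Finite (𝓞 K ⧸ primeOf A K) :=
    Ideal.finiteQuotientOfFreeOfNeBot _ (primeOf_ne_bot hℓ hA K)
  have hfinF : Finite (𝓞 F ⧸ primeOf A F) :=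
    Ideal.finiteQuotientOfFreeOfNeBot _ (primeOf_ne_bot hℓ hA F)
  let _ : Field (𝓞 K ⧸ primeOf A K) := Ideal.Quotient.field _
  let _ : Field (𝓞 F ⧸ primeOf A F) := Ideal.Quotient.field _
  have := Fintype.ofFinite (𝓞 K ⧸ primeOf A K)
  let j : (𝓞 K ⧸ primeOf A K) →+* (𝓞 F ⧸ primeOf A F) :=
    Ideal.quotientMap (primeOf A F) (algebraMap (𝓞 K) (𝓞 F)) (by
      intro x hx
      rw [Ideal.mem_comap, mem_primeOf]
      rw [mem_primeOf] at hx
      exact hx)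
  let _ : Algebra (𝓞 K ⧸ primeOf A K) (𝓞 F ⧸ primeOf A F) := j.toAlgebra
  let τ : F ≃ₐ[ℚ] F := σ.restrictNormal F
  have hτ : ∀ x : F, ((τ x : F) : L) = σ (x : L) := fun x => AlgEquiv.restrictNormal_commutes σ F x
  let τO : 𝓞 F →+* 𝓞 F := NumberField.RingOfIntegers.mapRingHom (τ : F →+* F)
  have hτO : ∀ x : 𝓞 F, (((τO x : 𝓞 F) : F) : L) = σ ((x : F) : L) := fun x => hτ _
  let s : (𝓞 F ⧸ primeOf A F) →+* (𝓞 F ⧸ primeOf A F) :=
    Ideal.quotientMap (primeOf A F) τO (by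
      intro x hx
      rw [Ideal.mem_comap, mem_primeOf, hτO]
      rw [mem_primeOf] at hx
      exact smul_mem_nonunits hσD hx)
  let s' : (𝓞 F ⧸ primeOf A F) →ₐ[𝓞 K ⧸ primeOf A K] (𝓞 F ⧸ primeOf A F) :=
    { s with
      commutes' := by
        intro r
        obtain ⟨r, rfl⟩ := Ideal.Quotient.mk_surjective r
        change Ideal.Quotient.mk (primeOf A F) (τO (algebraMap (𝓞 K) (𝓞 F) r)) =
          Ideal.Quotient.mk (primeOf A F) (algebraMap (𝓞 K) (𝓞 F) r)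
        congr 1
        apply NumberField.RingOfIntegers.ext
        apply Subtype.ext
        rw [hτO]
        have := (IntermediateField.mem_fixingSubgroup_iff K σ).mp hσK ((r : K) : L) (r : K).2
        exact this }
  obtain ⟨n, hn⟩ := (FiniteField.bijective_frobeniusAlgHom_pow (𝓞 K ⧸ primeOf A K)
    (𝓞 F ⧸ primeOf A F)).2 s'
  refine ⟨n.1, fun x => ?_⟩
  have h1 := AlgHom.congr_fun hn (Ideal.Quotient.mk (primeOf A F) x)
  simp only [AlgHom.coe_pow, FiniteField.coe_frobeniusAlgHom, pow_iterate] at h1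
  have h2 : Ideal.Quotient.mk (primeOf A F) (τO x) =
      Ideal.Quotient.mk (primeOf A F) (x ^ (nrm A K ^ n.1)) := by
    rw [map_pow]
    unfold nrm
    rw [Nat.card_eq_fintype_card]
    exact h1.symm
  rw [Ideal.Quotient.eq, mem_primeOf] at h2
  have h3 : (((τO x - x ^ (nrm A K ^ n.1) : 𝓞 F) : F) : L) =
      σ ((x : F) : L) - ((x : F) : L) ^ (nrm A K ^ n.1) := by
    rw [← hτO]
    push_cast
    rfl
  rwa [h3] at h2

theorem frob_pow_sub {A : ValuationSubring L} {q : ℕ} {φ : L ≃ₐ[ℚ] L}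
    (hφ : A.IsFrobeniusAt φ q) {x : L} (hx : x ∈ A) (n : ℕ) :
    (φ ^ n) x - x ^ (q ^ n) ∈ A.nonunits := by
  obtain ⟨hD, h⟩ := hφ
  have key : ∀ y : L, y ∈ A → φ y - y ^ q ∈ A.nonunits := by
    intro y hy
    have h1 := h (IsLocalRing.residue A ⟨y, hy⟩)
    have hφy : φ y ∈ A := by
      have h2 : φ • A = A := hD
      have h3 : φ • y ∈ φ • A := ValuationSubring.smul_mem_pointwise_smul _ _ _ hy
      rwa [h2] at h3
    have h2 : IsLocalRing.residue A ⟨φ y, hφy⟩ = IsLocalRing.residue A (⟨y, hy⟩ ^ q) := by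
      rw [map_pow, ← h1]; rfl
    rw [← sub_eq_zero, ← map_sub, IsLocalRing.residue_eq_zero_iff] at h2
    exact (ValuationSubring.mem_nonunits_iff_exists_mem_maximalIdeal).mpr ⟨_, h2⟩
  induction n with
  | zero =>
    simp only [pow_zero, AlgEquiv.one_apply, pow_one, sub_self]
    rw [ValuationSubring.mem_nonunits_iff, map_zero]
    exact zero_lt_one
  | succ n ih =>
    have h1 : (φ ^ (n + 1)) x = φ ((φ ^ n) x) := by rw [pow_succ']; rfl
    have h2 : φ ((φ ^ n) x) - φ (x ^ (q ^ n)) ∈ A.nonunits := by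
      rw [← map_sub]
      exact smul_mem_nonunits hD ih
    have h3 := key (x ^ (q ^ n)) (pow_mem hx _)
    rw [ValuationSubring.mem_nonunits_iff] at h2 h3 ⊢
    have h4 : (φ ^ (n + 1)) x - x ^ (q ^ (n + 1)) =
        (φ ((φ ^ n) x) - φ (x ^ (q ^ n))) + (φ (x ^ (q ^ n)) - (x ^ (q ^ n)) ^ q) := by
      rw [h1, pow_succ q n, pow_mul]; ring
    rw [h4]
    exact lt_of_le_of_lt (A.valuation.map_add _ _) (max_lt h2 h3)

/-- **Generation**: `D(A,K) = ⟨φ⟩ · I(A,K) · (D ∩ U)` for `U = Gal(L/F)`, `F` normal. -/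
theorem generation {A : ValuationSubring L} {ℓ : ℕ} (hℓ : ℓ.Prime) (hA : A.LiesOverPrime ℓ)
    (K F : IntermediateField ℚ L) [FiniteDimensional ℚ K] [FiniteDimensional ℚ F]
    (hF : Normal ℚ F) (hKF : K ≤ F) {φ : L ≃ₐ[ℚ] L} (hφK : φ ∈ K.fixingSubgroup)
    (hφ : A.IsFrobeniusAt φ (nrm A K)) {σ : L ≃ₐ[ℚ] L} (hσD : σ ∈ A.decompositionSubgroup ℚ)
    (hσK : σ ∈ K.fixingSubgroup) :
    ∃ n : ℕ, ∃ τ ∈ A.inertiaSubgroupIn ℚ ⊓ K.fixingSubgroup,
      ∃ u ∈ A.decompositionSubgroup ℚ ⊓ F.fixingSubgroup, σ = φ ^ n * τ * u := by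
  obtain ⟨n, hn⟩ := exists_pow hℓ hA K F hF hKF hσD hσK
  have hφD := hφ.1
  have hgal : IsGalois ℚ F := { }
  have hHn : F.fixingSubgroup.Normal := (InfiniteGalois.normal_iff_isGalois F).mpr hgal
  obtain ⟨h, hhF, hh⟩ := exists_inertia_lift' hℓ hA F hF ((φ ^ n)⁻¹ * σ) (by
    intro x
    have hxA : ((x : F) : L) ∈ A := mem_of_isIntegral A (iota F x).2
    have h1 := frob_pow_sub hφ hxA n
    have h2 := hn x
    rw [ValuationSubring.mem_nonunits_iff] at h1 h2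
    have h3 : σ ((x : F) : L) - (φ ^ n) ((x : F) : L) ∈ A.nonunits := by
      rw [ValuationSubring.mem_nonunits_iff]
      have : σ ((x : F) : L) - (φ ^ n) ((x : F) : L) =
        (σ ((x : F) : L) - ((x : F) : L) ^ (nrm A K ^ n)) -
        ((φ ^ n) ((x : F) : L) - ((x : F) : L) ^ (nrm A K ^ n)) := by ring
      rw [this]
      exact lt_of_le_of_lt (A.valuation.map_sub _ _) (max_lt h2 h1)
    have h4 := smul_mem_nonunits (inv_mem (pow_mem hφD n)) h3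
    rw [map_sub] at h4
    have h5 : ((φ ^ n)⁻¹ : L ≃ₐ[ℚ] L) ((φ ^ n) ((x : F) : L)) = ((x : F) : L) := by
      rw [← AlgEquiv.mul_apply, inv_mul_cancel, AlgEquiv.one_apply]
    rw [h5] at h4
    exact h4)
  have hID : A.inertiaSubgroupIn ℚ ≤ A.decompositionSubgroup ℚ := by
    intro g hg
    obtain ⟨hg', -⟩ := (mem_inertiaSubgroupIn_iff A g).mp hg
    exact hg'
  set τ := h * ((φ ^ n)⁻¹ * σ) with hτ
  have hτK : τ ∈ K.fixingSubgroup :=
    mul_mem ((IntermediateField.fixingSubgroup_antitone hKF) hhF)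
      (mul_mem (inv_mem (pow_mem hφK n)) hσK)
  refine ⟨n, τ, ⟨hh, hτK⟩, τ⁻¹ * h⁻¹ * τ, ⟨?_, ?_⟩, ?_⟩
  · have h1 : τ⁻¹ * h⁻¹ * τ = τ⁻¹ * ((φ ^ n)⁻¹ * σ) := by rw [hτ]; group
    show τ⁻¹ * h⁻¹ * τ ∈ A.decompositionSubgroup ℚ
    rw [h1]
    exact mul_mem (inv_mem (hID hh)) (mul_mem (inv_mem (pow_mem hφD n)) hσD)
  · show τ⁻¹ * h⁻¹ * τ ∈ F.fixingSubgroup
    have := hHn.conj_mem h⁻¹ (inv_mem hhF) τ⁻¹
    simpa using this
  · rw [hτ]; group

/-- An unramified homomorphism of `D(A,K)` is determined by the image of Frobenius. -/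
theorem unram_determined {A : ValuationSubring L} {ℓ : ℕ} (hℓ : ℓ.Prime)
    (hA : A.LiesOverPrime ℓ) (K : IntermediateField ℚ L) [FiniteDimensional ℚ K]
    {φ : L ≃ₐ[ℚ] L} (hφK : φ ∈ K.fixingSubgroup) (hφ : A.IsFrobeniusAt φ (nrm A K))
    {X : Type*} [Group X]
    (χ : ↥(A.decompositionSubgroup ℚ ⊓ K.fixingSubgroup) →* X)
    (hI : ∀ σ : ↥(A.decompositionSubgroup ℚ ⊓ K.fixingSubgroup),
      (σ : L ≃ₐ[ℚ] L) ∈ A.inertiaSubgroupIn ℚ → χ σ = 1)
    (E : IntermediateField ℚ L) [FiniteDimensional ℚ E]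
    (hE : ∀ σ : ↥(A.decompositionSubgroup ℚ ⊓ K.fixingSubgroup),
      (σ : L ≃ₐ[ℚ] L) ∈ E.fixingSubgroup → χ σ = 1)
    (σ : ↥(A.decompositionSubgroup ℚ ⊓ K.fixingSubgroup)) :
    ∃ n : ℕ, χ σ = χ ⟨φ, hφ.1, hφK⟩ ^ n := by
  have hKE : FiniteDimensional ℚ (K ⊔ E : IntermediateField ℚ L) := inferInstance
  obtain ⟨F, hFfin, hFn, hKF, -⟩ := exists_normal_containing (K ⊔ E) (0 : L)
  obtain ⟨n, τ, ⟨hτ1, hτ2⟩, u, ⟨hu1, hu2⟩, h⟩ := generation hℓ hA K F hFn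
    (le_sup_left.trans hKF) hφK hφ σ.2.1 σ.2.2
  have hID : A.inertiaSubgroupIn ℚ ≤ A.decompositionSubgroup ℚ := by
    intro g hg
    obtain ⟨hg', -⟩ := (mem_inertiaSubgroupIn_iff A g).mp hg
    exact hg'
  have hu3 : u ∈ K.fixingSubgroup :=
    (IntermediateField.fixingSubgroup_antitone (le_sup_left.trans hKF)) hu2
  have hu4 : u ∈ E.fixingSubgroup :=
    (IntermediateField.fixingSubgroup_antitone (le_sup_right.trans hKF)) hu2
  refine ⟨n, ?_⟩
  have h1 : σ = ⟨φ, hφ.1, hφK⟩ ^ n * ⟨τ, hID hτ1, hτ2⟩ * ⟨u, hu1, hu3⟩ := by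
    apply Subtype.ext
    simpa using h
  rw [h1, map_mul, map_mul, map_pow, hI ⟨τ, hID hτ1, hτ2⟩ hτ1, hE ⟨u, hu1, hu3⟩ hu4, mul_one, mul_one]

end Fermat.Agent.L00.Unr
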