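import Fermat.Agent.L00.HilbQ1

/-! Hilbert symbol block, part 2: classification of isotropy over `ℚ_[p]`. -/

namespace Fermat.Agent.L00.HilbQ

section Odd

variable {p : ℕ} [hp : Fact p.Prime]

theorem norm_two (h2 : p ≠ 2) : ‖(2 : ℤ_[p])‖ = 1 := by
  have h : ¬ ((p : ℤ) ∣ 2) := by
    intro h
    have h1 : p ∣ 2 := by exact_mod_cast h
    exact h2 ((Nat.prime_dvd_prime_iff_eq hp.out Nat.prime_two).mp h1)
  have h3 := (PadicInt.norm_intCast_eq_one_iff (p := p) (z := 2)).mpr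
    ((Nat.isCoprime_iff_coprime (m := 2) (n := p)).mpr
      ((Nat.coprime_primes Nat.prime_two hp.out).mpr (Ne.symm h2)))
  simpa using h3

theorem norm_lt_one_iff_toZMod (x : ℤ_[p]) : ‖x‖ < 1 ↔ PadicInt.toZMod x = 0 := by
  rw [← PadicInt.mem_nonunits, ← IsLocalRing.mem_maximalIdeal, ← PadicInt.ker_toZMod, RingHom.mem_ker]

theorem norm_eq_one_iff_toZMod (x : ℤ_[p]) : ‖x‖ = 1 ↔ PadicInt.toZMod x ≠ 0 := by
  rw [Ne, ← norm_lt_one_iff_toZMod, not_lt]
  exact ⟨fun h => h.ge, fun h => le_antisymm (PadicInt.norm_le_one x) h⟩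

theorem exists_sq_of_toZMod (h2 : p ≠ 2) {u : ℤ_[p]} (hu : ‖u‖ = 1)
    (h : IsSquare (PadicInt.toZMod u)) : ∃ z : ℤ_[p], z ^ 2 = u := by
  obtain ⟨s, hs⟩ := h
  obtain ⟨s', rfl⟩ := ZMod.ringHom_surjective (PadicInt.toZMod (p := p)) s
  apply exists_sq_of_near u s'
  have hs1 : ‖s'‖ = 1 := by
    rw [norm_eq_one_iff_toZMod]
    intro h0
    rw [h0, mul_zero] at hs
    exact (norm_eq_one_iff_toZMod u).mp hu hs
  rw [norm_mul, norm_two h2, hs1]
  norm_num
  rw [norm_lt_one_iff_toZMod]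
  simp [hs, pow_two]

theorem iso_units_odd (h2 : p ≠ 2) {u w : ℤ_[p]} (hu : ‖u‖ = 1) (hw : ‖w‖ = 1) :
    Iso (u : ℚ_[p]) (w : ℚ_[p]) := by
  classical
  rw [iso_iff_primitive]
  set U := PadicInt.toZMod u with hU
  set W := PadicInt.toZMod w with hW
  have hU0 : U ≠ 0 := (norm_eq_one_iff_toZMod u).mp hu
  have hW0 : W ≠ 0 := (norm_eq_one_iff_toZMod w).mp hw
  open Polynomial in
  obtain ⟨x, y, hxy⟩ := FiniteField.exists_root_sum_quadratic (R := ZMod p)
    (f := C U * X ^ 2) (g := C W * X ^ 2 - C 1)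
    (by rw [degree_C_mul_X_pow 2 hU0]; rfl)
    (by rw [degree_sub_eq_left_of_degree_lt]
        · rw [degree_C_mul_X_pow 2 hW0]; rfl
        · rw [degree_C_mul_X_pow 2 hW0]
          exact lt_of_le_of_lt degree_C_le (by norm_num))
    (by rw [ZMod.card]; exact (hp.out.eq_two_or_odd).resolve_left h2)
  simp only [Polynomial.eval_mul, Polynomial.eval_C, Polynomial.eval_pow, Polynomial.eval_X,
    Polynomial.eval_sub] at hxy
  obtain ⟨x', rfl⟩ := ZMod.ringHom_surjective (PadicInt.toZMod (p := p)) x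
  obtain ⟨y', rfl⟩ := ZMod.ringHom_surjective (PadicInt.toZMod (p := p)) y
  have h1 : PadicInt.toZMod (u * x' ^ 2 + w * y' ^ 2) = 1 := by
    rw [map_add, map_mul, map_mul, map_pow, map_pow]
    linear_combination hxy
  obtain ⟨z, hz⟩ := exists_sq_of_toZMod h2 (u := u * x' ^ 2 + w * y' ^ 2)
    ((norm_eq_one_iff_toZMod _).mpr (by rw [h1]; exact one_ne_zero)) (by rw [h1]; exact ⟨1, by simp⟩)
  refine ⟨x', y', z, ?_, hz.symm⟩
  right; right
  rw [norm_eq_one_iff_toZMod]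
  intro h0
  have := congrArg PadicInt.toZMod hz
  rw [map_pow, h0, h1] at this
  simp at this

theorem iso_unit_p_odd (h2 : p ≠ 2) {u w : ℤ_[p]} (hu : ‖u‖ = 1) (hw : ‖w‖ = 1) :
    Iso (u : ℚ_[p]) ((p : ℚ_[p]) * w) ↔ IsSquare (PadicInt.toZMod u) := by
  constructor
  · intro h
    have h' : Iso (u : ℚ_[p]) (((p : ℤ_[p]) * w : ℤ_[p]) : ℚ_[p]) := by simpa using h
    rw [iso_iff_primitive] at h'
    obtain ⟨x, y, z, h0, h1⟩ := h'
    have hmod : PadicInt.toZMod u * PadicInt.toZMod x ^ 2 = PadicInt.toZMod z ^ 2 := by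
      have := congrArg PadicInt.toZMod h1
      simpa using this
    by_cases hx : PadicInt.toZMod x = 0
    · exfalso
      have hz : PadicInt.toZMod z = 0 := by
        rw [hx] at hmod
        have : PadicInt.toZMod z ^ 2 = 0 := by rw [← hmod]; ring
        exact pow_eq_zero_iff two_ne_zero |>.mp this
      have hx' := (norm_lt_one_iff_toZMod x).mpr hx
      have hz' := (norm_lt_one_iff_toZMod z).mpr hz
      rw [PadicInt.norm_lt_one_iff_dvd] at hx' hz'
      obtain ⟨x1, rfl⟩ := hx'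
      obtain ⟨z1, rfl⟩ := hz'
      have hp0 : (p : ℤ_[p]) ≠ 0 := by exact_mod_cast hp.out.ne_zero
      have h3 : w * y ^ 2 = p * (z1 ^ 2 - u * x1 ^ 2) := by
        apply mul_left_cancel₀ hp0
        linear_combination h1
      have hy : PadicInt.toZMod y = 0 := by
        have := congrArg PadicInt.toZMod h3
        simp only [map_mul, map_pow, map_sub, map_natCast, CharP.cast_eq_zero, zero_mul] at this
        rcases mul_eq_zero.mp this with h | h
        · exact absurd h ((norm_eq_one_iff_toZMod w).mp hw)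
        · exact pow_eq_zero_iff two_ne_zero |>.mp h
      rcases h0 with h | h | h
      · rw [norm_eq_one_iff_toZMod] at h; exact h hx
      · rw [norm_eq_one_iff_toZMod] at h; exact h hy
      · rw [norm_eq_one_iff_toZMod] at h; exact h hz
    · refine ⟨PadicInt.toZMod z / PadicInt.toZMod x, ?_⟩
      field_simp
      linear_combination hmod
  · intro h
    obtain ⟨s, rfl⟩ := exists_sq_of_toZMod h2 hu h
    have := iso_of_sq (K := ℚ_[p]) (s := s) ((p : ℚ_[p]) * w)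
    simpa using this

end Odd

section Two

/-- squares near 1 in `ℤ_[2]` -/
theorem norm_two_two : ‖(2 : ℤ_[2])‖ = 1 / 2 := by
  have := PadicInt.norm_p (p := 2)
  rw [show ((2:ℕ) : ℤ_[2]) = 2 by norm_cast] at this
  rw [this]; norm_num

theorem exists_sq_two {u : ℤ_[2]} (h : (8 : ℤ_[2]) ∣ u - 1) : ∃ z : ℤ_[2], z ^ 2 = u := by
  apply exists_sq_of_near u 1
  obtain ⟨t, ht⟩ := h
  have h8 : ‖(8 : ℤ_[2])‖ = 1 / 8 := by
    have : (8 : ℤ_[2]) = 2 ^ 3 := by norm_num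
    rw [this, norm_pow, norm_two_two]; norm_num
  rw [one_pow, mul_one, ht, norm_mul, h8, norm_two_two]
  have := PadicInt.norm_le_one t
  nlinarith

/-- reduction modulo 8 -/
noncomputable abbrev r8 : ℤ_[2] →+* ZMod (2 ^ 3) := PadicInt.toZModPow 3

theorem r8_eq_zero_iff (x : ℤ_[2]) : r8 x = 0 ↔ (8 : ℤ_[2]) ∣ x := by
  rw [← RingHom.mem_ker, PadicInt.ker_toZModPow, Ideal.mem_span_singleton]
  norm_num

theorem exists_sq_of_r8 {u : ℤ_[2]} (h : r8 u = 1) : ∃ z : ℤ_[2], z ^ 2 = u := by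
  apply exists_sq_two
  rw [← r8_eq_zero_iff, map_sub, h, map_one, sub_self]

theorem toZMod_eq_cast_r8 (x : ℤ_[2]) : PadicInt.toZMod x = (ZMod.castHom (show 2 ∣ 2 ^ 3 by norm_num) (ZMod 2)) (r8 x) := by
  have : (PadicInt.toZMod : ℤ_[2] →+* ZMod 2) =
      (ZMod.castHom (show 2 ∣ 2 ^ 3 by norm_num) (ZMod 2)).comp r8 := by
    have h1 := PadicInt.ker_toZMod (p := 2)
    apply RingHom.ext
    intro x
    -- both kill the maximal ideal; compare
    have key : ∀ y : ℤ_[2], ‖y‖ < 1 → PadicInt.toZMod y = 0 := fun y hy =>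
      (norm_lt_one_iff_toZMod y).mp hy
    have key2 : ∀ y : ℤ_[2], ‖y‖ < 1 →
        ((ZMod.castHom (show 2 ∣ 2 ^ 3 by norm_num) (ZMod 2)).comp r8) y = 0 := by
      intro y hy
      rw [PadicInt.norm_lt_one_iff_dvd] at hy
      obtain ⟨t, rfl⟩ := hy
      rw [map_mul]
      have : ((ZMod.castHom (show 2 ∣ 2 ^ 3 by norm_num) (ZMod 2)).comp r8) ((2 : ℕ) : ℤ_[2]) = 0 := by
        rw [map_natCast]; rfl
      rw [this, zero_mul]
    by_cases hx : ‖x‖ < 1
    · rw [key x hx, key2 x hx]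
    · have hx1 : ‖x - 1‖ < 1 := by
        rw [norm_lt_one_iff_toZMod, map_sub, map_one]
        have : PadicInt.toZMod x ≠ 0 := fun h => hx ((norm_lt_one_iff_toZMod x).mpr h)
        generalize PadicInt.toZMod x = t at this ⊢
        revert this; revert t; decide
      have e1 := key _ hx1
      have e2 := key2 _ hx1
      rw [map_sub, map_one, sub_eq_zero] at e1 e2
      rw [e1, e2]
  rw [this]; rfl

theorem norm_eq_one_iff_r8 (x : ℤ_[2]) : ‖x‖ = 1 ↔
    (r8 x = 1 ∨ r8 x = 3 ∨ r8 x = 5 ∨ r8 x = 7) := by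
  rw [norm_eq_one_iff_toZMod, toZMod_eq_cast_r8]
  generalize r8 x = t
  change ZMod 8 at t
  revert t
  decide

theorem dec_units_two : ∀ U W : ZMod 8, (U = 3 ∨ U = 7) → (W = 3 ∨ W = 7) → ∀ X Y Z : ZMod 8,
    ((X = 1 ∨ X = 3 ∨ X = 5 ∨ X = 7) ∨ (Y = 1 ∨ Y = 3 ∨ Y = 5 ∨ Y = 7) ∨
      (Z = 1 ∨ Z = 3 ∨ Z = 5 ∨ Z = 7)) → U * X ^ 2 + W * Y ^ 2 ≠ Z ^ 2 := by
  intro U W hU hW
  rcases hU with rfl | rfl <;> rcases hW with rfl | rfl <;> decide

theorem dec_sq : ∀ X : ZMod 8, (X ^ 2 = 0 ∨ X ^ 2 = 1 ∨ X ^ 2 = 4) := by decide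

theorem dec_sq_odd : ∀ X : ZMod 8, (X = 1 ∨ X = 3 ∨ X = 5 ∨ X = 7) → X ^ 2 = 1 := by decide

theorem dec_unit_two (U W : ZMod 8) (hU : U = 1 ∨ U = 3 ∨ U = 5 ∨ U = 7)
    (hW : W = 1 ∨ W = 3 ∨ W = 5 ∨ W = 7) (X : ZMod 8) (hX : X = 1 ∨ X = 3 ∨ X = 5 ∨ X = 7)
    (Y Z : ZMod 8) (h : U * X ^ 2 + 2 * W * Y ^ 2 = Z ^ 2) : (U = 1 ∨ U + 2 * W = 1) := by
  rw [dec_sq_odd X hX] at h
  have hY := dec_sq Y
  have hZ := dec_sq Z
  generalize Y ^ 2 = y at *
  generalize Z ^ 2 = z at *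
  clear hX X Y Z
  rcases hU with rfl | rfl | rfl | rfl
  · exact Or.inl rfl
  all_goals
    rcases hW with rfl | rfl | rfl | rfl <;> rcases hY with rfl | rfl | rfl <;>
    rcases hZ with rfl | rfl | rfl <;>
    first
    | exact absurd h (by decide)
    | exact Or.inr (by decide)

theorem iso_units_two {u w : ℤ_[2]} (hu : ‖u‖ = 1) (hw : ‖w‖ = 1) :
    Iso (u : ℚ_[2]) (w : ℚ_[2]) ↔ (r8 u = 1 ∨ r8 u = 5 ∨ r8 w = 1 ∨ r8 w = 5) := by
  rw [iso_iff_primitive]
  constructor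
  · rintro ⟨x, y, z, h0, h1⟩
    rw [norm_eq_one_iff_r8] at hu hw
    simp only [norm_eq_one_iff_r8] at h0
    have h2 : r8 u * r8 x ^ 2 + r8 w * r8 y ^ 2 = r8 z ^ 2 := by
      rw [← map_pow, ← map_pow, ← map_pow, ← map_mul, ← map_mul, ← map_add, h1]
    by_contra hc
    push Not at hc
    obtain ⟨c1, c2, c3, c4⟩ := hc
    have hu' : r8 u = 3 ∨ r8 u = 7 := by
      rcases hu with h | h | h | h
      · exact absurd h c1
      · exact Or.inl h
      · exact absurd h c2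
      · exact Or.inr h
    have hw' : r8 w = 3 ∨ r8 w = 7 := by
      rcases hw with h | h | h | h
      · exact absurd h c3
      · exact Or.inl h
      · exact absurd h c4
      · exact Or.inr h
    exact dec_units_two (r8 u) (r8 w) hu' hw' _ _ _ h0 h2
  · intro h
    rw [norm_eq_one_iff_r8] at hu hw
    have key : ∀ u w : ℤ_[2], (r8 u = 1 ∨ r8 u = 5) →
        (r8 w = 1 ∨ r8 w = 3 ∨ r8 w = 5 ∨ r8 w = 7) →
        ∃ x y z : ℤ_[2], (‖x‖ = 1 ∨ ‖y‖ = 1 ∨ ‖z‖ = 1) ∧ u * x ^ 2 + w * y ^ 2 = z ^ 2 := by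
      intro u w hu hw
      rcases hu with hu | hu
      · obtain ⟨s, rfl⟩ := exists_sq_of_r8 hu
        exact ⟨1, 0, s, Or.inl norm_one, by ring⟩
      · obtain ⟨s, hs⟩ := exists_sq_of_r8 (u := u + 4 * w) (by
          rw [map_add, map_mul, hu]
          have : (r8 4) = 4 := map_ofNat _ _
          rw [this]
          rcases hw with h | h | h | h <;> rw [h] <;> decide)
        exact ⟨1, 2, s, Or.inl norm_one, by rw [hs]; ring⟩
    rcases h with h | h | h | h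
    · exact key u w (Or.inl h) hw
    · exact key u w (Or.inr h) hw
    · obtain ⟨x, y, z, h0, h1⟩ := key w u (Or.inl h) hu
      exact ⟨y, x, z, by tauto, by rw [← h1]; ring⟩
    · obtain ⟨x, y, z, h0, h1⟩ := key w u (Or.inr h) hu
      exact ⟨y, x, z, by tauto, by rw [← h1]; ring⟩

theorem iso_unit_two {u w : ℤ_[2]} (hu : ‖u‖ = 1) (hw : ‖w‖ = 1) :
    Iso (u : ℚ_[2]) ((2 : ℚ_[2]) * w) ↔ (r8 u = 1 ∨ r8 u + 2 * r8 w = 1) := by
  have e : ((2 : ℚ_[2]) * w) = ((2 * w : ℤ_[2]) : ℚ_[2]) := by push_cast; rfl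
  rw [e, iso_iff_primitive]
  constructor
  · rintro ⟨x, y, z, h0, h1⟩
    by_cases hx : ‖x‖ = 1
    · have hx8 := (norm_eq_one_iff_r8 _).mp hx
      rw [norm_eq_one_iff_r8] at hu hw
      have h2 : r8 u * r8 x ^ 2 + 2 * r8 w * r8 y ^ 2 = r8 z ^ 2 := by
        have h3 := congrArg r8 h1
        simp only [map_add, map_mul, map_pow] at h3
        have : (r8 2) = 2 := map_ofNat _ _
        rw [this] at h3
        exact h3
      exact dec_unit_two _ _ hu hw _ hx8 _ _ h2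
    · exfalso
      -- x even, then z even, then y even
      have tz : ∀ t : ℤ_[2], ‖t‖ ≠ 1 ↔ (2 : ℤ_[2]) ∣ t := by
        intro t
        have h := PadicInt.norm_lt_one_iff_dvd (p := 2) t
        rw [show ((2:ℕ) : ℤ_[2]) = 2 by norm_cast] at h
        rw [← h]
        exact ⟨fun h => lt_of_le_of_ne (PadicInt.norm_le_one t) h, fun h => h.ne⟩
      obtain ⟨x1, rfl⟩ := (tz x).mp hx
      have hz : ‖z‖ ≠ 1 := by
        intro hz
        have : (2 : ℤ_[2]) ∣ z ^ 2 := ⟨u * (2 * x1 ^ 2) + w * y ^ 2, by rw [← h1]; ring⟩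
        rw [← tz, norm_pow, hz] at this
        simp at this
      obtain ⟨z1, rfl⟩ := (tz z).mp hz
      have hy : ‖y‖ ≠ 1 := by
        intro hy
        have h20 : (2 : ℤ_[2]) ≠ 0 := two_ne_zero
        have h3 : w * y ^ 2 = 2 * (z1 ^ 2 - u * x1 ^ 2) := by
          apply mul_left_cancel₀ h20
          linear_combination h1
        have : (2 : ℤ_[2]) ∣ w * y ^ 2 := ⟨_, h3⟩
        rw [← tz, norm_mul, norm_pow, hy, hw] at this
        simp at this
      tauto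
  · rintro (h | h)
    · obtain ⟨s, rfl⟩ := exists_sq_of_r8 h
      exact ⟨1, 0, s, Or.inl norm_one, by ring⟩
    · obtain ⟨s, hs⟩ := exists_sq_of_r8 (u := u + 2 * w) (by
        rw [map_add, map_mul]
        have : (r8 2) = 2 := map_ofNat _ _
        rw [this, h])
      exact ⟨1, 1, s, Or.inl norm_one, by rw [hs]; ring⟩

end Two

end Fermat.Agent.L00.HilbQ
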