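import Fermat.Agent.L00.HilbQ2

/-! Hilbert symbol block, part 3: the explicit symbol for integers, bilinearity, product formula. -/

namespace Fermat.Agent.L00.HilbQ

open ZMod

open scoped NumberTheorySymbols

/-- unit part of an integer at `p`. -/
def up (p : ℕ) (a : ℤ) : ℤ := a / (p : ℤ) ^ padicValInt p a

def e4 (U W : ZMod 8) : ℤ := if (U = 3 ∨ U = 7) ∧ (W = 3 ∨ W = 7) then -1 else 1

/-- Hilbert symbol of integers at a prime. -/
noncomputable def hs (p : ℕ) (a b : ℤ) : ℤ :=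
  if p = 2 then
    e4 (up 2 a : ZMod 8) (up 2 b : ZMod 8) * χ₈ (up 2 b : ZMod 8) ^ padicValInt 2 a *
      χ₈ (up 2 a : ZMod 8) ^ padicValInt 2 b
  else
    J(-1 | p) ^ (padicValInt p a * padicValInt p b) * J(up p b | p) ^ padicValInt p a *
      J(up p a | p) ^ padicValInt p b

/-- Hilbert symbol at infinity. -/
def hsInf (a b : ℤ) : ℤ := if a < 0 ∧ b < 0 then -1 else 1

section basic

variable {p : ℕ} (hp : p.Prime)

include hp

theorem pow_mul_up (a : ℤ) : (p : ℤ) ^ padicValInt p a * up p a = a := by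
  have := Fact.mk hp
  exact Int.mul_ediv_cancel' (padicValInt_dvd (p := p) a)

theorem up_not_dvd {a : ℤ} (ha : a ≠ 0) : ¬ (p : ℤ) ∣ up p a := by
  have := Fact.mk hp
  intro h
  obtain ⟨t, ht⟩ := h
  have h1 := pow_mul_up hp a
  rw [ht] at h1
  have h2 : (p : ℤ) ^ (padicValInt p a + 1) ∣ a := ⟨t, by rw [pow_succ]; nth_rw 1 [← h1]; ring⟩
  have h3 := (padicValInt_dvd_iff (p := p) _ a).mp h2
  rcases h3 with h3 | h3
  · exact ha h3
  · omega

theorem up_ne_zero {a : ℤ} (ha : a ≠ 0) : up p a ≠ 0 := by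
  intro h
  exact up_not_dvd hp ha (h ▸ dvd_zero _)

theorem val_mul' {a b : ℤ} (ha : a ≠ 0) (hb : b ≠ 0) :
    padicValInt p (a * b) = padicValInt p a + padicValInt p b := by
  have := Fact.mk hp
  exact padicValInt.mul ha hb

theorem up_mul {a b : ℤ} (ha : a ≠ 0) (hb : b ≠ 0) : up p (a * b) = up p a * up p b := by
  have hp0 : (p : ℤ) ^ (padicValInt p a + padicValInt p b) ≠ 0 :=
    pow_ne_zero _ (by exact_mod_cast hp.ne_zero)
  apply mul_left_cancel₀ hp0
  have h1 := pow_mul_up hp (a * b)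
  rw [val_mul' hp ha hb] at h1
  rw [h1, pow_add]
  nth_rw 1 [← pow_mul_up hp a, ← pow_mul_up hp b]
  ring

end basic

theorem odd_cast {a : ℤ} (h : ¬ (2 : ℤ) ∣ a) :
    ((a : ZMod 8) = 1 ∨ (a : ZMod 8) = 3 ∨ (a : ZMod 8) = 5 ∨ (a : ZMod 8) = 7) := by
  have h1 : a % 8 = 1 ∨ a % 8 = 3 ∨ a % 8 = 5 ∨ a % 8 = 7 := by omega
  have h2 : (a : ZMod 8) = ((a % 8 : ℤ) : ZMod 8) := by
    have := ZMod.intCast_mod a 8
    exact_mod_cast this.symm
  rw [h2]
  rcases h1 with h | h | h | h <;> rw [h] <;> simp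

theorem e4_mul_left {U U' W : ZMod 8} (hU : U = 1 ∨ U = 3 ∨ U = 5 ∨ U = 7)
    (hU' : U' = 1 ∨ U' = 3 ∨ U' = 5 ∨ U' = 7) : e4 (U * U') W = e4 U W * e4 U' W := by
  unfold e4
  by_cases hW : (W = 3 ∨ W = 7)
  · simp only [hW, and_true]
    rcases hU with rfl | rfl | rfl | rfl <;> rcases hU' with rfl | rfl | rfl | rfl <;> decide
  · simp [hW]

theorem e4_comm (U W : ZMod 8) : e4 U W = e4 W U := by
  unfold e4
  simp only [and_comm]

theorem hs_comm (p : ℕ) (a b : ℤ) : hs p a b = hs p b a := by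
  unfold hs
  split_ifs
  · rw [e4_comm]; ring
  · rw [mul_comm (padicValInt p a)]; ring

theorem hsInf_comm (a b : ℤ) : hsInf a b = hsInf b a := by
  unfold hsInf
  simp only [and_comm]

theorem hs_mul_left {p : ℕ} (hp : p.Prime) {a a' b : ℤ} (ha : a ≠ 0) (ha' : a' ≠ 0) :
    hs p (a * a') b = hs p a b * hs p a' b := by
  unfold hs
  split_ifs with h
  · subst h
    rw [up_mul hp ha ha', val_mul' hp ha ha', Int.cast_mul, map_mul,
      e4_mul_left (odd_cast (up_not_dvd hp ha)) (odd_cast (up_not_dvd hp ha')), pow_add, mul_pow]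
    ring
  · rw [up_mul hp ha ha', val_mul' hp ha ha', jacobiSym.mul_left, add_mul, pow_add, pow_add, mul_pow]
    ring

theorem hs_mul_right {p : ℕ} (hp : p.Prime) {a b b' : ℤ} (hb : b ≠ 0) (hb' : b' ≠ 0) :
    hs p a (b * b') = hs p a b * hs p a b' := by
  rw [hs_comm, hs_mul_left hp hb hb', hs_comm p b, hs_comm p b']

theorem hsInf_mul_left {a a' b : ℤ} (ha : a ≠ 0) (ha' : a' ≠ 0) :
    hsInf (a * a') b = hsInf a b * hsInf a' b := by
  unfold hsInf
  rcases lt_or_gt_of_ne ha with h | h <;> rcases lt_or_gt_of_ne ha' with h' | h'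
  · have := mul_pos_of_neg_of_neg h h'
    simp only [h, h', true_and, not_lt.mpr this.le, false_and, if_false]
    split_ifs <;> norm_num
  · have := mul_neg_of_neg_of_pos h h'
    simp [h, h'.le, this, not_lt.mpr h'.le]
  · have := mul_neg_of_pos_of_neg h h'
    simp [h', h.le, this, not_lt.mpr h.le]
  · have := mul_pos h h'
    simp [not_lt.mpr h.le, not_lt.mpr h'.le, not_lt.mpr this.le]

theorem chi8_sq {a : ℤ} (h : ¬ (2 : ℤ) ∣ a) : χ₈ (a : ZMod 8) ^ 2 = 1 := by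
  rcases odd_cast h with h | h | h | h <;> rw [h] <;> decide

theorem e4_sq (U W : ZMod 8) : e4 U W ^ 2 = 1 := by
  unfold e4; split_ifs <;> norm_num

theorem coprime_up {p : ℕ} (hp : p.Prime) {a : ℤ} (ha : a ≠ 0) : (up p a).gcd p = 1 := by
  have h := up_not_dvd hp ha
  rw [Int.gcd_comm]
  have : IsCoprime (p : ℤ) (up p a) := by
    rw [Prime.coprime_iff_not_dvd (Nat.prime_iff_prime_int.mp hp)]
    exact h
  exact Int.isCoprime_iff_gcd_eq_one.mp this

theorem hs_sq {p : ℕ} (hp : p.Prime) {a b : ℤ} (ha : a ≠ 0) (hb : b ≠ 0) : hs p a b ^ 2 = 1 := by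
  unfold hs
  split_ifs with h
  · subst h
    rw [mul_pow, mul_pow, e4_sq, ← pow_mul, ← pow_mul, mul_comm (padicValInt 2 a), mul_comm (padicValInt 2 b),
      pow_mul, pow_mul, chi8_sq (up_not_dvd hp ha), chi8_sq (up_not_dvd hp hb)]
    simp
  · have h1 : J(-1 | p) ^ 2 = 1 := jacobiSym.sq_one (by simp)
    have h2 : J(up p a | p) ^ 2 = 1 := jacobiSym.sq_one (coprime_up hp ha)
    have h3 : J(up p b | p) ^ 2 = 1 := jacobiSym.sq_one (coprime_up hp hb)
    have key : ∀ (x : ℤ) (n : ℕ), x ^ 2 = 1 → (x ^ n) ^ 2 = 1 := by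
      intro x n hx
      rw [← pow_mul, mul_comm, pow_mul, hx, one_pow]
    rw [mul_pow, mul_pow, key _ _ h1, key _ _ h2, key _ _ h3]
    norm_num

theorem hs_eq {p : ℕ} (hp : p.Prime) {a b : ℤ} (ha : a ≠ 0) (hb : b ≠ 0) :
    hs p a b = 1 ∨ hs p a b = -1 := by
  have := hs_sq hp ha hb
  have h : (hs p a b - 1) * (hs p a b + 1) = 0 := by ring_nf; rw [this]; norm_num
  rcases mul_eq_zero.mp h with h | h
  · exact Or.inl (by linarith)
  · exact Or.inr (by linarith)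

end Fermat.Agent.L00.HilbQ
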