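import Fermat.Agent.L00.HilbQ3

/-! Hilbert symbol block, part 4: product formula. -/

namespace Fermat.Agent.L00.HilbQ

open ZMod

open scoped NumberTheorySymbols

theorem val_prime_self {p : ℕ} (hp : p.Prime) : padicValInt p (p : ℤ) = 1 := by
  have := Fact.mk hp
  exact padicValInt_self

theorem val_of_not_dvd {p : ℕ} {a : ℤ} (h : ¬ (p : ℤ) ∣ a) : padicValInt p a = 0 :=
  padicValInt.eq_zero_of_not_dvd h

theorem up_of_not_dvd {p : ℕ} {a : ℤ} (h : ¬ (p : ℤ) ∣ a) : up p a = a := by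
  unfold up
  rw [val_of_not_dvd h]; simp

theorem up_prime_self {p : ℕ} (hp : p.Prime) : up p (p : ℤ) = 1 := by
  unfold up
  rw [val_prime_self hp, pow_one]
  exact Int.ediv_self (by exact_mod_cast hp.ne_zero)

theorem hs_of_not_dvd {p : ℕ} (h2 : p ≠ 2) {a b : ℤ} (ha : ¬ (p : ℤ) ∣ a)
    (hb : ¬ (p : ℤ) ∣ b) : hs p a b = 1 := by
  unfold hs
  rw [if_neg h2, val_of_not_dvd ha, val_of_not_dvd hb]
  simp

theorem not_dvd_prime {p q : ℕ} (hp : p.Prime) (hq : q.Prime) (h : p ≠ q) : ¬ (p : ℤ) ∣ (q : ℤ) := by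
  intro h'
  exact h ((Nat.prime_dvd_prime_iff_eq hp hq).mp (by exact_mod_cast h'))

theorem not_dvd_neg_one {p : ℕ} (hp : p.Prime) : ¬ (p : ℤ) ∣ (-1 : ℤ) := by
  intro h
  rw [Int.dvd_neg] at h
  have : p ∣ 1 := by exact_mod_cast h
  exact hp.one_lt.ne' (Nat.dvd_one.mp this)

/-- The statement of the product formula. -/
def PF (a b : ℤ) : Prop := ∀ S : Finset ℕ, (∀ p ∈ S, p.Prime) →
  (∀ p : ℕ, p.Prime → (p : ℤ) ∣ 2 * a * b → p ∈ S) → hsInf a b * ∏ p ∈ S, hs p a b = 1

theorem PF.comm {a b : ℤ} (h : PF a b) : PF b a := by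
  intro S hS h'
  have := h S hS (fun p hp hd => h' p hp (by rwa [mul_assoc, mul_comm b a, ← mul_assoc]))
  rw [hsInf_comm, ← this]
  simp only [hs_comm _ a b]

theorem PF.mul {a a' b : ℤ} (ha : a ≠ 0) (ha' : a' ≠ 0) (h : PF a b) (h' : PF a' b) :
    PF (a * a') b := by
  intro S hS hd
  have h1 := h S hS (fun p hp hp' => hd p hp (hp'.trans ⟨a', by ring⟩))
  have h2 := h' S hS (fun p hp hp' => hd p hp (hp'.trans ⟨a, by ring⟩))
  rw [hsInf_mul_left ha ha', Finset.prod_congr rfl (fun p hp => hs_mul_left (hS p hp) ha ha'),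
    Finset.prod_mul_distrib]
  linear_combination (hsInf a' b * ∏ p ∈ S, hs p a' b) * h1 + h2

theorem pf_of (a b : ℤ) (T : Finset ℕ) (hT : ∀ p ∈ T, p.Prime ∧ (p : ℤ) ∣ 2 * a * b)
    (hT' : ∀ p : ℕ, p.Prime → p ∉ T → p ≠ 2 ∧ ¬ (p : ℤ) ∣ a ∧ ¬ (p : ℤ) ∣ b)
    (h : hsInf a b * ∏ p ∈ T, hs p a b = 1) : PF a b := by
  intro S hS hd
  have hsub : T ⊆ S := fun p hp => hd p (hT p hp).1 (hT p hp).2
  rw [← Finset.prod_subset hsub]
  · exact h
  · intro p hp hpT
    obtain ⟨h1, h2, h3⟩ := hT' p (hS p hp) hpT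
    exact hs_of_not_dvd h1 h2 h3

theorem two_prime_cast_dvd {a b : ℤ} : ((2 : ℕ) : ℤ) ∣ 2 * a * b := ⟨a * b, by push_cast; ring⟩

theorem hs_two (a b : ℤ) : hs 2 a b = e4 (up 2 a : ZMod 8) (up 2 b : ZMod 8) *
    χ₈ (up 2 b : ZMod 8) ^ padicValInt 2 a * χ₈ (up 2 a : ZMod 8) ^ padicValInt 2 b := by
  unfold hs; rw [if_pos rfl]

theorem hs_odd {p : ℕ} (h : p ≠ 2) (a b : ℤ) : hs p a b =
    J(-1 | p) ^ (padicValInt p a * padicValInt p b) * J(up p b | p) ^ padicValInt p a *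
      J(up p a | p) ^ padicValInt p b := by
  unfold hs; rw [if_neg h]

theorem up_two_of_odd {q : ℕ} (hq : q.Prime) (h : q ≠ 2) : up 2 (q : ℤ) = q :=
  up_of_not_dvd (by exact_mod_cast not_dvd_prime Nat.prime_two hq (Ne.symm h))

theorem val_two_of_odd {q : ℕ} (hq : q.Prime) (h : q ≠ 2) : padicValInt 2 (q : ℤ) = 0 :=
  val_of_not_dvd (by exact_mod_cast not_dvd_prime Nat.prime_two hq (Ne.symm h))

theorem odd_of {q : ℕ} (hq : q.Prime) (h : q ≠ 2) : Odd q := hq.odd_of_ne_two h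

theorem cast8_of {q : ℕ} (hq : q.Prime) (h : q ≠ 2) :
    ((q : ZMod 8) = 1 ∨ (q : ZMod 8) = 3 ∨ (q : ZMod 8) = 5 ∨ (q : ZMod 8) = 7) := by
  have := odd_cast (a := (q : ℤ)) (by exact_mod_cast not_dvd_prime Nat.prime_two hq (Ne.symm h))
  simpa using this

theorem chi4_eq_e4 {q : ℕ} (hq : q.Prime) (h : q ≠ 2) :
    χ₄ (q : ZMod 4) = e4 (-1) (q : ZMod 8) := by
  have h1 : (q : ZMod 4) = (ZMod.castHom (show 4 ∣ 8 by norm_num) (ZMod 4)) (q : ZMod 8) := by
    simp
  rw [h1]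
  rcases cast8_of hq h with h | h | h | h <;> rw [h] <;> decide

theorem e4_self {q : ℕ} (hq : q.Prime) (h : q ≠ 2) :
    e4 (q : ZMod 8) (q : ZMod 8) = e4 (-1) (q : ZMod 8) := by
  rcases cast8_of hq h with h | h | h | h <;> rw [h] <;> decide

theorem chi4_sq {q : ℕ} (hq : q.Prime) (h : q ≠ 2) : χ₄ (q : ZMod 4) * χ₄ (q : ZMod 4) = 1 := by
  rw [chi4_eq_e4 hq h]
  rcases cast8_of hq h with h | h | h | h <;> rw [h] <;> decide

theorem pf_neg_neg : PF (-1) (-1) := by
  refine pf_of _ _ {2} ?_ ?_ ?_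
  · intro p hp
    rw [Finset.mem_singleton] at hp
    subst hp
    exact ⟨Nat.prime_two, two_prime_cast_dvd⟩
  · intro p hp hpT
    exact ⟨fun h => hpT (by simp [h]), not_dvd_neg_one hp, not_dvd_neg_one hp⟩
  · rw [Finset.prod_singleton, hs_two, up_of_not_dvd (not_dvd_neg_one Nat.prime_two),
      val_of_not_dvd (not_dvd_neg_one Nat.prime_two)]
    decide

theorem pf_neg_two : PF (-1) ((2 : ℕ) : ℤ) := by
  refine pf_of _ _ {2} ?_ ?_ ?_
  · intro p hp
    rw [Finset.mem_singleton] at hp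
    subst hp
    exact ⟨Nat.prime_two, two_prime_cast_dvd⟩
  · intro p hp hpT
    have h2 : p ≠ 2 := fun h => hpT (by simp [h])
    exact ⟨h2, not_dvd_neg_one hp, not_dvd_prime hp Nat.prime_two h2⟩
  · rw [Finset.prod_singleton, hs_two, up_of_not_dvd (not_dvd_neg_one Nat.prime_two),
      val_of_not_dvd (not_dvd_neg_one Nat.prime_two), up_prime_self Nat.prime_two,
      val_prime_self Nat.prime_two]
    decide

theorem pf_two_two : PF ((2 : ℕ) : ℤ) ((2 : ℕ) : ℤ) := by
  refine pf_of _ _ {2} ?_ ?_ ?_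
  · intro p hp
    rw [Finset.mem_singleton] at hp
    subst hp
    exact ⟨Nat.prime_two, two_prime_cast_dvd⟩
  · intro p hp hpT
    have h2 : p ≠ 2 := fun h => hpT (by simp [h])
    exact ⟨h2, not_dvd_prime hp Nat.prime_two h2, not_dvd_prime hp Nat.prime_two h2⟩
  · rw [Finset.prod_singleton, hs_two, up_prime_self Nat.prime_two,
      val_prime_self Nat.prime_two]
    decide

theorem pf_neg_q {q : ℕ} (hq : q.Prime) (h2 : q ≠ 2) : PF (-1) (q : ℤ) := by
  refine pf_of _ _ {2, q} ?_ ?_ ?_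
  · intro p hp
    simp only [Finset.mem_insert, Finset.mem_singleton] at hp
    rcases hp with rfl | rfl
    · exact ⟨Nat.prime_two, two_prime_cast_dvd⟩
    · exact ⟨hq, dvd_mul_left _ _⟩
  · intro p hp hpT
    simp only [Finset.mem_insert, Finset.mem_singleton, not_or] at hpT
    exact ⟨hpT.1, not_dvd_neg_one hp, not_dvd_prime hp hq hpT.2⟩
  · rw [Finset.prod_pair (Ne.symm h2), hs_two, hs_odd h2,
      up_of_not_dvd (not_dvd_neg_one Nat.prime_two), up_of_not_dvd (not_dvd_neg_one hq),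
      val_of_not_dvd (not_dvd_neg_one Nat.prime_two), val_of_not_dvd (not_dvd_neg_one hq),
      up_two_of_odd hq h2, val_two_of_odd hq h2, up_prime_self hq, val_prime_self hq,
      jacobiSym.at_neg_one (odd_of hq h2)]
    have h3 : hsInf (-1) (q : ℤ) = 1 := by
      unfold hsInf
      rw [if_neg]
      have := hq.pos
      push Not
      intro; positivity
    rw [h3]
    have h4 := chi4_sq hq h2
    have h5 := chi4_eq_e4 hq h2
    simp only [Int.cast_neg, Int.cast_one, Int.cast_natCast, pow_zero, zero_mul, pow_one]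
    rw [← h5]
    linear_combination h4

theorem pf_two_q {q : ℕ} (hq : q.Prime) (h2 : q ≠ 2) : PF ((2 : ℕ) : ℤ) (q : ℤ) := by
  refine pf_of _ _ {2, q} ?_ ?_ ?_
  · intro p hp
    simp only [Finset.mem_insert, Finset.mem_singleton] at hp
    rcases hp with rfl | rfl
    · exact ⟨Nat.prime_two, two_prime_cast_dvd⟩
    · exact ⟨hq, dvd_mul_left _ _⟩
  · intro p hp hpT
    simp only [Finset.mem_insert, Finset.mem_singleton, not_or] at hpT
    exact ⟨hpT.1, not_dvd_prime hp Nat.prime_two hpT.1, not_dvd_prime hp hq hpT.2⟩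
  · rw [Finset.prod_pair (Ne.symm h2), hs_two, hs_odd h2,
      up_of_not_dvd (not_dvd_prime hq Nat.prime_two h2),
      val_of_not_dvd (not_dvd_prime hq Nat.prime_two h2),
      up_prime_self Nat.prime_two, val_prime_self Nat.prime_two,
      up_two_of_odd hq h2, val_two_of_odd hq h2, up_prime_self hq, val_prime_self hq]
    have h3 : hsInf ((2 : ℕ) : ℤ) (q : ℤ) = 1 := by
      unfold hsInf
      rw [if_neg]
      have := hq.pos
      push Not
      intro; positivity
    have h6 : J(((2 : ℕ) : ℤ) | q) = χ₈ q := by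
      have := jacobiSym.at_two (odd_of hq h2)
      exact_mod_cast this
    rw [h3, h6]
    have h4 := chi8_sq (a := (q : ℤ)) (by exact_mod_cast not_dvd_prime Nat.prime_two hq (Ne.symm h2))
    have h7 : e4 1 (q : ZMod 8) = 1 := by
      rcases cast8_of hq h2 with h | h | h | h <;> rw [h] <;> decide
    simp only [Int.cast_one, Int.cast_natCast, pow_zero, zero_mul, pow_one, h7, mul_one, mul_zero,
      one_mul] at h4 ⊢
    linear_combination h4

theorem pf_q_q {q : ℕ} (hq : q.Prime) (h2 : q ≠ 2) : PF (q : ℤ) (q : ℤ) := by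
  refine pf_of _ _ {2, q} ?_ ?_ ?_
  · intro p hp
    simp only [Finset.mem_insert, Finset.mem_singleton] at hp
    rcases hp with rfl | rfl
    · exact ⟨Nat.prime_two, two_prime_cast_dvd⟩
    · exact ⟨hq, dvd_mul_left _ _⟩
  · intro p hp hpT
    simp only [Finset.mem_insert, Finset.mem_singleton, not_or] at hpT
    exact ⟨hpT.1, not_dvd_prime hp hq hpT.2, not_dvd_prime hp hq hpT.2⟩
  · rw [Finset.prod_pair (Ne.symm h2), hs_two, hs_odd h2,
      up_two_of_odd hq h2, val_two_of_odd hq h2, up_prime_self hq, val_prime_self hq,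
      jacobiSym.at_neg_one (odd_of hq h2)]
    have h3 : hsInf (q : ℤ) (q : ℤ) = 1 := by
      unfold hsInf
      rw [if_neg]
      have := hq.pos
      push Not
      intro; positivity
    have h4 := chi4_sq hq h2
    have h5 := chi4_eq_e4 hq h2
    rw [h3]
    simp only [Int.cast_natCast, pow_zero, pow_one, jacobiSym.one_left, mul_one, one_mul]
    rw [e4_self hq h2, ← h5, h4]

theorem e4_recip {p q : ℕ} (hp : p.Prime) (hp2 : p ≠ 2) (hq : q.Prime) (h2 : q ≠ 2) :
    ((-1 : ℤ)) ^ (p / 2 * (q / 2)) = e4 (p : ZMod 8) (q : ZMod 8) := by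
  have key : ∀ q : ℕ, q.Prime → q ≠ 2 →
      ((((q : ZMod 8) = 1 ∨ (q : ZMod 8) = 5) ∧ Even (q / 2)) ∨
       (((q : ZMod 8) = 3 ∨ (q : ZMod 8) = 7) ∧ Odd (q / 2))) := by
    intro q hq h2
    have ho : q % 2 = 1 := Nat.odd_iff.mp (odd_of hq h2)
    have e : (q : ZMod 8) = ((q % 8 : ℕ) : ZMod 8) := by simp
    have h8 : q % 8 = 1 ∨ q % 8 = 3 ∨ q % 8 = 5 ∨ q % 8 = 7 := by omega
    rw [e]
    rcases h8 with h | h | h | h <;> rw [h]
    · left; exact ⟨Or.inl rfl, Nat.even_iff.mpr (by omega)⟩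
    · right; exact ⟨Or.inl rfl, Nat.odd_iff.mpr (by omega)⟩
    · left; exact ⟨Or.inr rfl, Nat.even_iff.mpr (by omega)⟩
    · right; exact ⟨Or.inr rfl, Nat.odd_iff.mpr (by omega)⟩
  rcases key p hp hp2 with ⟨h, hev⟩ | ⟨h, hodd⟩
  · rw [(hev.mul_right _).neg_one_pow]
    rcases h with h | h <;> rw [h] <;>
    rcases cast8_of hq h2 with h' | h' | h' | h' <;> rw [h'] <;> decide
  · rcases key q hq h2 with ⟨h', hev'⟩ | ⟨h', hodd'⟩
    · rw [(hev'.mul_left _).neg_one_pow]
      rcases h with h | h <;> rw [h] <;> rcases h' with h' | h' <;> rw [h'] <;> decide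
    · rw [(hodd.mul hodd').neg_one_pow]
      rcases h with h | h <;> rw [h] <;> rcases h' with h' | h' <;> rw [h'] <;> decide

theorem pf_p_q {p q : ℕ} (hp : p.Prime) (hp2 : p ≠ 2) (hq : q.Prime) (h2 : q ≠ 2) (hpq : p ≠ q) :
    PF (p : ℤ) (q : ℤ) := by
  refine pf_of _ _ {2, p, q} ?_ ?_ ?_
  · intro r hr
    simp only [Finset.mem_insert, Finset.mem_singleton] at hr
    rcases hr with rfl | rfl | rfl
    · exact ⟨Nat.prime_two, two_prime_cast_dvd⟩
    · exact ⟨hp, ⟨2 * q, by ring⟩⟩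
    · exact ⟨hq, dvd_mul_left _ _⟩
  · intro r hr hrT
    simp only [Finset.mem_insert, Finset.mem_singleton, not_or] at hrT
    exact ⟨hrT.1, not_dvd_prime hr hp hrT.2.1, not_dvd_prime hr hq hrT.2.2⟩
  · rw [Finset.prod_insert (by simp [Ne.symm hp2, Ne.symm h2]), Finset.prod_pair hpq, hs_two,
      hs_odd h2, hs_odd hp2,
      up_two_of_odd hq h2, val_two_of_odd hq h2, up_prime_self hq, val_prime_self hq,
      up_two_of_odd hp hp2, val_two_of_odd hp hp2, up_prime_self hp, val_prime_self hp,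
      up_of_not_dvd (not_dvd_prime hp hq hpq), val_of_not_dvd (not_dvd_prime hp hq hpq),
      up_of_not_dvd (not_dvd_prime hq hp (Ne.symm hpq)),
      val_of_not_dvd (not_dvd_prime hq hp (Ne.symm hpq))]
    have h3 : hsInf (p : ℤ) (q : ℤ) = 1 := by
      unfold hsInf
      rw [if_neg]
      have := hq.pos
      push Not
      intro; positivity
    have hr := jacobiSym.quadratic_reciprocity (odd_of hp hp2) (odd_of hq h2)
    rw [e4_recip hp hp2 hq h2] at hr
    have hsq : J((q : ℤ) | p) ^ 2 = 1 := jacobiSym.sq_one (by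
      have := (Nat.coprime_primes hq hp).mpr (Ne.symm hpq)
      simpa using this)
    have hs4 := e4_sq (p : ZMod 8) (q : ZMod 8)
    rw [h3]
    simp only [Int.cast_natCast, pow_zero, pow_one, mul_zero, zero_mul, mul_one, one_mul]
    rw [hr]
    linear_combination (J((q : ℤ) | p) ^ 2) * hs4 + hsq

theorem pf_prime_prime {p q : ℕ} (hp : p.Prime) (hq : q.Prime) : PF (p : ℤ) (q : ℤ) := by
  by_cases hp2 : p = 2
  · subst hp2
    by_cases hq2 : q = 2
    · subst hq2; exact pf_two_two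
    · exact pf_two_q hq hq2
  · by_cases hq2 : q = 2
    · subst hq2; exact (pf_two_q hp hp2).comm
    · by_cases hpq : p = q
      · subst hpq; exact pf_q_q hp hp2
      · exact pf_p_q hp hp2 hq hq2 hpq

theorem pf_neg_prime {q : ℕ} (hq : q.Prime) : PF (-1) (q : ℤ) := by
  by_cases hq2 : q = 2
  · subst hq2; exact pf_neg_two
  · exact pf_neg_q hq hq2

theorem hs_one_left {p : ℕ} (hp : p.Prime) (b : ℤ) (hb : b ≠ 0) : hs p 1 b = 1 := by
  have h := hs_mul_left hp (a := 1) (a' := 1) (b := b) one_ne_zero one_ne_zero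
  rw [mul_one] at h
  have h1 := hs_sq hp (a := 1) one_ne_zero hb
  nlinarith

theorem pf_one (b : ℤ) (hb : b ≠ 0) : PF 1 b := by
  intro S hS _
  rw [Finset.prod_eq_one (fun p hp => hs_one_left (hS p hp) b hb)]
  simp [hsInf]

theorem int_induction {P : ℤ → Prop} (h1 : P 1) (hneg : P (-1)) (hp : ∀ p : ℕ, p.Prime → P (p : ℤ))
    (hmul : ∀ a b : ℤ, a ≠ 0 → b ≠ 0 → P a → P b → P (a * b)) (a : ℤ) (ha : a ≠ 0) : P a := by
  have key : ∀ n : ℕ, n ≠ 0 → P (n : ℤ) := by
    intro n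
    induction n using induction_on_primes with
    | zero => intro h; exact absurd rfl h
    | one => intro _; simpa using h1
    | prime_mul p a hp' ih =>
      intro h
      have ha : a ≠ 0 := right_ne_zero_of_mul h
      push_cast
      exact hmul _ _ (by exact_mod_cast hp'.ne_zero) (by exact_mod_cast ha) (hp p hp') (ih ha)
  rcases Int.natAbs_eq a with h | h
  · rw [h]; exact key _ (Int.natAbs_ne_zero.mpr ha)
  · rw [h]
    have : -((a.natAbs : ℕ) : ℤ) = (-1) * (a.natAbs : ℤ) := by ring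
    rw [this]
    exact hmul _ _ (by norm_num) (by exact_mod_cast (Int.natAbs_ne_zero.mpr ha)) hneg
      (key _ (Int.natAbs_ne_zero.mpr ha))

/-- **Product formula** for the Hilbert symbol over `ℚ`. -/
theorem product_formula {a b : ℤ} (ha : a ≠ 0) (hb : b ≠ 0) : PF a b := by
  refine int_induction (P := fun a => PF a b) (pf_one b hb) ?_ ?_
    (fun x y hx hy h h' => h.mul hx hy h') a ha
  · refine int_induction (P := fun b => PF (-1) b) (pf_one _ (by norm_num)).comm pf_neg_neg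
      (fun q hq => pf_neg_prime hq) (fun x y hx hy h h' => (h.comm.mul hx hy h'.comm).comm) b hb
  · intro p hp
    refine int_induction (P := fun b => PF (p : ℤ) b)
      (pf_one _ (by exact_mod_cast hp.ne_zero)).comm (pf_neg_prime hp).comm
      (fun q hq => pf_prime_prime hp hq)
      (fun x y hx hy h h' => (h.comm.mul hx hy h'.comm).comm) b hb

end Fermat.Agent.L00.HilbQ
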