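import Mathlib
set_option autoImplicit false

/-!
# Index of `p`-th powers in an abelian group (lead, WP-Cb)
-/

namespace Fermat.Agent.L00.LKum

variable {G : Type*} [CommGroup G]

/-- if `V ≤ U` has finite index, `V` without kernel of `f`, then `[U : f U] = |ker f| [V : f V]` -/
theorem index_range_eq (f : G →* G) (V : Subgroup G) (hV : V.index ≠ 0)
    (hker : ∀ x ∈ V, f x = 1 → x = 1) (hfV : V.map f ≤ V) :
    f.range.index = Nat.card f.ker * (V.map f).relIndex V := by
  have h1 : (V.map f).index = (V ⊔ f.ker).index * f.range.index := Subgroup.index_map V f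
  have h2 : (V.map f).relIndex V * V.index = (V.map f).index := Subgroup.relIndex_mul_index hfV
  have h3 : V.relIndex (V ⊔ f.ker) * (V ⊔ f.ker).index = V.index :=
    Subgroup.relIndex_mul_index le_sup_left
  have h4 : V.relIndex (V ⊔ f.ker) = Nat.card f.ker := by
    rw [Subgroup.relIndex_sup_left, Subgroup.relIndex]
    have h5 : V.subgroupOf f.ker = ⊥ := by
      rw [eq_bot_iff]
      intro x hx
      rw [Subgroup.mem_bot]
      exact Subtype.ext (hker x hx x.2)
    rw [h5, Subgroup.index_bot]
  have h6 : (V ⊔ f.ker).index ≠ 0 := by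
    intro h0
    rw [h0, mul_zero] at h3
    exact hV h3.symm
  rw [h4] at h3
  rw [← h2, ← h3] at h1
  have h7 : (V ⊔ f.ker).index * f.range.index =
      (V ⊔ f.ker).index * (Nat.card f.ker * (V.map f).relIndex V) := by
    rw [← h1]; ring
  exact Nat.eq_of_mul_eq_mul_left (Nat.pos_of_ne_zero h6) h7

/-- adding a discrete valuation -/
theorem index_pow_of_val (p : ℕ) (hp : 0 < p) (v : G →* Multiplicative ℤ)
    (hv : Function.Surjective v) :
    (powMonoidHom p : G →* G).range.index =
      p * ((powMonoidHom p : v.ker →* v.ker).range).index := by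
  set P := (powMonoidHom p : G →* G).range with hP
  have h1 : P.relIndex (P ⊔ v.ker) * (P ⊔ v.ker).index = P.index :=
    Subgroup.relIndex_mul_index le_sup_left
  have h2 : P.relIndex (P ⊔ v.ker) = ((powMonoidHom p : v.ker →* v.ker).range).index := by
    rw [Subgroup.relIndex_sup_left, Subgroup.relIndex]
    congr 1
    ext x
    rw [Subgroup.mem_subgroupOf]
    constructor
    · rintro ⟨y, hy⟩
      have hy' : y ^ p = (x : G) := hy
      have h3 : v y ^ p = 1 := by
        rw [← map_pow, hy']
        exact x.2
      have h4 : v y = 1 := by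
        have h5 : p • (Multiplicative.toAdd (v y)) = 0 := by
          have := congrArg Multiplicative.toAdd h3
          simpa using this
        have h6 : Multiplicative.toAdd (v y) = 0 := by
          rcases smul_eq_zero.mp h5 with h | h
          · omega
          · exact h
        exact Multiplicative.toAdd.injective h6
      exact ⟨⟨y, h4⟩, Subtype.ext hy'⟩
    · rintro ⟨y, hy⟩
      refine ⟨y, ?_⟩
      have := congrArg Subtype.val hy
      exact this
  have h3 : (P ⊔ v.ker).index = p := by
    have h4 : (P.map v).index = (P ⊔ v.ker).index * v.range.index := Subgroup.index_map P v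
    rw [MonoidHom.range_eq_top.mpr hv, Subgroup.index_top, mul_one] at h4
    rw [← h4]
    have h5 : P.map v = (AddSubgroup.zmultiples (p : ℤ)).toSubgroup := by
      ext x
      constructor
      · rintro ⟨y, ⟨z, rfl⟩, rfl⟩
        change Multiplicative.toAdd (v (z ^ p)) ∈ AddSubgroup.zmultiples (p : ℤ)
        rw [map_pow, Int.mem_zmultiples_iff]
        exact ⟨Multiplicative.toAdd (v z), by simp⟩
      · intro hx
        have hx' : Multiplicative.toAdd x ∈ AddSubgroup.zmultiples (p : ℤ) := hx
        rw [Int.mem_zmultiples_iff] at hx'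
        obtain ⟨c, hc⟩ := hx'
        obtain ⟨z, hz⟩ := hv (Multiplicative.ofAdd c)
        refine ⟨z ^ p, ⟨z, rfl⟩, ?_⟩
        rw [map_pow, hz]
        apply Multiplicative.toAdd.injective
        rw [hc]; simp
    rw [h5]
    have h6 : (AddSubgroup.zmultiples (p : ℤ)).index = p := by
      rw [Int.index_zmultiples]; simp
    exact h6
  rw [← h1, h2, h3, mul_comm]

end Fermat.Agent.L00.LKum
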