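import Fermat.Agent.L00.Unr4

set_option autoImplicit false

/-!
# Unramified characters and tame characters over a number field `K`
-/

namespace Fermat.Agent.L00.Unr

open scoped NumberField Pointwise
open Fermat.Agent.H05 Fermat.Agent.H09

/-- `N ^ i ≡ N ^ j mod (N ^ m - 1)` iff `i ≡ j mod m`. -/
theorem pow_modEq_iff {N m : ℕ} (hN : 1 < N) (hm : 0 < m) (i j : ℕ) :
    N ^ i ≡ N ^ j [MOD (N ^ m - 1)] ↔ i ≡ j [MOD m] := by
  have hNm : 1 ≤ N ^ m := Nat.one_le_pow _ _ (by omega)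
  have h1 : N ^ m ≡ 1 [MOD (N ^ m - 1)] := by
    have : N ^ m = 1 + (N ^ m - 1) := by omega
    nth_rw 2 [this]
    exact Nat.add_modEq_right
  have hmod : ∀ i : ℕ, N ^ i ≡ N ^ (i % m) [MOD (N ^ m - 1)] := by
    intro i
    have h2 : N ^ i = N ^ (i % m) * (N ^ m) ^ (i / m) := by
      rw [← pow_mul, ← pow_add, Nat.mod_add_div]
    rw [h2]
    have h3 : N ^ (i % m) * (N ^ m) ^ (i / m) ≡ N ^ (i % m) * 1 ^ (i / m) [MOD (N ^ m - 1)] :=
      Nat.ModEq.mul_left _ (h1.pow _)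
    simpa using h3
  constructor
  · intro h
    have h2 : N ^ (i % m) ≡ N ^ (j % m) [MOD (N ^ m - 1)] := ((hmod i).symm.trans h).trans (hmod j)
    have hlt : ∀ k, k < m → N ^ k ≤ N ^ m - 1 := by
      intro k hk
      have := Nat.pow_lt_pow_right hN hk
      omega
    have hi := hlt _ (Nat.mod_lt i hm)
    have hj := hlt _ (Nat.mod_lt j hm)
    -- both are in [1, N^m - 1]
    have hi0 : 0 < N ^ (i % m) := Nat.pos_of_ne_zero (pow_ne_zero _ (by omega))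
    have hj0 : 0 < N ^ (j % m) := Nat.pos_of_ne_zero (pow_ne_zero _ (by omega))
    have h3 : N ^ (i % m) = N ^ (j % m) := by
      rcases Nat.lt_or_ge (N ^ (i % m)) (N ^ m - 1) with h4 | h4
      · rcases Nat.lt_or_ge (N ^ (j % m)) (N ^ m - 1) with h5 | h5
        · exact Nat.ModEq.eq_of_lt_of_lt h2 h4 h5
        · have h6 : N ^ (j % m) = N ^ m - 1 := le_antisymm hj h5
          have h7 : N ^ (i % m) ≡ 0 [MOD (N ^ m - 1)] := by
            rw [h6] at h2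
            exact h2.trans (by rw [Nat.modEq_zero_iff_dvd])
          have h8 := (Nat.modEq_zero_iff_dvd.mp h7)
          have := Nat.le_of_dvd hi0 h8
          omega
      · have h6 : N ^ (i % m) = N ^ m - 1 := le_antisymm hi h4
        rcases Nat.lt_or_ge (N ^ (j % m)) (N ^ m - 1) with h5 | h5
        · have h7 : N ^ (j % m) ≡ 0 [MOD (N ^ m - 1)] := by
            rw [h6] at h2
            exact h2.symm.trans (by rw [Nat.modEq_zero_iff_dvd])
          have h8 := (Nat.modEq_zero_iff_dvd.mp h7)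
          have := Nat.le_of_dvd hj0 h8
          omega
        · omega
    have h4 : i % m = j % m := Nat.pow_right_injective hN h3
    exact h4
  · intro h
    have h2 : i % m = j % m := h
    have h3 := (hmod i)
    rw [h2] at h3
    exact h3.trans (hmod j).symm

variable {L : Type*} [Field L] [CharZero L] [IsGalois ℚ L]

/-- **Existence of unramified characters** of `D(A,K)` of every order. -/
theorem exists_unram_char [IsAlgClosed L] {A : ValuationSubring L} {ℓ : ℕ} (hℓ : ℓ.Prime)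
    (hA : A.LiesOverPrime ℓ) (K : IntermediateField ℚ L) [FiniteDimensional ℚ K]
    {m : ℕ} (hm : 0 < m) :
    ∃ χ : ↥(A.decompositionSubgroup ℚ ⊓ K.fixingSubgroup) →* Multiplicative (ZMod m),
      (∀ σ : ↥(A.decompositionSubgroup ℚ ⊓ K.fixingSubgroup),
        (σ : L ≃ₐ[ℚ] L) ∈ A.inertiaSubgroupIn ℚ → χ σ = 1) ∧
      (∃ F : IntermediateField ℚ L, FiniteDimensional ℚ F ∧
        ∀ σ : ↥(A.decompositionSubgroup ℚ ⊓ K.fixingSubgroup),
          (σ : L ≃ₐ[ℚ] L) ∈ F.fixingSubgroup → χ σ = 1) ∧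
      (∀ φ : ↥(A.decompositionSubgroup ℚ ⊓ K.fixingSubgroup),
        A.IsFrobeniusAt (φ : L ≃ₐ[ℚ] L) (nrm A K) → χ φ = Multiplicative.ofAdd 1) := by
  classical
  have hN := one_lt_nrm hℓ hA K
  obtain ⟨f, hf0, hf⟩ := exists_nrm_eq hℓ hA K
  set N := nrm A K with hNdef
  set n := N ^ m - 1 with hn
  have hNm : 1 < N ^ m := Nat.one_lt_pow hm.ne' hN
  have hn0 : n ≠ 0 := by omega
  have hℓn : ¬ ℓ ∣ n := by
    intro h
    have h1 : ℓ ∣ N ^ m := by
      rw [hf, ← pow_mul]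
      exact dvd_pow_self _ (Nat.mul_ne_zero hf0.ne' hm.ne')
    have h2 : ℓ ∣ N ^ m - n := Nat.dvd_sub h1 h
    have h3 : N ^ m - n = 1 := by omega
    rw [h3] at h2
    exact hℓ.one_lt.ne' (Nat.dvd_one.mp h2)
  have hnL : NeZero ((n : ℕ) : L) := ⟨Nat.cast_ne_zero.mpr hn0⟩
  obtain ⟨ζ, hζ⟩ := HasEnoughRootsOfUnity.exists_primitiveRoot L n
  obtain ⟨F, hFfin, hFn, hKF, hζF⟩ := exists_normal_containing K ζ
  have hζint : IsIntegral ℤ (⟨ζ, hζF⟩ : F) := by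
    refine ⟨Polynomial.X ^ n - 1, Polynomial.monic_X_pow_sub_C 1 hn0, ?_⟩
    simp only [Polynomial.eval₂_sub, Polynomial.eval₂_X_pow, Polynomial.eval₂_one]
    rw [sub_eq_zero]
    exact Subtype.ext hζ.pow_eq_one
  let ζO : 𝓞 F := ⟨⟨ζ, hζF⟩, hζint⟩
  have hpow : ∀ σ : ↥(A.decompositionSubgroup ℚ ⊓ K.fixingSubgroup), ∃ j : ℕ,
      (σ : L ≃ₐ[ℚ] L) ζ = ζ ^ (N ^ j) := by
    intro σ
    obtain ⟨j, hj⟩ := exists_pow hℓ hA K F hFn hKF σ.2.1 σ.2.2
    refine ⟨j, ?_⟩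
    apply rootsOfUnity_eq_of_residue_eq hℓ hA hℓn (m := n)
    · rw [← map_pow, hζ.pow_eq_one, map_one]
    · rw [← pow_mul, mul_comm, pow_mul, hζ.pow_eq_one, one_pow]
    · exact hj ζO
  choose j hj using hpow
  have huniq : ∀ i k : ℕ, ζ ^ (N ^ i) = ζ ^ (N ^ k) ↔ ((i : ZMod m) = (k : ZMod m)) := by
    intro i k
    have hζu : IsPrimitiveRoot (hζ.isUnit hn0).unit n := by
      rw [← IsPrimitiveRoot.coe_units_iff]; exact hζ
    have ho : N ^ m - 1 = orderOf (hζ.isUnit hn0).unit := hζu.eq_orderOf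
    rw [ZMod.natCast_eq_natCast_iff, ← pow_modEq_iff hN hm, ho, ← pow_eq_pow_iff_modEq]
    rw [Units.ext_iff]
    simp
  refine ⟨
    { toFun := fun σ => Multiplicative.ofAdd (j σ : ZMod m)
      map_one' := ?_
      map_mul' := ?_ }, ?_, ⟨F, hFfin, ?_⟩, ?_⟩
  · have h1 := hj 1
    have h2 : ζ ^ (N ^ j 1) = ζ ^ (N ^ 0) := by
      rw [← h1]; simp
    have h3 := (huniq _ _).mp h2
    rw [h3]; simp
  · intro σ τ
    have h1 := hj (σ * τ)
    have h2 : ζ ^ (N ^ j (σ * τ)) = ζ ^ (N ^ (j σ + j τ)) := by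
      rw [← h1]
      change (σ : L ≃ₐ[ℚ] L) ((τ : L ≃ₐ[ℚ] L) ζ) = _
      rw [hj τ, map_pow, hj σ, ← pow_mul, ← pow_add]
    have h3 := (huniq _ _).mp h2
    rw [h3]; push_cast; rfl
  · intro σ hσ
    have h1 := hj σ
    rw [inertia_apply_rootOfUnity hℓ hA hℓn hσ hζ.pow_eq_one] at h1
    have h2 : ζ ^ (N ^ j σ) = ζ ^ (N ^ 0) := by rw [← h1]; simp
    have h3 := (huniq _ _).mp h2
    change Multiplicative.ofAdd (j σ : ZMod m) = 1
    rw [h3]; simp
  · intro σ hσ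
    have h1 := hj σ
    rw [(IntermediateField.mem_fixingSubgroup_iff F _).mp hσ ζ hζF] at h1
    have h2 : ζ ^ (N ^ j σ) = ζ ^ (N ^ 0) := by rw [← h1]; simp
    have h3 := (huniq _ _).mp h2
    change Multiplicative.ofAdd (j σ : ZMod m) = 1
    rw [h3]; simp
  · intro φ hφ
    have h1 := hj φ
    have hζA : ζ ∈ A := mem_of_isIntegral A (iota F ζO).2
    have h4 := frob_pow_sub hφ hζA 1
    rw [pow_one, pow_one] at h4
    have h5 : (φ : L ≃ₐ[ℚ] L) ζ = ζ ^ N := by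
      apply rootsOfUnity_eq_of_residue_eq hℓ hA hℓn (m := n)
      · rw [← map_pow, hζ.pow_eq_one, map_one]
      · rw [← pow_mul, mul_comm, pow_mul, hζ.pow_eq_one, one_pow]
      · exact h4
    have h2 : ζ ^ (N ^ j φ) = ζ ^ (N ^ 1) := by rw [← h1, h5, pow_one]
    have h3 := (huniq _ _).mp h2
    change Multiplicative.ofAdd (j φ : ZMod m) = Multiplicative.ofAdd 1
    rw [h3]; simp

/-- **Tame characters** of the inertia group over `K`: `ϖ ^ m = π`, `π` the uniformizer of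
`exists_uniformizer`. -/
theorem inertia_char_eq {A : ValuationSubring L} {q : ℕ} (hq : q.Prime) (hA : A.LiesOverPrime q)
    (K : IntermediateField ℚ L) [FiniteDimensional ℚ K]
    {m : ℕ} (hm : ¬ q ∣ m) (π : L) (hπK : π ∈ K) (hπ0 : π ≠ 0)
    (hval : ∀ z : L, z ≠ 0 → (∀ σ ∈ A.inertiaSubgroupIn ℚ ⊓ K.fixingSubgroup, σ z = z) →
      ∃ n : ℤ, A.valuation z = A.valuation π ^ n)
    (ϖ : L) (hϖ : ϖ ^ m = π) (f : (L ≃ₐ[ℚ] L) → L)
    (hf1 : ∀ σ ∈ A.inertiaSubgroupIn ℚ ⊓ K.fixingSubgroup, f σ ^ m = 1)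
    (hf2 : ∀ σ ∈ A.inertiaSubgroupIn ℚ ⊓ K.fixingSubgroup,
      ∀ τ ∈ A.inertiaSubgroupIn ℚ ⊓ K.fixingSubgroup, f (σ * τ) = f σ * f τ)
    (U : Subgroup (L ≃ₐ[ℚ] L)) (hU : IsOpen (U : Set (L ≃ₐ[ℚ] L)))
    (hfU : ∀ σ ∈ A.inertiaSubgroupIn ℚ ⊓ K.fixingSubgroup, σ ∈ U → f σ = 1) :
    ∃ n : ℤ, ∀ σ ∈ A.inertiaSubgroupIn ℚ ⊓ K.fixingSubgroup, f σ = (σ ϖ / ϖ) ^ n := by
  have hm0 : m ≠ 0 := by rintro rfl; exact hm (dvd_zero _)
  have hϖ0 : ϖ ≠ 0 := by
    rintro rfl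
    rw [zero_pow hm0] at hϖ
    exact hπ0 hϖ.symm
  have : Algebra.IsAlgebraic ℚ L := inferInstance
  obtain ⟨u, hu0, hu⟩ := H12.hilbert90' (A.inertiaSubgroupIn ℚ ⊓ K.fixingSubgroup) f
    (fun σ hσ h0 => by
      have := hf1 σ hσ
      rw [h0, zero_pow hm0] at this
      exact zero_ne_one this)
    (fun σ hσ τ hτ => by
      rw [hf2 σ hσ τ hτ, inertia_apply_rootOfUnity hq hA hm hσ.1 (hf1 τ hτ)]) U hU hfU
  have hum : ∀ σ ∈ A.inertiaSubgroupIn ℚ ⊓ K.fixingSubgroup, σ (u ^ m) = u ^ m := by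
    intro σ hσ
    rw [map_pow, hu σ hσ, mul_pow, hf1 σ hσ, one_mul]
  obtain ⟨n, hn⟩ := hval (u ^ m) (pow_ne_zero m hu0) hum
  set w : L := u / ϖ ^ n with hw
  have hw0 : w ≠ 0 := div_ne_zero hu0 (zpow_ne_zero n hϖ0)
  have hwm : w ^ m = u ^ m / π ^ n := by
    rw [hw, div_pow, ← hϖ, ← zpow_natCast (ϖ ^ n) m, ← zpow_mul, mul_comm n (m : ℤ), zpow_mul,
      zpow_natCast]
  have hqv : A.valuation π ≠ 0 := (map_ne_zero _).mpr hπ0
  have hvw : A.valuation w = 1 := by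
    have h1 : A.valuation w ^ m = 1 := by
      rw [← map_pow, hwm, map_div₀, hn, map_zpow₀, div_self]
      exact zpow_ne_zero n hqv
    exact (pow_eq_one_iff.mp h1).resolve_right hm0
  have hwfix : ∀ σ ∈ A.inertiaSubgroupIn ℚ ⊓ K.fixingSubgroup, σ w = w := by
    intro σ hσ
    have h1 : A.valuation (σ w - w) < 1 := val_sub_lt_one_of_inertia hσ.1 hvw.le
    have hσπ : σ π = π := (IntermediateField.mem_fixingSubgroup_iff K σ).mp hσ.2 π hπK
    have h2 : (σ w / w) ^ m = 1 := by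
      rw [div_pow, ← map_pow, hwm, map_div₀, hum σ hσ, map_zpow₀, hσπ, div_self]
      exact div_ne_zero (pow_ne_zero m hu0) (zpow_ne_zero n hπ0)
    have h3 : σ w / w = 1 := by
      apply rootsOfUnity_eq_of_residue_eq hq hA hm h2 (one_pow m)
      rw [ValuationSubring.mem_nonunits_iff]
      have : σ w / w - 1 = (σ w - w) / w := by field_simp
      rw [this, map_div₀, hvw, div_one]
      exact h1
    exact (div_eq_one_iff_eq hw0).mp h3
  refine ⟨n, fun σ hσ => ?_⟩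
  have h1 : u = w * ϖ ^ n := by rw [hw, div_mul_cancel₀]; exact zpow_ne_zero n hϖ0
  have h2 := hu σ hσ
  rw [h1, map_mul, hwfix σ hσ, map_zpow₀] at h2
  rw [div_zpow, eq_div_iff (zpow_ne_zero n hϖ0)]
  exact mul_left_cancel₀ hw0 (by rw [h2]; ring)

end Fermat.Agent.L00.Unr
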