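import Fermat.Agent.L00.LKum1
import Fermat.Agent.L00.Unr5
import Fermat.Agent.LF.Dense
set_option autoImplicit false
set_option linter.unusedSectionVars false
set_option linter.style.haveILetI false

/-!
# The local field `Z(A,K)`: valuation and residue rings (lead, WP-Cb)
-/

noncomputable section

open Fermat.Agent.H05 Fermat.Agent.TW Fermat.Agent.LF
open Fermat.Agent.L00.Unr
open scoped NumberField

namespace Fermat.Agent.L00.LKum

variable {A : ValuationSubring Qb} {q : ℕ} {w : Qb → ℝ}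

theorem w_zpow (h : NVal A q w) {x : Qb} (hx : x ≠ 0) (n : ℤ) : w (x ^ n) = n * w x := by
  obtain ⟨m, rfl | rfl⟩ := n.eq_nat_or_neg
  · rw [zpow_natCast, h.log.pow hx]; push_cast; rfl
  · rw [zpow_neg, zpow_natCast]
    have h1 := h.log.map_mul (x ^ m) (x ^ m)⁻¹ (pow_ne_zero _ hx) (inv_ne_zero (pow_ne_zero _ hx))
    rw [mul_inv_cancel₀ (pow_ne_zero _ hx), h.log.one, h.log.pow hx] at h1
    push_cast
    linarith

theorem w_inv (h : NVal A q w) {x : Qb} (hx : x ≠ 0) : w x⁻¹ = - w x := by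
  have := w_zpow h hx (-1)
  rw [zpow_neg_one] at this
  rw [this]; push_cast; ring

/-- a uniformizer of `K` at `A` -/
structure Unif (A : ValuationSubring Qb) (w : Qb → ℝ) (K : IntermediateField ℚ Qb)
    (π : 𝓞 K) : Prop where
  ne : π ≠ 0
  pos : 0 < w ((π : K) : Qb)
  mem : π ∈ primeOf A K
  unif : IsUnif (primeOf A K) π
  val : ∀ z ∈ ZK A K, z ≠ 0 → ∃ n : ℤ, w z = n * w ((π : K) : Qb)

theorem w_pos_of_mem (h : NVal A q w) (K : IntermediateField ℚ Qb) {x : 𝓞 K}
    (hx : x ∈ primeOf A K) : Bs w 0 ((x : K) : Qb) :=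
  h.nonunits_iff.1 ((mem_primeOf A K x).mp hx)

theorem w_nonneg (h : NVal A q w) (K : IntermediateField ℚ Qb) (x : 𝓞 K) :
    Bl w 0 ((x : K) : Qb) := by
  refine Bl_of_integral h ?_
  have h1 : IsIntegral ℤ (x : K) := x.2
  exact h1.map (K.val.restrictScalars ℤ)

theorem w_eq_zero_of_notMem (h : NVal A q w) (K : IntermediateField ℚ Qb) {x : 𝓞 K}
    (hx : x ∉ primeOf A K) : w ((x : K) : Qb) = 0 ∧ ((x : K) : Qb) ≠ 0 := by
  have h1 : ((x : K) : Qb) ≠ 0 := by
    intro h0
    apply hx
    rw [mem_primeOf, h0]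
    exact h.nonunits_iff.2 (Or.inl rfl)
  refine ⟨?_, h1⟩
  have h2 := (w_nonneg h K x).resolve_left h1
  rcases h2.lt_or_eq with h3 | h3
  · exfalso
    apply hx
    rw [mem_primeOf]
    exact h.nonunits_iff.2 (Or.inr h3)
  · exact h3.symm

theorem exists_unif (hq : q.Prime) (hA : A.LiesOverPrime q) (h : NVal A q w)
    (K : IntermediateField ℚ Qb) [FiniteDimensional ℚ K] : ∃ π : 𝓞 K, Unif A w K π := by
  have hg := Fermat.Agent.H51.isGalois_Qbar
  classical
  have hKn : NumberField K := ⟨⟩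
  obtain ⟨π', hπ'K, hπ'0, hπ'1, hval⟩ := exists_uniformizer hq hA K
  obtain ⟨π, hπw, hπ⟩ := exists_isUnif (primeOf A K) (primeOf_ne_bot hq hA K)
  have hπ0 : π ≠ 0 := by
    rintro rfl
    unfold IsUnif at hπ
    rw [Ideal.map_span, Set.image_singleton, map_zero, Ideal.span_singleton_zero] at hπ
    have := IsLocalization.AtPrime.isDiscreteValuationRing_of_dedekind_domain (𝓞 K)
      (primeOf_ne_bot hq hA K) (Localization.AtPrime (primeOf A K))
    exact IsDiscreteValuationRing.not_a_field _ hπ.symm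
  have hπQ : ((π : K) : Qb) ≠ 0 := by
    intro h0
    apply hπ0
    have : (π : K) = 0 := Subtype.ext h0
    exact_mod_cast this
  have hpos : 0 < w ((π : K) : Qb) := (w_pos_of_mem h K hπw).resolve_left hπQ
  -- every element of `K` has valuation a multiple of `w π`
  have hK : ∀ a : 𝓞 K, a ≠ 0 → ∃ n : ℕ, w ((a : K) : Qb) = n * w ((π : K) : Qb) := by
    intro a ha
    obtain ⟨n, c, d, hc, hd, he⟩ :=
      H12.exists_mul_eq_pow_mul (primeOf A K) (primeOf_ne_bot hq hA K) π hπ a ha
    refine ⟨n, ?_⟩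
    have haQ : ((a : K) : Qb) ≠ 0 := by
      intro h0
      apply ha
      have : (a : K) = 0 := Subtype.ext h0
      exact_mod_cast this
    have h1 := congrArg (fun x : 𝓞 K => ((x : K) : Qb)) he
    simp only [map_mul, map_pow, MulMemClass.coe_mul, SubmonoidClass.coe_pow] at h1
    have h2 := congrArg w h1
    rw [h.log.map_mul _ _ haQ (w_eq_zero_of_notMem h K hc).2,
      h.log.map_mul _ _ (pow_ne_zero _ hπQ) (w_eq_zero_of_notMem h K hd).2,
      (w_eq_zero_of_notMem h K hc).1, (w_eq_zero_of_notMem h K hd).1, h.log.pow hπQ,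
      add_zero, add_zero] at h2
    exact h2
  have hK' : ∀ y ∈ K, y ≠ 0 → ∃ n : ℤ, w y = n * w ((π : K) : Qb) := by
    intro y hy hy0
    obtain ⟨a, b, hb, hab⟩ := IsFractionRing.div_surjective (A := 𝓞 K) (⟨y, hy⟩ : K)
    have hb0 : b ≠ 0 := nonZeroDivisors.ne_zero hb
    have ha0 : a ≠ 0 := by
      rintro rfl
      rw [map_zero, zero_div] at hab
      exact hy0 (congrArg Subtype.val hab.symm)
    obtain ⟨n, hn⟩ := hK a ha0
    obtain ⟨m, hm⟩ := hK b hb0
    have haQ : ((a : K) : Qb) ≠ 0 := by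
      intro h0
      apply ha0
      have : (a : K) = 0 := Subtype.ext h0
      exact_mod_cast this
    have hbQ : ((b : K) : Qb) ≠ 0 := by
      intro h0
      apply hb0
      have : (b : K) = 0 := Subtype.ext h0
      exact_mod_cast this
    refine ⟨(n : ℤ) - m, ?_⟩
    have h1 : y = ((a : K) : Qb) * (((b : K) : Qb))⁻¹ := by
      have := congrArg Subtype.val hab
      rw [← div_eq_mul_inv]
      exact this.symm
    rw [h1, h.log.map_mul _ _ haQ (inv_ne_zero hbQ), w_inv h hbQ, hn, hm]
    push_cast; ring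
  refine ⟨π, ⟨hπ0, hpos, hπw, hπ, ?_⟩⟩
  intro z hz hz0
  obtain ⟨y, hy, hyz⟩ := dense hq hA h K hz (w z + 1)
  have hy0 : y ≠ 0 := by
    rintro rfl
    rcases hyz with h1 | h1
    · rw [zero_sub, neg_eq_zero] at h1; exact hz0 h1
    · rw [zero_sub, h.w_neg] at h1; linarith
  have h2 : w y = w z := by
    rcases hyz with h1 | h1
    · rw [sub_eq_zero] at h1; rw [h1]
    · by_cases h3 : y - z = 0
      · rw [sub_eq_zero] at h3; rw [h3]
      · have h4 := h.w_add_eq hz0 h3 (by linarith)
        rw [add_sub_cancel] at h4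
        exact h4.2
  rw [← h2]
  exact hK' y hy hy0

variable {K : IntermediateField ℚ Qb} {π : 𝓞 K}

theorem Unif.ne' (u : Unif A w K π) : ((π : K) : Qb) ≠ 0 := by
  intro h0
  apply u.ne
  have : (π : K) = 0 := Subtype.ext h0
  exact_mod_cast this

/-- a positive element of `Z` has valuation at least `w π` -/
theorem Unif.le_of_pos (h : NVal A q w) (u : Unif A w K π) {z : Qb} (hz : z ∈ ZK A K)
    (hz0 : Bs w 0 z) : Bl w (w ((π : K) : Qb)) z := by
  by_cases h0 : z = 0
  · exact Or.inl h0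
  right
  have h1 := hz0.resolve_left h0
  obtain ⟨n, hn⟩ := u.val z hz h0
  rw [hn] at h1 ⊢
  have hp := u.pos
  have h2 : (0 : ℝ) < n := by
    by_contra hc
    push Not at hc
    nlinarith
  have h3 : 0 < n := by exact_mod_cast h2
  have h4 : (1 : ℝ) ≤ n := by exact_mod_cast h3
  nlinarith

/-- the ideal of elements of valuation `≥ t` -/
def Jt (h : NVal A q w) (K : IntermediateField ℚ Qb) (t : ℝ) : Ideal (𝓞 K) where
  carrier := {x | Bl w t ((x : K) : Qb)}
  zero_mem' := by
    change Bl w t (((0 : 𝓞 K) : K) : Qb)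
    exact Or.inl rfl
  add_mem' := by
    intro a b ha hb
    exact h.add ha hb
  smul_mem' := by
    intro c x hx
    exact h.mul_left (w_nonneg h K c) hx

/-- inverses modulo powers of the prime -/
theorem exists_inv_mod (hq : q.Prime) (hA : A.LiesOverPrime q) (K : IntermediateField ℚ Qb)
    [FiniteDimensional ℚ K] {c : 𝓞 K} (hc : c ∉ primeOf A K) (n : ℕ) :
    ∃ e : 𝓞 K, ∃ f ∈ primeOf A K ^ n, c * e + f = 1 := by
  have hKn : NumberField K := ⟨⟩
  have hmax : (primeOf A K).IsMaximal :=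
    (inferInstance : (primeOf A K).IsPrime).isMaximal (primeOf_ne_bot hq hA K)
  obtain ⟨y, i, hi, hyi⟩ := hmax.exists_inv hc
  have h7 : IsCoprime (Ideal.span {c}) (primeOf A K) := by
    rw [Ideal.isCoprime_iff_exists]
    exact ⟨y * c, Ideal.mul_mem_left _ _ (Ideal.mem_span_singleton_self c), i, hi, hyi⟩
  have h8 : IsCoprime (Ideal.span {c}) (primeOf A K ^ n) := h7.pow_right
  rw [Ideal.isCoprime_iff_exists] at h8
  obtain ⟨a, ha, f, hf, haf⟩ := h8
  obtain ⟨e, rfl⟩ := Ideal.mem_span_singleton'.mp ha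
  exact ⟨e, f, hf, by rw [mul_comm]; exact haf⟩

theorem mem_pow_iff [FiniteDimensional ℚ K] (hq : q.Prime) (hA : A.LiesOverPrime q)
    (h : NVal A q w) (u : Unif A w K π) (n : ℕ)
    (x : 𝓞 K) : x ∈ primeOf A K ^ n ↔ Bl w (n * w ((π : K) : Qb)) ((x : K) : Qb) := by
  have hKn : NumberField K := ⟨⟩
  constructor
  · intro hx
    have h1 : primeOf A K ^ n ≤ Jt h K (n * w ((π : K) : Qb)) := by
      induction n with
      | zero =>
        intro y _
        change Bl w _ _
        rw [Nat.cast_zero, zero_mul]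
        exact w_nonneg h K y
      | succ n ih =>
        rw [pow_succ, Ideal.mul_le]
        intro a ha b hb
        change Bl w _ _
        have h2 : Bl w (w ((π : K) : Qb)) ((b : K) : Qb) :=
          u.le_of_pos h (le_ZK (b : K).2) (w_pos_of_mem h K hb)
        have ha' : a ∈ Jt h K (n * w ((π : K) : Qb)) := by
          by_cases hx' : x ∈ primeOf A K ^ n
          · exact ih hx' ha
          · exact (hx' (Ideal.pow_le_pow_right (Nat.le_succ n) hx)).elim
        have h3 := h.mul ha' h2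
        refine NVal.mono (le_of_eq ?_) h3
        push_cast; ring
    exact h1 hx
  · intro hx
    by_cases hx0 : x = 0
    · rw [hx0]; exact zero_mem _
    obtain ⟨m, c, d, hc, hd, he⟩ :=
      H12.exists_mul_eq_pow_mul (primeOf A K) (primeOf_ne_bot hq hA K) π u.unif x hx0
    have hxQ : ((x : K) : Qb) ≠ 0 := by
      intro h0
      apply hx0
      have : (x : K) = 0 := Subtype.ext h0
      exact_mod_cast this
    have h1 := congrArg (fun x : 𝓞 K => ((x : K) : Qb)) he
    simp only [map_mul, map_pow, MulMemClass.coe_mul, SubmonoidClass.coe_pow] at h1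
    have h2 := congrArg w h1
    rw [h.log.map_mul _ _ hxQ (w_eq_zero_of_notMem h K hc).2,
      h.log.map_mul _ _ (pow_ne_zero _ u.ne') (w_eq_zero_of_notMem h K hd).2,
      (w_eq_zero_of_notMem h K hc).1, (w_eq_zero_of_notMem h K hd).1, h.log.pow u.ne',
      add_zero, add_zero] at h2
    have h3 := hx.resolve_left hxQ
    rw [h2] at h3
    have hpos := u.pos
    have h4 : (n : ℝ) ≤ m := by
      by_contra hcon
      push Not at hcon
      nlinarith
    have h5 : n ≤ m := by exact_mod_cast h4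
    have h6 : x * c ∈ primeOf A K ^ n := by
      rw [he]
      exact Ideal.mul_mem_right _ _ (Ideal.pow_le_pow_right h5 (Ideal.pow_mem_pow u.mem m))
    obtain ⟨e, f, hf, hef⟩ := exists_inv_mod hq hA K hc n
    have h8 : x = (x * c) * e + x * f := by
      rw [mul_assoc, ← mul_add, hef, mul_one]
    rw [h8]
    exact add_mem (Ideal.mul_mem_right _ _ h6) (Ideal.mul_mem_left _ _ hf)

end Fermat.Agent.L00.LKum
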