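import Fermat.Agent.L00.LKum2
set_option autoImplicit false
set_option linter.unusedSectionVars false
set_option linter.style.haveILetI false

/-!
# Residue rings of the local field `Z(A,K)` (lead, WP-Cb)
-/

noncomputable section

open Fermat.Agent.H05 Fermat.Agent.TW Fermat.Agent.LF
open Fermat.Agent.L00.Unr
open scoped NumberField

namespace Fermat.Agent.L00.LKum

variable {A : ValuationSubring Qb} {q : ℕ} {w : Qb → ℝ}
variable {K : IntermediateField ℚ Qb} {π : 𝓞 K}

/-- elements of `Z` of valuation `≥ t` -/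
def Bt (h : NVal A q w) (K : IntermediateField ℚ Qb) (t : ℝ) : AddSubgroup (ZK A K) where
  carrier := {x | Bl w t (x : Qb)}
  zero_mem' := Or.inl rfl
  add_mem' := fun ha hb => h.add ha hb
  neg_mem' := fun ha => h.neg ha

theorem mem_Bt {h : NVal A q w} {t : ℝ} {x : ZK A K} : x ∈ Bt h K t ↔ Bl w t (x : Qb) := Iff.rfl

theorem Bt_anti (h : NVal A q w) {s t : ℝ} (hst : s ≤ t) : Bt h K t ≤ Bt h K s :=
  fun _ hx => NVal.mono hst hx

/-- an integral element of `Z` can be approximated by an algebraic integer of `K` -/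
theorem exists_approx [FiniteDimensional ℚ K] (hq : q.Prime) (hA : A.LiesOverPrime q)
    (h : NVal A q w) (u : Unif A w K π) {x : Qb} (hx : x ∈ ZK A K) (hx0 : Bl w 0 x) (n : ℕ) :
    ∃ c : 𝓞 K, Bl w (n * w ((π : K) : Qb)) (((c : K) : Qb) - x) := by
  have hKn : NumberField K := ⟨⟩
  have hpos := u.pos
  have hn0 : 0 ≤ n * w ((π : K) : Qb) := mul_nonneg (Nat.cast_nonneg n) hpos.le
  obtain ⟨y, hyK, hy⟩ := dense hq hA h K hx (n * w ((π : K) : Qb))
  have hy0 : Bl w 0 y := by
    have := h.add (NVal.mono hn0 hy) hx0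
    rwa [sub_add_cancel] at this
  by_cases hyz : y = 0
  · refine ⟨0, ?_⟩
    rw [hyz] at hy
    exact hy
  obtain ⟨a, b, hb, hab⟩ := IsFractionRing.div_surjective (A := 𝓞 K) (⟨y, hyK⟩ : K)
  have hb0 : b ≠ 0 := nonZeroDivisors.ne_zero hb
  have ha0 : a ≠ 0 := by
    rintro rfl
    rw [map_zero, zero_div] at hab
    exact hyz (congrArg Subtype.val hab.symm)
  have haQ : ((a : K) : Qb) ≠ 0 := by
    intro h0
    apply ha0
    have : (a : K) = 0 := Subtype.ext h0
    exact_mod_cast this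
  have hbQ : ((b : K) : Qb) ≠ 0 := by
    intro h0
    apply hb0
    have : (b : K) = 0 := Subtype.ext h0
    exact_mod_cast this
  have hy1 : y * ((b : K) : Qb) = ((a : K) : Qb) := by
    have h1 : ((a : K) : Qb) / ((b : K) : Qb) = y := congrArg Subtype.val hab
    rw [← h1, div_mul_cancel₀ _ hbQ]
  obtain ⟨na, ca, da, hca, hda, hea⟩ :=
    H12.exists_mul_eq_pow_mul (primeOf A K) (primeOf_ne_bot hq hA K) π u.unif a ha0
  obtain ⟨nb, cb, db, hcb, hdb, heb⟩ :=
    H12.exists_mul_eq_pow_mul (primeOf A K) (primeOf_ne_bot hq hA K) π u.unif b hb0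
  have ea := congrArg (fun x : 𝓞 K => ((x : K) : Qb)) hea
  have eb := congrArg (fun x : 𝓞 K => ((x : K) : Qb)) heb
  simp only [map_mul, map_pow, MulMemClass.coe_mul, SubmonoidClass.coe_pow] at ea eb
  have wa : w ((a : K) : Qb) = na * w ((π : K) : Qb) := by
    have h2 := congrArg w ea
    rw [h.log.map_mul _ _ haQ (w_eq_zero_of_notMem h K hca).2,
      h.log.map_mul _ _ (pow_ne_zero _ u.ne') (w_eq_zero_of_notMem h K hda).2,
      (w_eq_zero_of_notMem h K hca).1, (w_eq_zero_of_notMem h K hda).1, h.log.pow u.ne',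
      add_zero, add_zero] at h2
    exact h2
  have wb : w ((b : K) : Qb) = nb * w ((π : K) : Qb) := by
    have h2 := congrArg w eb
    rw [h.log.map_mul _ _ hbQ (w_eq_zero_of_notMem h K hcb).2,
      h.log.map_mul _ _ (pow_ne_zero _ u.ne') (w_eq_zero_of_notMem h K hdb).2,
      (w_eq_zero_of_notMem h K hcb).1, (w_eq_zero_of_notMem h K hdb).1, h.log.pow u.ne',
      add_zero, add_zero] at h2
    exact h2
  have hle : nb ≤ na := by
    have h1 := congrArg w hy1
    rw [h.log.map_mul _ _ hyz hbQ, wa, wb] at h1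
    have h2 := hy0.resolve_left hyz
    have h3 : (nb : ℝ) ≤ na := by
      by_contra hcon
      push Not at hcon
      nlinarith
    exact_mod_cast h3
  obtain ⟨k, rfl⟩ := Nat.exists_eq_add_of_le hle
  -- `y * (ca * db) = π ^ k * da * cb`
  have hden : ca * db ∉ primeOf A K := fun hh =>
    (Ideal.IsPrime.mem_or_mem inferInstance hh).elim hca hdb
  obtain ⟨e, f, hf, hef⟩ := exists_inv_mod hq hA K hden n
  have hf' := (mem_pow_iff hq hA h u n f).mp hf
  have key : y * (((ca * db : 𝓞 K) : K) : Qb) = (((π ^ k * da * cb : 𝓞 K) : K) : Qb) := by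
    push_cast
    have hbn : ((π : K) : Qb) ^ nb ≠ 0 := pow_ne_zero _ u.ne'
    apply mul_right_cancel₀ hbn
    have hcbQ := (w_eq_zero_of_notMem h K hcb).2
    calc y * (((ca : K) : Qb) * ((db : K) : Qb)) * ((π : K) : Qb) ^ nb
        = y * ((ca : K) : Qb) * (((π : K) : Qb) ^ nb * ((db : K) : Qb)) := by ring
      _ = (y * ((b : K) : Qb)) * ((ca : K) : Qb) * ((cb : K) : Qb) := by rw [← eb]; ring
      _ = (((a : K) : Qb) * ((ca : K) : Qb)) * ((cb : K) : Qb) := by rw [hy1]
      _ = ((π : K) : Qb) ^ k * ((da : K) : Qb) * ((cb : K) : Qb) * ((π : K) : Qb) ^ nb := by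
        rw [ea, pow_add]; ring
  have hefQ : (((ca * db : 𝓞 K) : K) : Qb) * ((e : K) : Qb) + ((f : K) : Qb) = 1 := by
    have := congrArg (fun x : 𝓞 K => ((x : K) : Qb)) hef
    simpa using this
  refine ⟨π ^ k * da * cb * e, ?_⟩
  have h1 : ((((π ^ k * da * cb * e : 𝓞 K) : K) : Qb)) - x = (y - x) - y * ((f : K) : Qb) := by
    have h2 : (((π ^ k * da * cb * e : 𝓞 K) : K) : Qb) =
        y * (((ca * db : 𝓞 K) : K) : Qb) * ((e : K) : Qb) := by
      rw [key]; push_cast; ring
    rw [h2]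
    linear_combination y * hefQ
  rw [h1]
  exact h.sub hy (h.mul_left hy0 hf')

theorem nrm_pow [FiniteDimensional ℚ K] (hq : q.Prime) (hA : A.LiesOverPrime q) (n : ℕ) :
    Nat.card (𝓞 K ⧸ primeOf A K ^ n) = nrm A K ^ n := by
  have hKn : NumberField K := ⟨⟩
  have h1 : nrm A K = Ideal.absNorm (primeOf A K) := by
    rw [Ideal.absNorm_apply]; rfl
  rw [h1, ← map_pow, Ideal.absNorm_apply]
  rfl

/-- `|O_Z / π^n| = N(P)^n` -/
theorem relIndex_Bt [FiniteDimensional ℚ K] (hq : q.Prime) (hA : A.LiesOverPrime q)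
    (h : NVal A q w) (u : Unif A w K π) (n : ℕ) :
    (Bt h K (n * w ((π : K) : Qb))).relIndex (Bt h K 0) = nrm A K ^ n := by
  set s : ℝ := n * w ((π : K) : Qb) with hs
  let f : 𝓞 K →+ Bt h K 0 :=
    { toFun := fun x => ⟨⟨((x : K) : Qb), le_ZK (x : K).2⟩, w_nonneg h K x⟩
      map_zero' := rfl
      map_add' := fun _ _ => rfl }
  rw [AddSubgroup.relIndex]
  set H := (Bt h K s).addSubgroupOf (Bt h K 0) with hH
  have h1 : (H.comap f).index = H.relIndex f.range := AddSubgroup.index_comap H f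
  have h2 : H.relIndex f.range = H.index := by
    rw [← AddSubgroup.relIndex_sup_right, show f.range ⊔ H = ⊤ from ?_, AddSubgroup.relIndex_top_right]
    rw [eq_top_iff]
    intro x _
    obtain ⟨c, hc⟩ := exists_approx hq hA h u (x : ZK A K).2 x.2 n
    rw [AddSubgroup.mem_sup]
    refine ⟨f c, ⟨c, rfl⟩, x - f c, ?_, by abel⟩
    rw [hH, AddSubgroup.mem_addSubgroupOf, mem_Bt]
    have := h.neg hc
    rw [neg_sub] at this
    exact this
  have h3 : H.comap f = (primeOf A K ^ n).toAddSubgroup := by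
    ext x
    exact (mem_pow_iff hq hA h u n x).symm
  rw [← h2, ← h1, h3]
  exact nrm_pow hq hA n

end Fermat.Agent.L00.LKum
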