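import Fermat.Agent.L00.LKum3
set_option autoImplicit false
set_option linter.unusedSectionVars false
set_option linter.style.haveILetI false

/-!
# Unit filtration of the local field `Z(A,K)` (lead, WP-Cb)
-/

noncomputable section

open Fermat.Agent.H05 Fermat.Agent.TW Fermat.Agent.LF
open Fermat.Agent.L00.Unr
open scoped NumberField

namespace Fermat.Agent.L00.LKum

variable {A : ValuationSubring Qb} {q : ℕ} {w : Qb → ℝ}
variable {K : IntermediateField ℚ Qb} {π : 𝓞 K}

/-- coercion of units of `Z` -/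
abbrev cu (u : (ZK A K)ˣ) : Qb := ((u : ZK A K) : Qb)

theorem cu_ne (u : (ZK A K)ˣ) : cu u ≠ 0 := by
  intro h0
  exact u.ne_zero (Subtype.ext h0)

theorem w_eq_zero_of_Bl (h : NVal A q w) {t : ℝ} (ht : 0 < t) {x : Qb} (hx : Bl w t (x - 1)) :
    w x = 0 ∧ x ≠ 0 := by
  rcases hx with hx | hx
  · rw [sub_eq_zero] at hx
    rw [hx]; exact ⟨h.log.one, one_ne_zero⟩
  · by_cases h1 : x - 1 = 0
    · rw [sub_eq_zero] at h1
      rw [h1]; exact ⟨h.log.one, one_ne_zero⟩
    have h2 := h.w_add_eq one_ne_zero h1 (by rw [h.log.one]; linarith)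
    rw [add_sub_cancel, h.log.one] at h2
    exact ⟨h2.2, h2.1⟩

/-- units of valuation `≥ t` near one -/
def Vt (h : NVal A q w) (K : IntermediateField ℚ Qb) (t : ℝ) (ht : 0 < t) :
    Subgroup (ZK A K)ˣ where
  carrier := {u | Bl w t (cu u - 1)}
  one_mem' := by
    change Bl w t _
    left; simp [cu]
  mul_mem' := by
    intro a b ha hb
    change Bl w t (cu (a * b) - 1)
    have ha' : Bl w t (cu a - 1) := ha
    have hb' : Bl w t (cu b - 1) := hb
    have h1 : cu (a * b) - 1 = cu a * (cu b - 1) + (cu a - 1) := by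
      simp only [cu, Units.val_mul, MulMemClass.coe_mul]; ring
    rw [h1]
    exact h.add (h.mul_left (Or.inr (w_eq_zero_of_Bl h ht ha').1.ge) hb') ha'
  inv_mem' := by
    intro a ha
    change Bl w t (cu a⁻¹ - 1)
    have ha' : Bl w t (cu a - 1) := ha
    obtain ⟨h0, h1⟩ := w_eq_zero_of_Bl h ht ha'
    have h2 : cu a⁻¹ = (cu a)⁻¹ := by simp [cu]
    have h3 : (cu a)⁻¹ - 1 = (cu a)⁻¹ * -(cu a - 1) := by field_simp; ring
    rw [h2, h3]
    refine h.mul_left (Or.inr ?_) (h.neg ha')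
    rw [w_inv h h1, h0, neg_zero]

theorem mem_Vt {h : NVal A q w} {t : ℝ} {ht : 0 < t} {u : (ZK A K)ˣ} :
    u ∈ Vt h K t ht ↔ Bl w t (cu u - 1) := Iff.rfl

/-- multiplicative and additive congruence -/
theorem inv_mul_iff (h : NVal A q w) {s : ℝ} {x y : Qb} (hx0 : x ≠ 0) (hx : w x = 0) :
    Bl w s (x⁻¹ * y - 1) ↔ Bl w s (y - x) := by
  have h1 : x⁻¹ * y - 1 = x⁻¹ * (y - x) := by field_simp
  have h2 : y - x = x * (x⁻¹ * y - 1) := by field_simp
  constructor
  · intro h3
    rw [h2]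
    exact h.mul_left (Or.inr hx.ge) h3
  · intro h3
    rw [h1]
    refine h.mul_left (Or.inr ?_) h3
    rw [w_inv h hx0, hx, neg_zero]

theorem relIndex_Vt (h : NVal A q w) {s t : ℝ} (ht : 0 < t) (hs : 0 < s) :
    (Vt h K s hs).relIndex (Vt h K t ht) = (Bt h K s).relIndex (Bt h K t) := by
  rw [Subgroup.relIndex, AddSubgroup.relIndex]
  let f : Vt h K t ht → Bt h K t := fun u => ⟨((u : (ZK A K)ˣ) : ZK A K) - 1, u.2⟩
  have hrel : ∀ a b : Vt h K t ht, a⁻¹ * b ∈ (Vt h K s hs).subgroupOf (Vt h K t ht) ↔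
      -(f a) + f b ∈ (Bt h K s).addSubgroupOf (Bt h K t) := by
    intro a b
    rw [Subgroup.mem_subgroupOf, AddSubgroup.mem_addSubgroupOf, mem_Vt, mem_Bt]
    obtain ⟨h0, h1⟩ := w_eq_zero_of_Bl h ht a.2
    have e1 : cu ((a⁻¹ * b : Vt h K t ht) : (ZK A K)ˣ) = (cu (a : (ZK A K)ˣ))⁻¹ * cu (b : (ZK A K)ˣ) := by
      simp [cu]
    have e2 : (((-(f a) + f b : Bt h K t) : ZK A K) : Qb) = cu (b : (ZK A K)ˣ) - cu (a : (ZK A K)ˣ) := by
      simp only [f, cu, AddSubgroup.coe_add, NegMemClass.coe_neg]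
      push_cast
      ring
    rw [e1, e2]
    exact inv_mul_iff h h1 h0
  refine Nat.card_eq_of_bijective (Quotient.map' f ?_) ⟨?_, ?_⟩
  · intro a b hab
    rw [QuotientGroup.leftRel_apply] at hab
    rw [QuotientAddGroup.leftRel_apply]
    exact (hrel a b).mp hab
  · intro x y
    induction x using Quotient.inductionOn'
    induction y using Quotient.inductionOn'
    rename_i a b
    intro hab
    rw [Quotient.map'_mk'', Quotient.map'_mk'', Quotient.eq'', QuotientAddGroup.leftRel_apply] at hab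
    rw [Quotient.eq'', QuotientGroup.leftRel_apply]
    exact (hrel a b).mpr hab
  · intro y
    induction y using Quotient.inductionOn'
    rename_i b
    have hb : Bl w t ((((b : ZK A K) + 1 : ZK A K) : Qb) - 1) := by
      push_cast
      rw [add_sub_cancel_right]
      exact b.2
    have hne : (b : ZK A K) + 1 ≠ 0 := by
      intro h0
      exact (w_eq_zero_of_Bl h ht hb).2 (congrArg Subtype.val h0)
    refine ⟨Quotient.mk'' ⟨Units.mk0 _ hne, hb⟩, ?_⟩
    rw [Quotient.map'_mk'']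
    congr 1
    apply Subtype.ext
    change ((b : ZK A K) + 1) - 1 = b
    rw [add_sub_cancel_right]

/-- shifting the additive filtration -/
theorem relIndex_shift (h : NVal A q w) (u : Unif A w K π) (n : ℕ) (s : ℝ) :
    (Bt h K (n * w ((π : K) : Qb) + s)).relIndex (Bt h K (n * w ((π : K) : Qb))) =
      (Bt h K s).relIndex (Bt h K 0) := by
  set πZ : ZK A K := ⟨((π : K) : Qb), le_ZK (π : K).2⟩ with hπZ
  have hπ0 : πZ ≠ 0 := fun h0 => u.ne' (congrArg Subtype.val h0)
  let e : ZK A K ≃+ ZK A K :=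
    { toFun := fun x => πZ ^ n * x
      invFun := fun x => (πZ ^ n)⁻¹ * x
      left_inv := fun x => by
        change (πZ ^ n)⁻¹ * (πZ ^ n * x) = x
        rw [inv_mul_cancel_left₀ (pow_ne_zero _ hπ0)]
      right_inv := fun x => by
        change πZ ^ n * ((πZ ^ n)⁻¹ * x) = x
        rw [mul_inv_cancel_left₀ (pow_ne_zero _ hπ0)]
      map_add' := fun x y => mul_add _ _ _ }
  have key : ∀ r : ℝ, (Bt h K (n * w ((π : K) : Qb) + r)) = (Bt h K r).map e.toAddMonoidHom := by
    intro r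
    ext x
    constructor
    · intro hx
      refine ⟨(πZ ^ n)⁻¹ * x, ?_, e.right_inv x⟩
      change Bl w r ((((πZ ^ n)⁻¹ * x : ZK A K)) : Qb)
      have hx' : Bl w _ (x : Qb) := hx
      have h1 : Bl w (-(n * w ((π : K) : Qb))) ((((πZ ^ n)⁻¹ : ZK A K)) : Qb) := by
        right
        push_cast
        rw [w_inv h (pow_ne_zero _ u.ne'), h.log.pow u.ne']
      have h2 := h.mul h1 hx'
      refine NVal.mono (le_of_eq ?_) h2
      ring
    · rintro ⟨y, hy, rfl⟩
      have hy' : Bl w r (y : Qb) := hy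
      change Bl w _ (((πZ ^ n * y : ZK A K)) : Qb)
      have h1 : Bl w ((n * w ((π : K) : Qb))) ((((πZ ^ n) : ZK A K)) : Qb) := by
        right
        push_cast
        rw [h.log.pow u.ne']
      exact h.mul h1 hy'
  have k0 := key 0
  rw [add_zero] at k0
  rw [k0, key s, AddSubgroup.relIndex_map_map_of_injective _ _ e.injective]

end Fermat.Agent.L00.LKum
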