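import Fermat.Agent.L00.LKum4
set_option autoImplicit false
set_option linter.unusedSectionVars false
set_option linter.style.haveILetI false

/-!
# Local Kummer index (lead, WP-Cb = (L1))
-/

noncomputable section

open Fermat.Agent.H05 Fermat.Agent.TW Fermat.Agent.LF
open Fermat.Agent.L00.Unr
open scoped NumberField

namespace Fermat.Agent.L00.LKum

variable {A : ValuationSubring Qb} {p q : ℕ} {w : Qb → ℝ}
variable {K : IntermediateField ℚ Qb} {π : 𝓞 K}

/-- `(1+x)^p` for `x` of large valuation -/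
theorem w_pow_sub_one (h : NVal A p w) (hp : p.Prime) {u : Qb} (hu0 : u ∈ A) {t : ℝ}
    (ht : 1 / ((p : ℝ) - 1) ≤ t) (hu : Bl w t (u - 1)) : Bl w (t + 1) (u ^ p - 1) := by
  have hp1 : (0 : ℝ) < (p : ℝ) - 1 := by
    have : (1 : ℝ) < p := by exact_mod_cast hp.one_lt
    linarith
  have ht1 : 1 ≤ ((p : ℝ) - 1) * t := by
    rw [div_le_iff₀ hp1] at ht
    linarith
  have ht0 : 0 < t := lt_of_lt_of_le (one_div_pos.2 hp1) ht
  set U : A := ⟨u, hu0⟩ with hU
  obtain ⟨r, hr⟩ := exists_add_pow_prime_eq hp (U - 1) 1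
  have hr' := congrArg (Subtype.val) hr
  push_cast at hr'
  rw [sub_add_cancel, one_pow, mul_one] at hr'
  have h1 : u ^ p - 1 = (u - 1) ^ p + p * (u - 1) * (r : Qb) := by
    have : ((U : A) : Qb) = u := rfl
    rw [this] at hr'
    rw [hr']; ring
  rw [h1]
  refine h.add ?_ ?_
  · refine NVal.mono ?_ (h.pow hu p)
    nlinarith
  · have h2 : Bl w 1 (p : Qb) := Or.inr h.norm.ge
    have h3 := h.mul h2 hu
    rw [add_comm] at h3
    exact h.mul_right h3 (h.mem_iff.1 r.2)

/-- `p`-th roots of one-units away from `p` -/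
theorem exists_root' (h : NVal A q w) (hq : q.Prime) (hA : A.LiesOverPrime q) (hp : p.Prime)
    (hpq : q ≠ p) {H : Subgroup GQ}
    (hH : H ≤ A.decompositionSubgroup ℚ) {y : Qb} (hy : ∀ σ ∈ H, σ y = y)
    (hyt : Bs w 0 (y - 1)) :
    ∃ z : Qb, z ^ p = y ∧ (∀ σ ∈ H, σ z = z) ∧ Bs w 0 (z - 1) := by
  rcases eq_or_ne y 1 with rfl | hy1
  · exact ⟨1, one_pow _, fun σ _ => map_one σ, Or.inl (sub_self 1)⟩
  have hw1 : 0 < w (y - 1) := hyt.resolve_left (sub_ne_zero.2 hy1)
  have : NeZero (p : Qb) := ⟨Nat.cast_ne_zero.2 hp.ne_zero⟩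
  obtain ⟨ζ, hζ⟩ := HasEnoughRootsOfUnity.exists_primitiveRoot Qb p
  obtain ⟨z0, hz0⟩ := IsAlgClosed.exists_pow_nat_eq y hp.pos
  have h1 := hζ.pow_sub_pow_eq_prod_sub_mul 1 z0 hp.pos
  rw [one_pow, hz0] at h1
  have hne : ∀ ξ ∈ Polynomial.nthRootsFinset p (1 : Qb), 1 - ξ * z0 ≠ 0 := by
    intro ξ hξ h0
    rw [Polynomial.mem_nthRootsFinset hp.pos] at hξ
    apply hy1
    have h2 : (ξ * z0) ^ p = 1 := by rw [← sub_eq_zero.1 h0, one_pow]
    rwa [mul_pow, hξ, one_mul, hz0] at h2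
  obtain ⟨ξ, hξ, hwξ⟩ : ∃ ξ ∈ Polynomial.nthRootsFinset p (1 : Qb), 0 < w (1 - ξ * z0) := by
    by_contra hcon
    push Not at hcon
    have h2 := h.w_prod _ _ hne
    rw [← h1] at h2
    have h3 := Finset.sum_nonpos hcon
    rw [← h2] at h3
    rw [← neg_sub, h.w_neg] at hw1
    linarith
  rw [Polynomial.mem_nthRootsFinset hp.pos] at hξ
  obtain ⟨z, hz⟩ : ∃ z, z = ξ * z0 := ⟨_, rfl⟩
  rw [← hz] at hwξ
  have hzp : z ^ p = y := by rw [hz, mul_pow, hξ, one_mul, hz0]
  have hz1 : Bs w 0 (z - 1) := by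
    right
    rw [← neg_sub, h.w_neg]; exact hwξ
  have hz2 : Bl w (w (z - 1)) (z - 1) := Or.inr le_rfl
  have hz3 : 0 < w (z - 1) := by rw [← neg_sub, h.w_neg]; exact hwξ
  have hz4 := w_eq_zero_of_Bl h hz3 hz2
  refine ⟨z, hzp, fun σ hσ => ?_, hz1⟩
  have h2 : (σ z / z) ^ p = 1 := by
    rw [div_pow, ← map_pow, hzp, hy σ hσ, div_self]
    rw [← hzp]
    exact pow_ne_zero _ hz4.2
  have hndvd : ¬ q ∣ p := fun hd => hpq ((Nat.prime_dvd_prime_iff_eq hq hp).mp hd)
  have h3 : σ z / z = 1 := by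
    apply rootsOfUnity_eq_of_residue_eq hq hA hndvd h2 (one_pow p)
    apply h.nonunits_iff.2
    have h6 : (σ z / z - 1) = z⁻¹ * ((σ (z - 1)) - (z - 1)) := by
      rw [map_sub, map_one]
      field_simp [hz4.2]
      ring
    rw [h6]
    have h7 : Bl w (w (z - 1)) (σ (z - 1) - (z - 1)) := by
      refine h.sub ?_ hz2
      rw [h.Bl_smul (hH hσ)]
      exact hz2
    have h8 : Bl w (w (z - 1)) (z⁻¹ * (σ (z - 1) - (z - 1))) := by
      refine h.mul_left (Or.inr ?_) h7
      rw [w_inv h hz4.2, hz4.1, neg_zero]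
    rcases h8 with h8 | h8
    · exact Or.inl h8
    · exact Or.inr (hz3.trans_le h8)
  rwa [div_eq_one_iff_eq hz4.2] at h3

/-- the valuation as a homomorphism -/
theorem exists_v (h : NVal A q w) (u : Unif A w K π) :
    ∃ v : (ZK A K)ˣ →* Multiplicative ℤ, Function.Surjective v ∧
      ∀ z, w (cu z) = (Multiplicative.toAdd (v z) : ℤ) * w ((π : K) : Qb) := by
  have h1 : ∀ z : (ZK A K)ˣ, ∃ n : ℤ, w (cu z) = n * w ((π : K) : Qb) :=
    fun z => u.val _ (z : ZK A K).2 (cu_ne z)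
  choose n hn using h1
  have hinj : ∀ a b : ℤ, (a : ℝ) * w ((π : K) : Qb) = b * w ((π : K) : Qb) → a = b := by
    intro a b hab
    have := mul_right_cancel₀ u.pos.ne' hab
    exact_mod_cast this
  refine ⟨
    { toFun := fun z => Multiplicative.ofAdd (n z)
      map_one' := ?_
      map_mul' := ?_ }, ?_, fun z => hn z⟩
  · have h2 := hn 1
    have h3 : cu (1 : (ZK A K)ˣ) = 1 := by simp [cu]
    rw [h3, h.log.one] at h2
    have := hinj (n 1) 0 (by rw [← h2]; simp)
    rw [this]; rfl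
  · intro a b
    have h2 := hn (a * b)
    have h3 : cu (a * b) = cu a * cu b := by simp [cu]
    rw [h3, h.log.map_mul _ _ (cu_ne a) (cu_ne b), hn a, hn b, ← add_mul] at h2
    have := hinj (n (a * b)) (n a + n b) (by rw [← h2]; push_cast; ring)
    rw [this]; rfl
  · intro m
    set πZ : ZK A K := ⟨((π : K) : Qb), le_ZK (π : K).2⟩ with hπZ
    have hπ0 : πZ ≠ 0 := fun h0 => u.ne' (congrArg Subtype.val h0)
    refine ⟨(Units.mk0 πZ hπ0) ^ (Multiplicative.toAdd m), ?_⟩
    apply Multiplicative.toAdd.injective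
    apply hinj
    change ((n _ : ℤ) : ℝ) * _ = _
    rw [← hn]
    have h3 : cu ((Units.mk0 πZ hπ0) ^ (Multiplicative.toAdd m)) =
        ((π : K) : Qb) ^ (Multiplicative.toAdd m) := by
      simp only [cu, Units.val_zpow_eq_zpow_val, Units.val_mk0]
      push_cast
      rfl
    rw [h3, w_zpow h u.ne']

theorem relIndex_Bt_ne_zero [FiniteDimensional ℚ K] (hq : q.Prime) (hA : A.LiesOverPrime q)
    (h : NVal A q w) (u : Unif A w K π) (s : ℝ) : (Bt h K s).relIndex (Bt h K 0) ≠ 0 := by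
  obtain ⟨n, hn⟩ := exists_nat_gt (s / w ((π : K) : Qb))
  have h1 : s ≤ n * w ((π : K) : Qb) := by
    rw [div_lt_iff₀ u.pos] at hn
    exact hn.le
  have h2 := relIndex_Bt hq hA h u n
  have h3 : (Bt h K s).relIndex (Bt h K 0) ∣ (Bt h K (n * w ((π : K) : Qb))).relIndex (Bt h K 0) :=
    AddSubgroup.relIndex_dvd_of_le_left _ (Bt_anti h h1)
  have h4 : nrm A K ^ n ≠ 0 := by
    have := one_lt_nrm hq hA K
    exact pow_ne_zero _ (by omega)
  rw [h2] at h3
  intro h0
  rw [h0, zero_dvd_iff] at h3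
  exact h4 h3

theorem relIndex_Vt_ker_ne_zero [FiniteDimensional ℚ K] (hq : q.Prime) (hA : A.LiesOverPrime q)
    (h : NVal A q w) (u : Unif A w K π) (v : (ZK A K)ˣ →* Multiplicative ℤ)
    (hv : ∀ z, w (cu z) = (Multiplicative.toAdd (v z) : ℤ) * w ((π : K) : Qb))
    {s : ℝ} (hs : 0 < s) : (Vt h K s hs).relIndex v.ker ≠ 0 := by
  have hw0 : ∀ a : v.ker, w (cu (a : (ZK A K)ˣ)) = 0 := by
    intro a
    rw [hv, a.2]
    simp
  have h0 := relIndex_Bt_ne_zero hq hA h u s
  rw [AddSubgroup.relIndex] at h0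
  have hfin : Finite ((Bt h K 0) ⧸ (Bt h K s).addSubgroupOf (Bt h K 0)) :=
    Nat.finite_of_card_ne_zero h0
  let f : v.ker → Bt h K 0 := fun a => ⟨((a : (ZK A K)ˣ) : ZK A K), Or.inr (hw0 a).ge⟩
  have hrel : ∀ a b : v.ker, a⁻¹ * b ∈ (Vt h K s hs).subgroupOf v.ker ↔
      -(f a) + f b ∈ (Bt h K s).addSubgroupOf (Bt h K 0) := by
    intro a b
    rw [Subgroup.mem_subgroupOf, AddSubgroup.mem_addSubgroupOf, mem_Vt, mem_Bt]
    have e1 : cu ((a⁻¹ * b : v.ker) : (ZK A K)ˣ) = (cu (a : (ZK A K)ˣ))⁻¹ * cu (b : (ZK A K)ˣ) := by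
      simp [cu]
    have e2 : (((-(f a) + f b : Bt h K 0) : ZK A K) : Qb) = cu (b : (ZK A K)ˣ) - cu (a : (ZK A K)ˣ) := by
      simp only [f, cu, AddSubgroup.coe_add, NegMemClass.coe_neg]
      push_cast
      ring
    rw [e1, e2]
    exact inv_mul_iff h (cu_ne _) (hw0 a)
  have hfin2 : Finite (v.ker ⧸ (Vt h K s hs).subgroupOf v.ker) := by
    have hwd : ∀ a b : v.ker, (QuotientGroup.leftRel ((Vt h K s hs).subgroupOf v.ker)) a b →
        (QuotientAddGroup.leftRel ((Bt h K s).addSubgroupOf (Bt h K 0))) (f a) (f b) := by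
      intro a b hab
      rw [QuotientGroup.leftRel_apply] at hab
      rw [QuotientAddGroup.leftRel_apply]
      exact (hrel a b).mp hab
    let F : v.ker ⧸ (Vt h K s hs).subgroupOf v.ker → (Bt h K 0) ⧸ (Bt h K s).addSubgroupOf (Bt h K 0) :=
      Quotient.map' f hwd
    refine Finite.of_injective F ?_
    intro x y
    induction x using Quotient.inductionOn'
    induction y using Quotient.inductionOn'
    rename_i a b
    intro hab
    change Quotient.map' f hwd _ = Quotient.map' f hwd _ at hab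
    rw [Quotient.map'_mk'', Quotient.map'_mk'', Quotient.eq'', QuotientAddGroup.leftRel_apply] at hab
    rw [Quotient.eq'', QuotientGroup.leftRel_apply]
    exact (hrel a b).mpr hab
  rw [Subgroup.relIndex]
  exact Nat.card_ne_zero.mpr ⟨⟨Quotient.mk'' 1⟩, hfin2⟩

/-- the abstract computation -/
theorem index_aux [FiniteDimensional ℚ K] (hq : q.Prime) (hA : A.LiesOverPrime q)
    (h : NVal A q w) (u : Unif A w K π) (hp : p.Prime) {t s : ℝ} (ht : 0 < t) (hs : 0 < s)
    (hts : t ≤ s)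
    (h1 : ∀ z ∈ Vt h K t ht, z ^ p ∈ Vt h K s hs)
    (h2 : ∀ y ∈ Vt h K s hs, ∃ z ∈ Vt h K t ht, z ^ p = y)
    (h3 : ∀ z ∈ Vt h K t ht, z ^ p = 1 → z = 1) :
    (powMonoidHom p : (ZK A K)ˣ →* (ZK A K)ˣ).range.index =
      p * (Nat.card {z : (ZK A K)ˣ // z ^ p = 1} * (Bt h K s).relIndex (Bt h K t)) := by
  obtain ⟨v, hvs, hv⟩ := exists_v h u
  have hw0 : ∀ a : (ZK A K)ˣ, w (cu a) = 0 → a ∈ v.ker := by
    intro a ha
    rw [hv] at ha
    rcases mul_eq_zero.mp ha with h0 | h0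
    · rw [MonoidHom.mem_ker]
      apply Multiplicative.toAdd.injective
      exact_mod_cast h0
    · exact absurd h0 u.pos.ne'
  have hVU : ∀ {r : ℝ} (hr : 0 < r), Vt h K r hr ≤ v.ker := fun hr a ha =>
    hw0 a (w_eq_zero_of_Bl h hr ha).1
  rw [index_pow_of_val p hp.pos v hvs]
  congr 1
  have hmap : ((Vt h K t ht).subgroupOf v.ker).map (powMonoidHom p : v.ker →* v.ker) =
      (Vt h K s hs).subgroupOf v.ker := by
    ext y
    constructor
    · rintro ⟨z, hz, rfl⟩
      exact h1 _ hz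
    · intro hy
      obtain ⟨z, hz, hzy⟩ := h2 _ hy
      exact ⟨⟨z, hVU ht hz⟩, hz, Subtype.ext hzy⟩
  have hVst : Vt h K s hs ≤ Vt h K t ht := fun a ha => NVal.mono hts ha
  rw [index_range_eq (powMonoidHom p : v.ker →* v.ker) ((Vt h K t ht).subgroupOf v.ker)
    (relIndex_Vt_ker_ne_zero hq hA h u v hv ht)
    (fun x hx hx1 => Subtype.ext (h3 _ hx (congrArg Subtype.val hx1)))
    (by rw [hmap]; exact fun a ha => hVst ha), hmap]
  congr 1
  · refine Nat.card_congr
      { toFun := fun x => ⟨((x : v.ker) : (ZK A K)ˣ), congrArg Subtype.val x.2⟩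
        invFun := fun x => ⟨⟨x.1, ?_⟩, Subtype.ext x.2⟩
        left_inv := fun x => rfl
        right_inv := fun x => rfl }
    apply hw0
    have h5 : cu x.1 ^ p = 1 := by
      have := congrArg (fun z : (ZK A K)ˣ => cu z) x.2
      simpa [cu] using this
    exact h.w_eq_zero_of_pow hp.ne_zero h5
  · rw [Subgroup.relIndex_subgroupOf (hVU ht)]
    exact relIndex_Vt h ht hs

/-- **(L1)**: index of `p`-th powers in the local field `Z(A,K)` -/
theorem index_pow [FiniteDimensional ℚ K] (hq : q.Prime) (hA : A.LiesOverPrime q)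
    (h : NVal A q w) (hp : p.Prime) :
    (powMonoidHom p : (ZK A K)ˣ →* (ZK A K)ˣ).range.index =
      p * (Nat.card {z : (ZK A K)ˣ // z ^ p = 1} * (Bt h K (w p)).relIndex (Bt h K 0)) := by
  obtain ⟨π, u⟩ := exists_unif hq hA h K
  by_cases hqp : q = p
  · subst hqp
    have hp1 : (0 : ℝ) < (q : ℝ) - 1 := by
      have : (1 : ℝ) < q := by exact_mod_cast hp.one_lt
      linarith
    have hc0 : 0 < 1 / ((q : ℝ) - 1) := one_div_pos.2 hp1
    -- minimal `n` with `n w(π) > 1/(q-1)`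
    have hex : ∃ n : ℕ, 1 / ((q : ℝ) - 1) < n * w ((π : K) : Qb) := by
      obtain ⟨n, hn⟩ := exists_nat_gt ((1 / ((q : ℝ) - 1)) / w ((π : K) : Qb))
      exact ⟨n, by rw [div_lt_iff₀ u.pos] at hn; exact hn⟩
    classical
    set n := Nat.find hex with hn
    have hn1 : 1 / ((q : ℝ) - 1) < n * w ((π : K) : Qb) := Nat.find_spec hex
    have hmin : ∀ z ∈ ZK A K, z ≠ 0 → 1 / ((q : ℝ) - 1) < w z → n * w ((π : K) : Qb) ≤ w z := by
      intro z hz hz0 hwz
      obtain ⟨m, hm⟩ := u.val z hz hz0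
      have hm0 : 0 < m := by
        have : (0 : ℝ) < m := by
          by_contra hcon
          push Not at hcon
          have := u.pos
          nlinarith
        exact_mod_cast this
      obtain ⟨k, rfl⟩ := Int.eq_ofNat_of_zero_le hm0.le
      have h5 : n ≤ k := Nat.find_min' hex (by
        rw [hm] at hwz
        exact_mod_cast hwz)
      rw [hm]
      have : (n : ℝ) ≤ k := by exact_mod_cast h5
      have hpos := u.pos
      push_cast
      nlinarith
    have ht : 0 < n * w ((π : K) : Qb) := hc0.trans hn1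
    have hs : 0 < n * w ((π : K) : Qb) + 1 := by linarith
    have hsum : 1 / ((q : ℝ) - 1) + 1 = (q : ℝ) / (q - 1) := by field_simp; ring
    rw [index_aux hq hA h u hp ht hs (by linarith) ?_ ?_ ?_, relIndex_shift h u n 1, h.norm]
    · intro z hz
      rw [mem_Vt] at hz ⊢
      have hzA : cu z ∈ A := h.mem_iff.2 (Or.inr (w_eq_zero_of_Bl h ht hz).1.ge)
      have := w_pow_sub_one h hp hzA hn1.le hz
      simpa [cu] using this
    · intro y hy
      rw [mem_Vt] at hy
      obtain ⟨z, hz1, hz2, hz3⟩ := h.exists_root hp (H := DK A K) DK_le_dec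
        (y := cu y) (fun σ hσ => mem_ZK.mp (y : ZK A K).2 σ hσ)
        (t := n * w ((π : K) : Qb) + 1) (by rw [← hsum]; linarith) hy
      have hzZ : z ∈ ZK A K := mem_ZK.mpr hz2
      have hz0 : z ≠ 0 := by
        rintro rfl
        rw [zero_pow hp.ne_zero] at hz1
        exact cu_ne y hz1.symm
      refine ⟨Units.mk0 ⟨z, hzZ⟩ (fun h0 => hz0 (congrArg Subtype.val h0)), ?_, ?_⟩
      · rw [mem_Vt]
        change Bl w _ (z - 1)
        rcases hz3 with rfl | hz3
        · exact Or.inl (sub_self 1)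
        · by_cases hz4 : z - 1 = 0
          · exact Or.inl hz4
          · exact Or.inr (hmin _ (sub_mem hzZ (one_mem _)) hz4 hz3)
      · apply Units.ext
        apply Subtype.ext
        simpa using hz1
    · intro z hz hz1
      rw [mem_Vt] at hz
      by_contra hne
      have hz2 : cu z ^ q = 1 := by
        have := congrArg (fun z : (ZK A K)ˣ => cu z) hz1
        simpa [cu] using this
      have hz3 : cu z ≠ 1 := by
        intro h0
        apply hne
        apply Units.ext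
        apply Subtype.ext
        simpa [cu] using h0
      have hfact : Fact q.Prime := ⟨hp⟩
      have h4 : IsPrimitiveRoot (cu z) q := IsPrimitiveRoot.iff_orderOf.2 (orderOf_eq_prime hz2 hz3)
      have h5 := h.w_one_sub hp h4
      have h6 := hz.resolve_left (sub_ne_zero.2 hz3)
      rw [← neg_sub, h.w_neg, h5] at h6
      linarith
  · -- `q ≠ p`
    have hndvd : ¬ q ∣ p := fun hd => hqp ((Nat.prime_dvd_prime_iff_eq hq hp).mp hd)
    have hwp : w (p : Qb) = 0 := by
      have := h.w_intCast hq hA (n := (p : ℤ)) (by exact_mod_cast hndvd)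
      simpa using this
    have ht := u.pos
    rw [index_aux hq hA h u hp ht ht le_rfl ?_ ?_ ?_, hwp, AddSubgroup.relIndex_self,
      AddSubgroup.relIndex_self]
    · intro z hz
      exact Subgroup.pow_mem _ hz p
    · intro y hy
      rw [mem_Vt] at hy
      have hy' : Bs w 0 (cu y - 1) := by
        rcases hy with h0 | h0
        · exact Or.inl h0
        · exact Or.inr (ht.trans_le h0)
      obtain ⟨z, hz1, hz2, hz3⟩ := exists_root' h hq hA hp hqp (H := DK A K) DK_le_dec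
        (y := cu y) (fun σ hσ => mem_ZK.mp (y : ZK A K).2 σ hσ) hy'
      have hzZ : z ∈ ZK A K := mem_ZK.mpr hz2
      have hz0 : z ≠ 0 := by
        rintro rfl
        rw [zero_pow hp.ne_zero] at hz1
        exact cu_ne y hz1.symm
      refine ⟨Units.mk0 ⟨z, hzZ⟩ (fun h0 => hz0 (congrArg Subtype.val h0)), ?_, ?_⟩
      · rw [mem_Vt]
        exact u.le_of_pos h (sub_mem hzZ (one_mem _)) hz3
      · apply Units.ext
        apply Subtype.ext
        simpa using hz1
    · intro z hz hz1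
      rw [mem_Vt] at hz
      have hz2 : cu z ^ p = 1 := by
        have := congrArg (fun z : (ZK A K)ˣ => cu z) hz1
        simpa [cu] using this
      have h5 : cu z = 1 := by
        apply rootsOfUnity_eq_of_residue_eq hq hA hndvd hz2 (one_pow p)
        apply h.nonunits_iff.2
        rcases hz with h0 | h0
        · exact Or.inl h0
        · exact Or.inr (ht.trans_le h0)
      apply Units.ext
      apply Subtype.ext
      simpa [cu] using h5

end Fermat.Agent.L00.LKum
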