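import Mathlib
import Fermat.Prelude.Def_GaloisRep_CompletionBridge
set_option autoImplicit false

/-!
# Density of the local Galois group in the decomposition group (lead, S55 translation)
-/

noncomputable section

namespace Fermat.Agent.L00.LocSurj

open Polynomial
open scoped Pointwise

local instance isAlgQ : Algebra.IsAlgebraic ℚ (AlgebraicClosure ℚ) :=
  AlgebraicClosure.isAlgebraic ℚ

variable (q : ℕ) [Fact q.Prime]

theorem dec_mem {g : AlgebraicClosure ℚ ≃ₐ[ℚ] AlgebraicClosure ℚ}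
    (hg : g ∈ (padicPlace q).decompositionSubgroup ℚ) {x : AlgebraicClosure ℚ}
    (hx : x ∈ padicPlace q) : g x ∈ padicPlace q := by
  have h1 : g • padicPlace q = padicPlace q := hg
  rw [← h1]
  exact ValuationSubring.smul_mem_pointwise_smul g x _ hx

theorem norm_le {g : AlgebraicClosure ℚ ≃ₐ[ℚ] AlgebraicClosure ℚ}
    (hg : g ∈ (padicPlace q).decompositionSubgroup ℚ) (x : AlgebraicClosure ℚ) (N : ℕ)
    (hx : ‖padicEmbedding q x‖ ≤ ‖(q : PadicAlgCl q)‖ ^ N) :
    ‖padicEmbedding q (g x)‖ ≤ ‖(q : PadicAlgCl q)‖ ^ N := by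
  have hq0 : (q : PadicAlgCl q) ≠ 0 := Nat.cast_ne_zero.mpr (Fact.out : q.Prime).ne_zero
  have hpos : 0 < ‖(q : PadicAlgCl q)‖ ^ N := pow_pos (norm_pos_iff.mpr hq0) N
  have key : ∀ y : AlgebraicClosure ℚ, y * ((q : AlgebraicClosure ℚ) ^ N)⁻¹ ∈ padicPlace q ↔
      ‖padicEmbedding q y‖ ≤ ‖(q : PadicAlgCl q)‖ ^ N := by
    intro y
    rw [mem_padicPlace_iff, map_mul, map_inv₀, map_pow, map_natCast, ← NNReal.coe_le_coe,
      coe_nnnorm, norm_mul, norm_inv, norm_pow, NNReal.coe_one, mul_inv_le_iff₀ hpos, one_mul]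
  rw [← key] at hx ⊢
  have h1 := dec_mem q hg hx
  rwa [map_mul, map_inv₀, map_pow, map_natCast] at h1

/-- elements of the decomposition group map to conjugates over `ℚ_q` -/
theorem aeval_zero {g : AlgebraicClosure ℚ ≃ₐ[ℚ] AlgebraicClosure ℚ}
    (hg : g ∈ (padicPlace q).decompositionSubgroup ℚ) (θ : AlgebraicClosure ℚ) (P : ℚ_[q][X])
    (hP : aeval (padicEmbedding q θ) P = 0) : aeval (padicEmbedding q (g θ)) P = 0 := by
  have hq0 : (q : PadicAlgCl q) ≠ 0 := Nat.cast_ne_zero.mpr (Fact.out : q.Prime).ne_zero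
  set n := P.natDegree + 1 with hn
  let F : (Fin n → ℚ_[q]) → PadicAlgCl q × PadicAlgCl q := fun a =>
    (∑ i, algebraMap ℚ_[q] (PadicAlgCl q) (a i) * (padicEmbedding q θ) ^ (i : ℕ),
      ∑ i, algebraMap ℚ_[q] (PadicAlgCl q) (a i) * (padicEmbedding q (g θ)) ^ (i : ℕ))
  have halg : Continuous (algebraMap ℚ_[q] (PadicAlgCl q)) := continuous_algebraMap _ _
  have hF : Continuous F := by
    refine Continuous.prodMk ?_ ?_ <;>
    · refine continuous_finsetSum _ fun i _ => ?_
      exact (halg.comp (continuous_apply i)).mul continuous_const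
  let C : Set (PadicAlgCl q × PadicAlgCl q) :=
    {z | ∀ N : ℕ, ‖(q : PadicAlgCl q)‖ ^ N ≤ ‖z.1‖ ∨ ‖z.2‖ ≤ ‖(q : PadicAlgCl q)‖ ^ N}
  have hC : IsClosed C := by
    have h1 : C = ⋂ N : ℕ, ({z | ‖(q : PadicAlgCl q)‖ ^ N ≤ ‖z.1‖} ∪
        {z | ‖z.2‖ ≤ ‖(q : PadicAlgCl q)‖ ^ N}) := by
      ext z; simp [C]
    rw [h1]
    refine isClosed_iInter fun N => IsClosed.union ?_ ?_
    · exact isClosed_le continuous_const (continuous_norm.comp continuous_fst)
    · exact isClosed_le (continuous_norm.comp continuous_snd) continuous_const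
  have hrat : ∀ b : Fin n → ℚ, F (fun i => (b i : ℚ_[q])) ∈ C := by
    intro b
    set R : AlgebraicClosure ℚ := ∑ i, (b i : AlgebraicClosure ℚ) * θ ^ (i : ℕ) with hR
    have h1 : F (fun i => (b i : ℚ_[q])) = (padicEmbedding q R, padicEmbedding q (g R)) := by
      refine Prod.ext ?_ ?_
      · simp only [F, hR, map_sum, map_mul, map_pow, map_ratCast]
      · simp only [F, hR, map_sum, map_mul, map_pow, map_ratCast]
    rw [h1]
    intro N
    by_cases h2 : ‖padicEmbedding q R‖ ≤ ‖(q : PadicAlgCl q)‖ ^ N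
    · exact Or.inr (norm_le q hg R N h2)
    · exact Or.inl (not_le.mp h2).le
  have hall : ∀ a : Fin n → ℚ_[q], F a ∈ C := by
    intro a
    have h1 : a ∈ closure (Set.range fun b : Fin n → ℚ => (fun i => (b i : ℚ_[q]))) := by
      rw [Metric.mem_closure_iff]
      intro ε hε
      choose b hb using fun i => Padic.rat_dense q (a i) hε
      refine ⟨_, ⟨b, rfl⟩, ?_⟩
      rw [dist_pi_lt_iff hε]
      intro i
      rw [dist_eq_norm]
      exact hb i
    have h2 : (Set.range fun b : Fin n → ℚ => (fun i => (b i : ℚ_[q]))) ⊆ F ⁻¹' C := by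
      rintro _ ⟨b, rfl⟩
      exact hrat b
    exact (hC.preimage hF).closure_subset_iff.mpr h2 h1
  have h3 := hall (fun i => P.coeff i)
  have h4 : F (fun i => P.coeff i) =
      (aeval (padicEmbedding q θ) P, aeval (padicEmbedding q (g θ)) P) := by
    refine Prod.ext ?_ ?_
    · change _ = aeval (padicEmbedding q θ) P
      rw [aeval_eq_sum_range, ← hn, Finset.sum_range]
      simp only [F, Algebra.smul_def]
    · change _ = aeval (padicEmbedding q (g θ)) P
      rw [aeval_eq_sum_range, ← hn, Finset.sum_range]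
      simp only [F, Algebra.smul_def]
  rw [h4, hP] at h3
  have h5 : ∀ N : ℕ, ‖aeval (padicEmbedding q (g θ)) P‖ ≤ ‖(q : PadicAlgCl q)‖ ^ N := by
    intro N
    rcases h3 N with h | h
    · rw [norm_zero] at h
      exact absurd h (not_le.mpr (pow_pos (norm_pos_iff.mpr hq0) N))
    · exact h
  have hlt : ‖(q : PadicAlgCl q)‖ < 1 := by
    have h6 : ‖(q : PadicAlgCl q)‖ = ‖(q : ℚ_[q])‖ := by
      have := norm_algebraMap' (PadicAlgCl q) (q : ℚ_[q])
      rwa [map_natCast] at this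
    rw [h6]
    exact Padic.norm_p_lt_one
  have h7 : Filter.Tendsto (fun N : ℕ => ‖(q : PadicAlgCl q)‖ ^ N) Filter.atTop (nhds 0) :=
    tendsto_pow_atTop_nhds_zero_of_lt_one (norm_nonneg _) hlt
  have h8 : ‖aeval (padicEmbedding q (g θ)) P‖ ≤ 0 := ge_of_tendsto' h7 h5
  exact norm_le_zero_iff.mp h8

/-- **density** of the local Galois group -/
theorem exists_local_lift {g : AlgebraicClosure ℚ ≃ₐ[ℚ] AlgebraicClosure ℚ}
    (hg : g ∈ (padicPlace q).decompositionSubgroup ℚ)
    (F : IntermediateField ℚ (AlgebraicClosure ℚ)) [FiniteDimensional ℚ F] :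
    ∃ τ : PadicAlgCl q ≃ₐ[ℚ_[q]] PadicAlgCl q,
      (localGaloisToGlobal q τ)⁻¹ * g ∈ F.fixingSubgroup := by
  obtain ⟨θ, hθ⟩ := Field.exists_primitive_element ℚ F
  have halg : IsIntegral ℚ_[q] (padicEmbedding q (θ : AlgebraicClosure ℚ)) :=
    Algebra.IsIntegral.isIntegral _
  have h1 : aeval (padicEmbedding q (g (θ : AlgebraicClosure ℚ)))
      (minpoly ℚ_[q] (padicEmbedding q (θ : AlgebraicClosure ℚ))) = 0 :=
    aeval_zero q hg θ _ (minpoly.aeval _ _)
  have h2 : IsConjRoot ℚ_[q] (padicEmbedding q (θ : AlgebraicClosure ℚ))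
      (padicEmbedding q (g (θ : AlgebraicClosure ℚ))) :=
    (isConjRoot_iff_aeval_eq_zero halg).mpr h1
  obtain ⟨τ, hτ⟩ := (isConjRoot_iff_exists_algEquiv (K := ℚ_[q]) (L := PadicAlgCl q)).mp h2.symm
  refine ⟨τ, ?_⟩
  have h3 : localGaloisToGlobal q τ (θ : AlgebraicClosure ℚ) = g (θ : AlgebraicClosure ℚ) := by
    apply (padicEmbedding q).toRingHom.injective
    change padicEmbedding q _ = padicEmbedding q _
    rw [padicEmbedding_localGaloisToGlobal, hτ]
  have h4 : ((localGaloisToGlobal q τ)⁻¹ * g) (θ : AlgebraicClosure ℚ) = θ := by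
    rw [AlgEquiv.mul_apply, ← h3, ← AlgEquiv.mul_apply, inv_mul_cancel, AlgEquiv.one_apply]
  have h5 : F = IntermediateField.adjoin ℚ {(θ : AlgebraicClosure ℚ)} := by
    have := congrArg IntermediateField.lift hθ
    exact ((IntermediateField.lift_adjoin_simple (F := ℚ) (K := F) θ).symm.trans
      (this.trans (IntermediateField.lift_top (F := ℚ) (K := F)))).symm
  rw [IntermediateField.mem_fixingSubgroup_iff]
  intro x hx
  rw [h5] at hx
  have h6 : IntermediateField.adjoin ℚ {(θ : AlgebraicClosure ℚ)} ≤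
      IntermediateField.fixedField (Subgroup.zpowers ((localGaloisToGlobal q τ)⁻¹ * g)) := by
    rw [IntermediateField.adjoin_simple_le_iff, IntermediateField.mem_fixedField_iff]
    intro f hf
    obtain ⟨k, rfl⟩ := Subgroup.mem_zpowers_iff.mp hf
    have h7 : ((localGaloisToGlobal q τ)⁻¹ * g) ∈
        MulAction.stabilizer (AlgebraicClosure ℚ ≃ₐ[ℚ] AlgebraicClosure ℚ)
          (θ : AlgebraicClosure ℚ) := h4
    exact (MulAction.stabilizer _ (θ : AlgebraicClosure ℚ)).zpow_mem h7 k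
  have h8 := h6 hx
  rw [IntermediateField.mem_fixedField_iff] at h8
  exact h8 _ (Subgroup.mem_zpowers _)

end Fermat.Agent.L00.LocSurj
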