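import Fermat.Agent.H25.Density
import Fermat.Agent.L00.CIface
set_option autoImplicit false
set_option linter.unusedSectionVars false
set_option linter.style.haveILetI false

/-!
# Choice of the auxiliary prime for reciprocity (lead, Program C [6])
-/

noncomputable section

open Fermat.Agent.H05 Fermat.Agent.TW Fermat.Agent.LF
open scoped NumberField Pointwise

namespace Fermat.Agent.L00.Recip

/-- primes are multiplicatively independent modulo `p`-th powers in `ℚ(ζ_p)` -/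
theorem indep {p : ℕ} (hp : p.Prime) {ζ : Qb} (hζ : IsPrimitiveRoot ζ p) (S : Finset ℕ)
    (hS : ∀ ℓ ∈ S, ℓ.Prime) (a : ℕ → ℕ) (x : Qb) (hx : x ∈ IntermediateField.adjoin ℚ {ζ})
    (he : x ^ p = ∏ ℓ ∈ S, (ℓ : Qb) ^ a ℓ) : ∀ ℓ ∈ S, p ∣ a ℓ := by
  classical
  set K := IntermediateField.adjoin ℚ {ζ} with hK
  have hζint : IsIntegral ℚ ζ := Algebra.IsIntegral.isIntegral ζ
  haveI : FiniteDimensional ℚ K := IntermediateField.adjoin.finiteDimensional hζint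
  have hdeg : Module.finrank ℚ K = p - 1 := by
    rw [hK, IntermediateField.adjoin.finrank hζint, ← Polynomial.cyclotomic_eq_minpoly_rat hζ hp.pos,
      Polynomial.natDegree_cyclotomic, Nat.totient_prime hp]
  set X : K := ⟨x, hx⟩ with hX
  have h1 : X ^ p = algebraMap ℚ K (∏ ℓ ∈ S, (ℓ : ℚ) ^ a ℓ) := by
    apply Subtype.ext
    rw [SubmonoidClass.coe_pow, he]
    push_cast
    simp
  have h2 := congrArg (Algebra.norm ℚ) h1
  rw [map_pow, Algebra.norm_algebraMap, hdeg] at h2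
  -- compare valuations
  intro ℓ hℓ
  have hℓp := hS ℓ hℓ
  haveI : Fact ℓ.Prime := ⟨hℓp⟩
  have h3 := congrArg (padicValRat ℓ) h2
  have hN : Algebra.norm ℚ X ≠ 0 := by
    intro h0
    rw [h0, zero_pow hp.ne_zero] at h2
    have h4 : (∏ ℓ ∈ S, (ℓ : ℚ) ^ a ℓ) ^ (p - 1) ≠ 0 := by
      apply pow_ne_zero
      rw [Finset.prod_ne_zero_iff]
      intro l hl
      exact pow_ne_zero _ (Nat.cast_ne_zero.mpr (hS l hl).ne_zero)
    exact h4 h2.symm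
  have hval : padicValRat ℓ (∏ ℓ ∈ S, (ℓ : ℚ) ^ a ℓ) = a ℓ := by
    have h4 : (∏ ℓ ∈ S, (ℓ : ℚ) ^ a ℓ) = (ℓ : ℚ) ^ a ℓ * ∏ l ∈ S.erase ℓ, (l : ℚ) ^ a l :=
      (Finset.mul_prod_erase S (fun l => (l : ℚ) ^ a l) hℓ).symm
    have h5 : (∏ l ∈ S.erase ℓ, (l : ℚ) ^ a l) ≠ 0 := by
      rw [Finset.prod_ne_zero_iff]
      intro l hl
      exact pow_ne_zero _ (Nat.cast_ne_zero.mpr (hS l (Finset.mem_of_mem_erase hl)).ne_zero)
    have h6 : padicValRat ℓ (∏ l ∈ S.erase ℓ, (l : ℚ) ^ a l) = 0 := by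
      have h7 : (∏ l ∈ S.erase ℓ, (l : ℚ) ^ a l) = ((∏ l ∈ S.erase ℓ, l ^ a l : ℕ) : ℚ) := by
        push_cast; rfl
      rw [h7, padicValRat.of_nat, Nat.cast_eq_zero]
      apply padicValNat.eq_zero_of_not_dvd
      intro hd
      rw [Prime.dvd_finsetProd_iff hℓp.prime] at hd
      obtain ⟨l, hl, hd⟩ := hd
      have h8 := hℓp.dvd_of_dvd_pow hd
      have h9 := (Nat.prime_dvd_prime_iff_eq hℓp (hS l (Finset.mem_of_mem_erase hl))).mp h8
      exact (Finset.ne_of_mem_erase hl) h9.symm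
    rw [h4, padicValRat.mul (pow_ne_zero _ (Nat.cast_ne_zero.mpr hℓp.ne_zero)) h5, h6, add_zero,
      padicValRat.pow, padicValRat.self hℓp.one_lt, mul_one]
  have hne : (∏ ℓ ∈ S, (ℓ : ℚ) ^ a ℓ) ≠ 0 := by
    rw [Finset.prod_ne_zero_iff]
    intro l hl
    exact pow_ne_zero _ (Nat.cast_ne_zero.mpr (hS l hl).ne_zero)
  rw [padicValRat.pow, padicValRat.pow, hval] at h3
  have h4 : (p : ℤ) ∣ ((p - 1 : ℕ) : ℤ) * (a ℓ : ℤ) := ⟨_, h3.symm⟩
  have h5 : p ∣ (p - 1) * a ℓ := by exact_mod_cast h4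
  have h6 : Nat.Coprime p (p - 1) := by
    have := Nat.coprime_self_sub_right (n := p) (m := 1) hp.one_lt.le
    exact this.mpr (Nat.coprime_one_right p)
  exact h6.dvd_of_dvd_mul_left h5

/-- an element fixing `ζ_p` and moving every `ℓ^{1/p}`, `ℓ ∈ S` -/
theorem exists_moving {p : ℕ} (hp : p.Prime) {ζ : Qb} (hζ : IsPrimitiveRoot ζ p) (S : Finset ℕ)
    (hS : ∀ ℓ ∈ S, ℓ.Prime) (r : ℕ → Qb) (hr : ∀ ℓ ∈ S, r ℓ ^ p = ℓ) :
    ∃ σ : GQ, σ ζ = ζ ∧ ∀ ℓ ∈ S, σ (r ℓ) ≠ r ℓ := by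
  classical
  have hg := Fermat.Agent.H51.isGalois_Qbar
  haveI : Fact p.Prime := ⟨hp⟩
  haveI : NeZero p := ⟨hp.ne_zero⟩
  set K := IntermediateField.adjoin ℚ {ζ} with hK
  have hζK : ζ ∈ K := IntermediateField.mem_adjoin_simple_self ℚ ζ
  have hr0 : ∀ ℓ ∈ S, r ℓ ≠ 0 := by
    intro ℓ hℓ h0
    have := hr ℓ hℓ
    rw [h0, zero_pow hp.ne_zero] at this
    exact Nat.cast_ne_zero.mpr (hS ℓ hℓ).ne_zero this.symm
  have hfix : ∀ σ ∈ K.fixingSubgroup, σ ζ = ζ := fun σ hσ =>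
    (IntermediateField.mem_fixingSubgroup_iff K σ).mp hσ ζ hζK
  have hex : ∀ (σ : K.fixingSubgroup) (ℓ : S), ∃ c : ZMod p,
      (σ : GQ) (r ℓ) = ζ ^ c.val * r ℓ := by
    intro σ ℓ
    have h1 : ((σ : GQ) (r ℓ) / r ℓ) ^ p = 1 := by
      rw [div_pow, ← map_pow, hr ℓ ℓ.2, map_natCast, div_self]
      exact Nat.cast_ne_zero.mpr (hS ℓ ℓ.2).ne_zero
    obtain ⟨i, hi, hi'⟩ := hζ.eq_pow_of_pow_eq_one h1
    refine ⟨(i : ZMod p), ?_⟩
    rw [ZMod.val_natCast, Nat.mod_eq_of_lt hi, hi', div_mul_cancel₀ _ (hr0 ℓ ℓ.2)]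
  choose c hc using hex
  have hzpow : ∀ a b : ZMod p, ζ ^ (a + b).val = ζ ^ a.val * ζ ^ b.val := by
    intro a b
    rw [← pow_add, ZMod.val_add]
    conv_rhs => rw [← Nat.mod_add_div (a.val + b.val) p, pow_add, pow_mul, hζ.pow_eq_one,
      one_pow, mul_one]
  have hinj : ∀ a b : ZMod p, ζ ^ a.val = ζ ^ b.val → a = b := by
    intro a b hab
    exact ZMod.val_injective p (hζ.pow_inj (ZMod.val_lt a) (ZMod.val_lt b) hab)
  have hmul : ∀ (σ τ : K.fixingSubgroup) (ℓ : S), c (σ * τ) ℓ = c σ ℓ + c τ ℓ := by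
    intro σ τ ℓ
    apply hinj
    apply mul_right_cancel₀ (hr0 ℓ ℓ.2)
    rw [← hc (σ * τ) ℓ, hzpow]
    change (σ : GQ) ((τ : GQ) (r ℓ)) = _
    rw [hc τ ℓ, map_mul, map_pow, hfix σ σ.2, hc σ ℓ]
    ring
  let Φ : K.fixingSubgroup →* Multiplicative (S → ZMod p) :=
    MonoidHom.mk' (fun σ => Multiplicative.ofAdd (c σ)) (fun σ τ => by
      rw [← ofAdd_add]
      congr 1
      funext ℓ
      exact hmul σ τ ℓ)
  let W : AddSubgroup (S → ZMod p) := Φ.range.toAddSubgroup'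
  let W' : Submodule (ZMod p) (S → ZMod p) := AddSubgroup.toZModSubmodule p W
  have hW' : ∀ x, x ∈ W' ↔ ∃ σ, c σ = x := by
    intro x
    constructor
    · rintro ⟨σ, hσ⟩
      exact ⟨σ, Multiplicative.ofAdd.injective hσ⟩
    · rintro ⟨σ, hσ⟩
      exact ⟨σ, congrArg Multiplicative.ofAdd hσ⟩
  have htop : W' = ⊤ := by
    by_contra hne
    obtain ⟨f, hf0, hf⟩ := Submodule.exists_le_ker_of_lt_top W' (lt_top_iff_ne_top.mpr hne)
    apply hf0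
    let a : ℕ → ℕ := fun ℓ => if h : ℓ ∈ S then (f (Pi.single ⟨ℓ, h⟩ 1)).val else 0
    have hfx : ∀ x : S → ZMod p, f x = ∑ ℓ : S, x ℓ * f (Pi.single ℓ 1) := by
      intro x
      conv_lhs => rw [pi_eq_sum_univ' x]
      rw [map_sum]
      refine Finset.sum_congr rfl fun ℓ _ => ?_
      rw [map_smul, smul_eq_mul]
    set x : Qb := ∏ ℓ : S, (r ℓ) ^ (f (Pi.single ℓ 1)).val with hx
    have hxK : x ∈ K := by
      apply mem_of_fixed K
      intro σ hσ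
      rw [hx, map_prod]
      have h1 : ∀ ℓ : S, σ (r ℓ ^ (f (Pi.single ℓ 1)).val) =
          ζ ^ ((c ⟨σ, hσ⟩ ℓ).val * (f (Pi.single ℓ 1)).val) * r ℓ ^ (f (Pi.single ℓ 1)).val := by
        intro ℓ
        rw [map_pow, hc ⟨σ, hσ⟩ ℓ, mul_pow, ← pow_mul]
      rw [Finset.prod_congr rfl fun ℓ _ => h1 ℓ, Finset.prod_mul_distrib, Finset.prod_pow_eq_pow_sum]
      have h2 : ζ ^ (∑ ℓ : S, (c ⟨σ, hσ⟩ ℓ).val * (f (Pi.single ℓ 1)).val) = 1 := by
        rw [hζ.pow_eq_one_iff_dvd, ← ZMod.natCast_eq_zero_iff]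
        push_cast
        have h3 : f (c ⟨σ, hσ⟩) = 0 := hf ((hW' _).mpr ⟨⟨σ, hσ⟩, rfl⟩)
        rw [hfx] at h3
        simpa using h3
      rw [h2, one_mul]
    have hxp : x ^ p = ∏ ℓ ∈ S, (ℓ : Qb) ^ a ℓ := by
      rw [hx, ← Finset.prod_pow, ← Finset.prod_coe_sort S (fun ℓ => (ℓ : Qb) ^ a ℓ)]
      refine Finset.prod_congr rfl fun ℓ _ => ?_
      rw [← pow_mul, mul_comm, pow_mul, hr ℓ ℓ.2]
      congr 1
      simp [a]
    have h5 := indep hp hζ S hS a x hxK hxp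
    apply LinearMap.ext
    intro y
    rw [hfx, LinearMap.zero_apply]
    refine Finset.sum_eq_zero fun ℓ _ => ?_
    have h6 := h5 ℓ ℓ.2
    have h7 : a ℓ = (f (Pi.single ℓ 1)).val := by simp [a]
    rw [h7] at h6
    have h8 : (f (Pi.single ℓ 1)).val = 0 := Nat.eq_zero_of_dvd_of_lt h6 (ZMod.val_lt _)
    rw [(ZMod.val_eq_zero _).mp h8, mul_zero]
  obtain ⟨σ, hσ⟩ := (hW' (fun _ => 1)).mp (htop ▸ Submodule.mem_top)
  refine ⟨σ, hfix σ σ.2, ?_⟩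
  intro ℓ hℓ h0
  have h1 := hc σ ⟨ℓ, hℓ⟩
  rw [hσ] at h1
  change (σ : GQ) (r ℓ) = ζ ^ (1 : ZMod p).val * r ℓ at h1
  rw [h0] at h1
  haveI : Fact (1 < p) := ⟨hp.one_lt⟩
  rw [ZMod.val_one, pow_one] at h1
  have h2 : ζ = 1 := by
    have h3 : (ζ - 1) * r ℓ = 0 := by rw [sub_mul, one_mul, ← h1, sub_self]
    rcases mul_eq_zero.mp h3 with h4 | h4
    · exact sub_eq_zero.mp h4
    · exact absurd h4 (hr0 ℓ hℓ)
  exact hζ.ne_one hp.one_lt h2

/-- **choice of the auxiliary prime** -/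
theorem exists_prime {p : ℕ} (hp : p.Prime) (S T : Finset ℕ) (hS : ∀ ℓ ∈ S, ℓ.Prime) :
    ∃ m : ℕ, m.Prime ∧ m ∉ T ∧ m ∉ S ∧ p ∣ m - 1 ∧ ∀ ℓ ∈ S, ¬ ∃ y : ZMod m, y ^ p = (ℓ : ZMod m) := by
  classical
  have hg := Fermat.Agent.H51.isGalois_Qbar
  have : NeZero (p : Qb) := ⟨Nat.cast_ne_zero.2 hp.ne_zero⟩
  obtain ⟨ζ, hζ⟩ := HasEnoughRootsOfUnity.exists_primitiveRoot Qb p
  have hex : ∀ ℓ : ℕ, ∃ x : Qb, x ^ p = ℓ := fun ℓ => IsAlgClosed.exists_pow_nat_eq _ hp.pos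
  choose r hr using hex
  obtain ⟨σ, hσ1, hσ2⟩ := exists_moving hp hζ S hS r (fun ℓ _ => hr ℓ)
  let F : IntermediateField ℚ Qb := IntermediateField.adjoin ℚ
    ((insert ζ (S.image r) : Finset Qb) : Set Qb)
  haveI : FiniteDimensional ℚ F :=
    IntermediateField.finiteDimensional_adjoin fun x _ => Algebra.IsIntegral.isIntegral x
  obtain ⟨m, hm, hmT, A, hA, φ, hφ, j, n, h1, h2⟩ :=
    H25.exists_frobenius F (insert p (S ∪ T)) σ
  rw [Finset.mem_insert, Finset.mem_union] at hmT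
  push Not at hmT
  obtain ⟨hmp, hmS, hmT⟩ := hmT
  haveI : Fact m.Prime := ⟨hm⟩
  have hζF : ζ ∈ F := IntermediateField.subset_adjoin ℚ _ (by simp)
  have hrF : ∀ ℓ ∈ S, r ℓ ∈ F := fun ℓ hℓ => IntermediateField.subset_adjoin ℚ _ (by
    simp only [Finset.coe_insert, Finset.coe_image, Set.mem_insert_iff, Set.mem_image,
      Finset.mem_coe]
    exact Or.inr ⟨ℓ, hℓ, rfl⟩)
  have hφζ : φ ζ = ζ := by
    rw [h1 ζ hζF]
    clear h1 h2
    induction j with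
    | zero => simp
    | succ j ih => rw [pow_succ', AlgEquiv.mul_apply, ih, hσ1]
  have hφr : ∀ ℓ ∈ S, φ (r ℓ) ≠ r ℓ := by
    intro ℓ hℓ h0
    apply hσ2 ℓ hℓ
    rw [h2 (r ℓ) (hrF ℓ hℓ)]
    clear h1 h2
    induction n with
    | zero => simp
    | succ j ih => rw [pow_succ', AlgEquiv.mul_apply, ih, h0]
  have hmdvd : ¬ m ∣ p := fun hd => hmp ((Nat.prime_dvd_prime_iff_eq hm hp).mp hd)
  have hfr : ∀ x ∈ A, φ x - x ^ m ∈ A.nonunits := by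
    intro x hx
    have := Unr.frob_pow_sub hφ hx 1
    rwa [pow_one, pow_one] at this
  have hζA : ζ ∈ A := H05.mem_of_pow_eq_one A hp.ne_zero hζ.pow_eq_one
  have hdvd : p ∣ m - 1 := by
    have h3 := hfr ζ hζA
    rw [hφζ] at h3
    have h4 : ζ = ζ ^ m := by
      apply rootsOfUnity_eq_of_residue_eq hm hA hmdvd hζ.pow_eq_one _ h3
      rw [← pow_mul, mul_comm, pow_mul, hζ.pow_eq_one, one_pow]
    have h5 : ζ ^ (m - 1) = 1 := by
      have h6 : ζ ^ (m - 1) * ζ = ζ := by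
        rw [← pow_succ, Nat.sub_add_cancel hm.one_lt.le]
        exact h4.symm
      exact mul_right_cancel₀ (hζ.ne_zero hp.ne_zero) (by rw [h6, one_mul])
    exact (hζ.pow_eq_one_iff_dvd _).mp h5
  refine ⟨m, hm, hmT, hmS, hdvd, ?_⟩
  · rintro ℓ hℓ ⟨y, hy⟩
    apply hφr ℓ hℓ
    obtain ⟨Y, rfl⟩ := ZMod.natCast_zmod_surjective y
    obtain ⟨d, hd⟩ := hdvd
    have hmℓ : ¬ (m : ℤ) ∣ (ℓ : ℤ) := by
      intro hdd
      have h5 : m ∣ ℓ := by exact_mod_cast hdd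
      exact hmS (((Nat.prime_dvd_prime_iff_eq hm (hS ℓ hℓ)).mp h5) ▸ hℓ)
    have hY0 : (Y : ZMod m) ≠ 0 := by
      intro h0
      rw [h0, zero_pow hp.ne_zero] at hy
      apply hmℓ
      exact_mod_cast (ZMod.natCast_eq_zero_iff ℓ m).mp hy.symm
    have h3 : ((ℓ : ZMod m)) ^ d = 1 := by
      rw [← hy, ← pow_mul, ← hd]
      exact ZMod.pow_card_sub_one_eq_one hY0
    have h4 : (m : ℤ) ∣ (ℓ : ℤ) ^ d - 1 := by
      rw [← ZMod.intCast_zmod_eq_zero_iff_dvd]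
      push_cast
      rw [h3, sub_self]
    obtain ⟨k, hk⟩ := h4
    obtain ⟨w, h⟩ := exists_NVal hm hA
    have hℓ0 : (ℓ : Qb) ≠ 0 := Nat.cast_ne_zero.mpr (hS ℓ hℓ).ne_zero
    have hr0 : r ℓ ≠ 0 := by
      intro h0
      have := hr ℓ
      rw [h0, zero_pow hp.ne_zero] at this
      exact hℓ0 this.symm
    have hwr : w (r ℓ) = 0 := by
      have h5 := h.log.pow hr0 p
      rw [hr ℓ] at h5
      have h6 : w (ℓ : Qb) = 0 := by
        have := h.w_intCast hm hA hmℓ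
        simpa using this
      rw [h6] at h5
      have hp0 : (p : ℝ) ≠ 0 := Nat.cast_ne_zero.mpr hp.ne_zero
      rcases mul_eq_zero.mp h5.symm with h7 | h7
      · exact absurd h7 hp0
      · exact h7
    have hrA : r ℓ ∈ A := h.mem_iff.2 (Or.inr hwr.ge)
    have h5 : r ℓ ^ m - r ℓ = r ℓ * ((m : Qb) * (k : Qb)) := by
      have h6 : (ℓ : Qb) ^ d - 1 = (m : Qb) * (k : Qb) := by
        exact_mod_cast congrArg (fun z : ℤ => (z : Qb)) hk
      have h7 : r ℓ ^ m = r ℓ * (ℓ : Qb) ^ d := by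
        rw [← hr ℓ, ← pow_mul, ← hd, ← pow_succ', Nat.sub_add_cancel hm.one_lt.le]
      rw [h7, ← h6]; ring
    have hmw : Bl w 1 (m : Qb) := Or.inr h.norm.ge
    have h6 : Bl w 1 (r ℓ ^ m - r ℓ) := by
      rw [h5]
      exact h.mul_left (Or.inr hwr.ge) (h.mul_right hmw (h.intCast k))
    have h7 : Bs w 0 (φ (r ℓ) - r ℓ) := by
      have h8 : Bs w 0 (φ (r ℓ) - r ℓ ^ m) := h.nonunits_iff.1 (hfr (r ℓ) hrA)
      have h9 : Bs w 0 (r ℓ ^ m - r ℓ) := NVal.Bs_of h6 one_pos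
      have h10 : φ (r ℓ) - r ℓ = (φ (r ℓ) - r ℓ ^ m) + (r ℓ ^ m - r ℓ) := by ring
      rw [h10]
      exact h.Bs_add h8 h9
    have h8 : (φ (r ℓ) / r ℓ) ^ p = 1 := by
      rw [div_pow, ← map_pow, hr ℓ, map_natCast, div_self hℓ0]
    have h9 : φ (r ℓ) / r ℓ = 1 := by
      apply rootsOfUnity_eq_of_residue_eq hm hA hmdvd h8 (one_pow p)
      have h10 : φ (r ℓ) / r ℓ - 1 = (r ℓ)⁻¹ * (φ (r ℓ) - r ℓ) := by
        field_simp
      rw [h10]
      apply h.nonunits_iff.2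
      rcases h7 with h7 | h7
      · left; rw [h7, mul_zero]
      · by_cases h11 : φ (r ℓ) - r ℓ = 0
        · left; rw [h11, mul_zero]
        · right
          rw [h.log.map_mul _ _ (inv_ne_zero hr0) h11, LKum.w_inv h hr0, hwr]
          linarith
    rwa [div_eq_one_iff_eq hr0] at h9

end Fermat.Agent.L00.Recip
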