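import Fermat.Agent.L00.Recip1
import Fermat.Agent.CC.Cyclic
set_option autoImplicit false
set_option linter.unusedSectionVars false
set_option linter.style.haveILetI false

/-!
# The auxiliary character of conductor `m` and order `p` (lead, Program C [6])
-/

noncomputable section

open Fermat.Agent.H05 Fermat.Agent.TW Fermat.Agent.LF
open scoped NumberField Pointwise

namespace Fermat.Agent.L00.Recip

variable {p m : ℕ} [Fact p.Prime] [Fact m.Prime]

/-- `p`-th power residue index -/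
theorem exists_ind (hpm : p ∣ m - 1) : ∃ ind : (ZMod m)ˣ →* Multiplicative (ZMod p),
    Function.Surjective ind ∧ ∀ u, ind u = 1 ↔ ∃ y, y ^ p = u := by
  have hm : m.Prime := Fact.out
  have hp : p.Prime := Fact.out
  have hidx : (powMonoidHom p : (ZMod m)ˣ →* (ZMod m)ˣ).range.index = p := by
    rw [IsCyclic.index_powMonoidHom_range, Nat.card_eq_fintype_card, ZMod.card_units_eq_totient,
      Nat.totient_prime hm]
    exact Nat.gcd_eq_right hpm
  have h1 : Nat.card ((ZMod m)ˣ ⧸ (powMonoidHom p : (ZMod m)ˣ →* (ZMod m)ˣ).range) = p := hidx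
  have h2 : Nat.card (Multiplicative (ZMod p)) = p :=
    (Nat.card_congr Multiplicative.toAdd).trans (Nat.card_zmod p)
  let e : ((ZMod m)ˣ ⧸ (powMonoidHom p : (ZMod m)ˣ →* (ZMod m)ˣ).range) ≃* Multiplicative (ZMod p) :=
    mulEquivOfPrimeCardEq h1 h2
  refine ⟨e.toMonoidHom.comp (QuotientGroup.mk' _), ?_, ?_⟩
  · exact e.surjective.comp (QuotientGroup.mk'_surjective _)
  · intro u
    change e (QuotientGroup.mk u) = 1 ↔ _
    rw [map_eq_one_iff e e.injective, QuotientGroup.eq_one_iff]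
    rfl

/-- the Galois character attached to `ind` -/
def chi (ind : (ZMod m)ˣ →* Multiplicative (ZMod p)) (σ : GQ) : ZMod p :=
  Multiplicative.toAdd (ind (ExtCitation.cycloChar m σ))

theorem chi_mul (ind : (ZMod m)ˣ →* Multiplicative (ZMod p)) (σ τ : GQ) :
    chi ind (σ * τ) = chi ind σ + chi ind τ := by
  unfold chi
  rw [map_mul, map_mul]; rfl

theorem cyclo_spec (σ : GQ) {ζ : Qb} (hζ : ζ ^ m = 1) :
    σ ζ = ζ ^ (ExtCitation.cycloChar m σ : ZMod m).val := by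
  have hm : m.Prime := Fact.out
  haveI : NeZero m := ⟨hm.ne_zero⟩
  have hz0 : ζ ≠ 0 := by
    rintro rfl
    rw [zero_pow hm.ne_zero] at hζ
    exact zero_ne_one hζ
  let u : rootsOfUnity m Qb := ⟨Units.mk0 ζ hz0, by
    rw [mem_rootsOfUnity]
    apply Units.ext
    simpa using hζ⟩
  have h1 := modularCyclotomicCharacter.spec (AlgebraicClosure ℚ)
    (ExtCitation.card_rootsOfUnity_eq_self m) (σ : AlgebraicClosure ℚ ≃+* AlgebraicClosure ℚ) u.2
  exact h1

/-- value of the cyclotomic character at an element acting as `x ↦ x ^ N` on residues -/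
theorem cyclo_of_frob {A : ValuationSubring Qb} {q : ℕ} (hq : q.Prime) (hA : A.LiesOverPrime q)
    (hqm : q ≠ m) {φ : GQ} {N : ℕ} (hφ : ∀ x ∈ A, φ x - x ^ N ∈ A.nonunits) :
    ((ExtCitation.cycloChar m φ : (ZMod m)ˣ) : ZMod m) = N := by
  have hm : m.Prime := Fact.out
  haveI : NeZero m := ⟨hm.ne_zero⟩
  haveI : NeZero (m : Qb) := ⟨Nat.cast_ne_zero.2 hm.ne_zero⟩
  obtain ⟨ζ, hζ⟩ := HasEnoughRootsOfUnity.exists_primitiveRoot Qb m
  have hqd : ¬ q ∣ m := fun hd => hqm ((Nat.prime_dvd_prime_iff_eq hq hm).mp hd)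
  have hζA : ζ ∈ A := H05.mem_of_pow_eq_one A hm.ne_zero hζ.pow_eq_one
  have h1 : φ ζ = ζ ^ N := by
    apply rootsOfUnity_eq_of_residue_eq hq hA hqd _ _ (hφ ζ hζA)
    · rw [← map_pow, hζ.pow_eq_one, map_one]
    · rw [← pow_mul, mul_comm, pow_mul, hζ.pow_eq_one, one_pow]
  rw [cyclo_spec φ hζ.pow_eq_one] at h1
  have h2 : (ExtCitation.cycloChar m φ : ZMod m).val = N % m := by
    apply hζ.pow_inj (ZMod.val_lt _) (Nat.mod_lt _ hm.pos)
    rw [h1]
    conv_lhs => rw [← Nat.mod_add_div N m, pow_add, pow_mul, hζ.pow_eq_one, one_pow, mul_one]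
  rw [← ZMod.natCast_zmod_val ((ExtCitation.cycloChar m φ : (ZMod m)ˣ) : ZMod m), h2,
    ZMod.natCast_mod]

theorem chi_frob (ind : (ZMod m)ˣ →* Multiplicative (ZMod p)) {A : ValuationSubring Qb} {q : ℕ}
    (hq : q.Prime) (hA : A.LiesOverPrime q) (hqm : q ≠ m) {φ : GQ} {N : ℕ}
    (hφ : ∀ x ∈ A, φ x - x ^ N ∈ A.nonunits) (u : (ZMod m)ˣ) (hu : (u : ZMod m) = N) :
    chi ind φ = Multiplicative.toAdd (ind u) := by
  unfold chi
  congr 2
  apply Units.ext
  rw [cyclo_of_frob hq hA hqm hφ, hu]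

/-- `χ` is unramified outside `m` -/
theorem chi_inertia (ind : (ZMod m)ˣ →* Multiplicative (ZMod p)) {A : ValuationSubring Qb} {q : ℕ}
    (hq : q.Prime) (hA : A.LiesOverPrime q) (hqm : q ≠ m) {σ : GQ}
    (hσ : σ ∈ A.inertiaSubgroupIn ℚ) : chi ind σ = 0 := by
  have hm : m.Prime := Fact.out
  haveI : NeZero m := ⟨hm.ne_zero⟩
  haveI : NeZero (m : Qb) := ⟨Nat.cast_ne_zero.2 hm.ne_zero⟩
  obtain ⟨ζ, hζ⟩ := HasEnoughRootsOfUnity.exists_primitiveRoot Qb m
  have hqd : ¬ q ∣ m := fun hd => hqm ((Nat.prime_dvd_prime_iff_eq hq hm).mp hd)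
  have h1 := inertia_apply_rootOfUnity hq hA hqd hσ hζ.pow_eq_one
  rw [cyclo_spec σ hζ.pow_eq_one] at h1
  have h2 : (ExtCitation.cycloChar m σ : ZMod m).val = 1 := by
    apply hζ.pow_inj (ZMod.val_lt _) hm.one_lt
    rw [h1, pow_one]
  have h3 : ExtCitation.cycloChar m σ = 1 := by
    apply Units.ext
    rw [← ZMod.natCast_zmod_val ((ExtCitation.cycloChar m σ : (ZMod m)ˣ) : ZMod m), h2]
    simp
  unfold chi
  rw [h3, map_one]; rfl

/-- `χ` factors through `ℚ(ζ_m)` -/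
theorem chi_eq_of_fix (ind : (ZMod m)ˣ →* Multiplicative (ZMod p)) {ζ : Qb}
    (hζ : IsPrimitiveRoot ζ m) {σ : GQ} (hσ : σ ζ = ζ) : chi ind σ = 0 := by
  have hm : m.Prime := Fact.out
  haveI : NeZero m := ⟨hm.ne_zero⟩
  rw [cyclo_spec σ hζ.pow_eq_one] at hσ
  have h2 : (ExtCitation.cycloChar m σ : ZMod m).val = 1 := by
    apply hζ.pow_inj (ZMod.val_lt _) hm.one_lt
    rw [hσ, pow_one]
  have h3 : ExtCitation.cycloChar m σ = 1 := by
    apply Units.ext
    rw [← ZMod.natCast_zmod_val ((ExtCitation.cycloChar m σ : (ZMod m)ˣ) : ZMod m), h2]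
    simp
  unfold chi
  rw [h3, map_one]; rfl

/-- surjectivity of the cyclotomic character -/
theorem cyclo_surj (u : (ZMod m)ˣ) : ∃ σ : GQ, ExtCitation.cycloChar m σ = u := by
  have hg := Fermat.Agent.H51.isGalois_Qbar
  have hm : m.Prime := Fact.out
  haveI : NeZero m := ⟨hm.ne_zero⟩
  haveI : NeZero (m : Qb) := ⟨Nat.cast_ne_zero.2 hm.ne_zero⟩
  obtain ⟨ζ, hζ⟩ := HasEnoughRootsOfUnity.exists_primitiveRoot Qb m
  have hcop : Nat.Coprime (u : ZMod m).val m := ZMod.val_coe_unit_coprime u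
  have hζ' : IsPrimitiveRoot (ζ ^ (u : ZMod m).val) m := hζ.pow_of_coprime _ hcop
  have hconj : IsConjRoot ℚ ζ (ζ ^ (u : ZMod m).val) := by
    rw [isConjRoot_def, ← Polynomial.cyclotomic_eq_minpoly_rat hζ hm.pos,
      ← Polynomial.cyclotomic_eq_minpoly_rat hζ' hm.pos]
  have hnor : Normal ℚ Qb := inferInstance
  obtain ⟨σ, hσ⟩ := isConjRoot_iff_exists_algEquiv.mp hconj
  refine ⟨σ⁻¹, ?_⟩
  have h1 : σ⁻¹ ζ = ζ ^ (u : ZMod m).val := by
    have h2 : σ⁻¹ (σ (ζ ^ (u : ZMod m).val)) = ζ ^ (u : ZMod m).val := by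
      rw [← AlgEquiv.mul_apply, inv_mul_cancel, AlgEquiv.one_apply]
    rw [← h2, hσ]
  rw [cyclo_spec σ⁻¹ hζ.pow_eq_one] at h1
  apply Units.ext
  exact ZMod.val_injective m (hζ.pow_inj (ZMod.val_lt _) (ZMod.val_lt _) h1)

theorem exists_chi (ind : (ZMod m)ˣ →* Multiplicative (ZMod p)) (hs : Function.Surjective ind)
    (c : ZMod p) : ∃ σ : GQ, chi ind σ = c := by
  obtain ⟨u, hu⟩ := hs (Multiplicative.ofAdd c)
  obtain ⟨σ, hσ⟩ := cyclo_surj u
  exact ⟨σ, by unfold chi; rw [hσ, hu]; rfl⟩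

/-- `η = ∏_{ind u = 0} (1 - ζ^u)` : an element of `F₀` of valuation `1/p` at `m` -/
def eta (ind : (ZMod m)ˣ →* Multiplicative (ZMod p)) (ζ : Qb) : Qb :=
  ∏ u ∈ Finset.univ.filter (fun u : (ZMod m)ˣ => ind u = 1), (1 - ζ ^ (u : ZMod m).val)

/-- translates of `η` -/
def etaT (ind : (ZMod m)ˣ →* Multiplicative (ZMod p)) (ζ : Qb) (c : ZMod p) : Qb :=
  ∏ u ∈ Finset.univ.filter (fun u : (ZMod m)ˣ => ind u = Multiplicative.ofAdd c),
    (1 - ζ ^ (u : ZMod m).val)

theorem smul_etaT (ind : (ZMod m)ˣ →* Multiplicative (ZMod p)) {ζ : Qb}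
    (hζ : IsPrimitiveRoot ζ m) (σ : GQ) (c : ZMod p) :
    σ (etaT ind ζ c) = etaT ind ζ (chi ind σ + c) := by
  have hm : m.Prime := Fact.out
  haveI : NeZero m := ⟨hm.ne_zero⟩
  unfold etaT
  rw [map_prod]
  have h1 : ∀ u : (ZMod m)ˣ, σ (1 - ζ ^ (u : ZMod m).val) =
      1 - ζ ^ ((ExtCitation.cycloChar m σ * u : (ZMod m)ˣ) : ZMod m).val := by
    intro u
    rw [map_sub, map_one, map_pow, cyclo_spec σ hζ.pow_eq_one, ← pow_mul, Units.val_mul, ZMod.val_mul]
    congr 1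
    conv_lhs => rw [← Nat.mod_add_div ((ExtCitation.cycloChar m σ : ZMod m).val * (u : ZMod m).val) m,
      pow_add, pow_mul ζ m, hζ.pow_eq_one, one_pow, mul_one]
  refine Finset.prod_bij (fun u _ => ExtCitation.cycloChar m σ * u) ?_ ?_ ?_ ?_
  · intro u hu
    rw [Finset.mem_filter] at hu ⊢
    refine ⟨Finset.mem_univ _, ?_⟩
    rw [map_mul, hu.2]
    rfl
  · intro u _ v _ h
    exact mul_left_cancel h
  · intro v hv
    rw [Finset.mem_filter] at hv
    refine ⟨(ExtCitation.cycloChar m σ)⁻¹ * v, ?_, by rw [mul_inv_cancel_left]⟩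
    rw [Finset.mem_filter]
    refine ⟨Finset.mem_univ _, ?_⟩
    rw [map_mul, map_inv, hv.2]
    apply Multiplicative.toAdd.injective
    change -(chi ind σ) + (chi ind σ + c) = c
    ring
  · intro u _
    exact h1 u

theorem prod_units {ζ : Qb} (hζ : IsPrimitiveRoot ζ m) :
    ∏ u : (ZMod m)ˣ, (1 - ζ ^ (u : ZMod m).val) = (m : Qb) := by
  have hm : m.Prime := Fact.out
  haveI : NeZero m := ⟨hm.ne_zero⟩
  have h1 := Polynomial.eval_one_cyclotomic_prime (R := Qb) (p := m)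
  rw [Polynomial.cyclotomic_eq_prod_X_sub_primitiveRoots hζ, Polynomial.eval_prod] at h1
  rw [← h1]
  refine Finset.prod_bij (fun u _ => ζ ^ (u : ZMod m).val) ?_ ?_ ?_ ?_
  · intro u _
    rw [mem_primitiveRoots hm.pos]
    exact hζ.pow_of_coprime _ (ZMod.val_coe_unit_coprime u)
  · intro u _ v _ h
    apply Units.ext
    exact ZMod.val_injective m (hζ.pow_inj (ZMod.val_lt _) (ZMod.val_lt _) h)
  · intro μ hμ
    rw [mem_primitiveRoots hm.pos] at hμ
    obtain ⟨i, hi, hcop, rfl⟩ := hζ.isPrimitiveRoot_iff.mp hμ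
    refine ⟨ZMod.unitOfCoprime i hcop, Finset.mem_univ _, ?_⟩
    rw [ZMod.coe_unitOfCoprime, ZMod.val_natCast, Nat.mod_eq_of_lt hi]
  · intro u _
    simp

theorem prod_etaT (ind : (ZMod m)ˣ →* Multiplicative (ZMod p)) {ζ : Qb}
    (hζ : IsPrimitiveRoot ζ m) : ∏ c : ZMod p, etaT ind ζ c = (m : Qb) := by
  rw [← prod_units hζ]
  unfold etaT
  rw [← Finset.prod_fiberwise_of_maps_to (s := Finset.univ) (t := (Finset.univ : Finset (ZMod p)))
    (g := fun u : (ZMod m)ˣ => Multiplicative.toAdd (ind u)) (fun _ _ => Finset.mem_univ _)]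
  refine Finset.prod_congr rfl fun c _ => ?_
  refine Finset.prod_congr ?_ fun _ _ => rfl
  ext u
  simp only [Finset.mem_filter, Finset.mem_univ, true_and]
  constructor
  · intro h; rw [h]; rfl
  · intro h; rw [← h]; rfl

theorem card_fiber (ind : (ZMod m)ˣ →* Multiplicative (ZMod p)) (hs : Function.Surjective ind)
    (c : ZMod p) : p * (Finset.univ.filter (fun u : (ZMod m)ˣ => ind u =
      Multiplicative.ofAdd c)).card = m - 1 := by
  have hm : m.Prime := Fact.out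
  have h0 : ∀ c : ZMod p, (Finset.univ.filter (fun u : (ZMod m)ˣ => ind u =
      Multiplicative.ofAdd c)).card = (Finset.univ.filter (fun u : (ZMod m)ˣ => ind u =
      Multiplicative.ofAdd 0)).card := by
    intro c
    obtain ⟨v, hv⟩ := hs (Multiplicative.ofAdd c)
    refine Finset.card_bij (fun u _ => v⁻¹ * u) ?_ ?_ ?_
    · intro u hu
      rw [Finset.mem_filter] at hu ⊢
      refine ⟨Finset.mem_univ _, ?_⟩
      rw [map_mul, map_inv, hv, hu.2, inv_mul_cancel]; rfl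
    · intro u _ v _ h
      exact mul_left_cancel h
    · intro u hu
      rw [Finset.mem_filter] at hu
      refine ⟨v * u, ?_, by rw [inv_mul_cancel_left]⟩
      rw [Finset.mem_filter]
      refine ⟨Finset.mem_univ _, ?_⟩
      rw [map_mul, hv, hu.2]
      change Multiplicative.ofAdd (c + 0) = _
      rw [add_zero]
  have h1 : ∑ c : ZMod p, (Finset.univ.filter (fun u : (ZMod m)ˣ => ind u =
      Multiplicative.ofAdd c)).card = m - 1 := by
    rw [← Nat.totient_prime hm, ← ZMod.card_units_eq_totient, ← Finset.card_univ]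
    rw [Finset.card_eq_sum_card_fiberwise (s := Finset.univ) (t := (Finset.univ : Finset (ZMod p)))
      (f := fun u : (ZMod m)ˣ => Multiplicative.toAdd (ind u)) (fun _ _ => Finset.mem_univ _)]
    refine Finset.sum_congr rfl fun c _ => ?_
    congr 1
  rw [Finset.sum_congr rfl fun c _ => h0 c, Finset.sum_const, Finset.card_univ, ZMod.card,
    smul_eq_mul] at h1
  rw [h0 c]
  exact h1

/-- valuation of `η_c` at a place above `m` -/
theorem w_etaT (ind : (ZMod m)ˣ →* Multiplicative (ZMod p)) (hs : Function.Surjective ind)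
    {A : ValuationSubring Qb} {w : Qb → ℝ} (h : NVal A m w) {ζ : Qb}
    (hζ : IsPrimitiveRoot ζ m) (c : ZMod p) :
    etaT ind ζ c ≠ 0 ∧ w (etaT ind ζ c) = 1 / (p : ℝ) := by
  have hm : m.Prime := Fact.out
  have hp : p.Prime := Fact.out
  haveI : NeZero m := ⟨hm.ne_zero⟩
  have hne : ∀ u : (ZMod m)ˣ, 1 - ζ ^ (u : ZMod m).val ≠ 0 := by
    intro u h0
    have h1 : IsPrimitiveRoot (ζ ^ (u : ZMod m).val) m :=
      hζ.pow_of_coprime _ (ZMod.val_coe_unit_coprime u)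
    exact h1.ne_one hm.one_lt (sub_eq_zero.mp h0).symm
  constructor
  · exact Finset.prod_ne_zero_iff.mpr fun u _ => hne u
  unfold etaT
  rw [h.w_prod _ _ (fun u _ => hne u)]
  have h1 : ∀ u : (ZMod m)ˣ, w (1 - ζ ^ (u : ZMod m).val) = 1 / ((m : ℝ) - 1) := fun u =>
    h.w_one_sub hm (hζ.pow_of_coprime _ (ZMod.val_coe_unit_coprime u))
  rw [Finset.sum_congr rfl fun u _ => h1 u, Finset.sum_const, nsmul_eq_mul]
  have h2 := card_fiber ind hs c
  have h3 : (p : ℝ) * ((Finset.univ.filter (fun u : (ZMod m)ˣ => ind u =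
      Multiplicative.ofAdd c)).card : ℝ) = (m : ℝ) - 1 := by
    have h4 : ((m - 1 : ℕ) : ℝ) = (m : ℝ) - 1 := by
      rw [Nat.cast_sub hm.one_lt.le]; simp
    rw [← h4, ← h2]; push_cast; ring
  have hp0 : (p : ℝ) ≠ 0 := Nat.cast_ne_zero.mpr hp.ne_zero
  have hm0 : (m : ℝ) - 1 ≠ 0 := by
    have : (1 : ℝ) < m := by exact_mod_cast hm.one_lt
    linarith
  rw [mul_one_div, div_eq_div_iff hm0 hp0, ← h3]
  ring

end Fermat.Agent.L00.Recip
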