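import Fermat.Agent.L00.Recip2
import Fermat.Agent.CC.Iface2
set_option autoImplicit false
set_option linter.unusedSectionVars false
set_option linter.style.haveILetI false

/-!
# Local norms from the auxiliary field at `m` (lead, Program C [6])
-/

noncomputable section

open Fermat.Agent.H05 Fermat.Agent.TW Fermat.Agent.LF
open scoped NumberField Pointwise

namespace Fermat.Agent.L00.Recip

variable {p m : ℕ} [Fact p.Prime] [Fact m.Prime]

/-- kernel of `χ` -/
def kerChi (ind : (ZMod m)ˣ →* Multiplicative (ZMod p)) : Subgroup GQ :=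
  CC.chiKer (chi ind) (chi_mul ind)

theorem mem_kerChi {ind : (ZMod m)ˣ →* Multiplicative (ZMod p)} {σ : GQ} :
    σ ∈ kerChi ind ↔ chi ind σ = 0 := Iff.rfl

/-- the field `F₀` -/
def F0 (ind : (ZMod m)ˣ →* Multiplicative (ZMod p)) : IntermediateField ℚ Qb :=
  IntermediateField.fixedField (kerChi ind)

theorem exists_root (m : ℕ) [Fact m.Prime] : ∃ ζ : Qb, IsPrimitiveRoot ζ m := by
  have hm : m.Prime := Fact.out
  haveI : NeZero (m : Qb) := ⟨Nat.cast_ne_zero.2 hm.ne_zero⟩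
  exact HasEnoughRootsOfUnity.exists_primitiveRoot Qb m

theorem adjoin_le (ind : (ZMod m)ˣ →* Multiplicative (ZMod p)) {ζ : Qb}
    (hζ : IsPrimitiveRoot ζ m) :
    (IntermediateField.adjoin ℚ {ζ}).fixingSubgroup ≤ kerChi ind := by
  intro σ hσ
  exact chi_eq_of_fix ind hζ ((IntermediateField.mem_fixingSubgroup_iff _ σ).mp hσ ζ
    (IntermediateField.mem_adjoin_simple_self ℚ ζ))

theorem F0_le (ind : (ZMod m)ˣ →* Multiplicative (ZMod p)) {ζ : Qb}
    (hζ : IsPrimitiveRoot ζ m) : F0 ind ≤ IntermediateField.adjoin ℚ {ζ} := by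
  have hg := Fermat.Agent.H51.isGalois_Qbar
  intro x hx
  apply mem_of_fixed
  intro σ hσ
  exact (IntermediateField.mem_fixedField_iff _ _).mp hx σ (adjoin_le ind hζ hσ)

instance finF0 (ind : (ZMod m)ˣ →* Multiplicative (ZMod p)) : FiniteDimensional ℚ (F0 ind) := by
  obtain ⟨ζ, hζ⟩ := exists_root m
  haveI : FiniteDimensional ℚ (IntermediateField.adjoin ℚ {ζ}) :=
    IntermediateField.adjoin.finiteDimensional (Algebra.IsIntegral.isIntegral ζ)
  exact Module.Finite.of_injective (IntermediateField.inclusion (F0_le ind hζ)).toLinearMap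
    (IntermediateField.inclusion (F0_le ind hζ)).injective

theorem isOpen_kerChi (ind : (ZMod m)ˣ →* Multiplicative (ZMod p)) :
    IsOpen (kerChi ind : Set GQ) := by
  obtain ⟨ζ, hζ⟩ := exists_root m
  haveI : FiniteDimensional ℚ (IntermediateField.adjoin ℚ {ζ}) :=
    IntermediateField.adjoin.finiteDimensional (Algebra.IsIntegral.isIntegral ζ)
  exact Subgroup.isOpen_mono (adjoin_le ind hζ)
    (IntermediateField.fixingSubgroup_isOpen (IntermediateField.adjoin ℚ {ζ}))

theorem fixing_F0 (ind : (ZMod m)ˣ →* Multiplicative (ZMod p)) :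
    (F0 ind).fixingSubgroup = kerChi ind := by
  have hg := Fermat.Agent.H51.isGalois_Qbar
  exact InfiniteGalois.fixingSubgroup_fixedField
    (⟨kerChi ind, Subgroup.isClosed_of_isOpen _ (isOpen_kerChi ind)⟩ : ClosedSubgroup GQ)

theorem index_kerChi (ind : (ZMod m)ˣ →* Multiplicative (ZMod p)) (hs : Function.Surjective ind) :
    (kerChi ind).index = p := by
  let f : GQ →* Multiplicative (ZMod p) :=
    MonoidHom.mk' (fun σ => Multiplicative.ofAdd (chi ind σ)) (fun σ τ => by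
      rw [chi_mul]; rfl)
  have h1 : kerChi ind = f.ker := by
    ext σ
    rw [mem_kerChi, MonoidHom.mem_ker]
    exact ⟨fun h => congrArg Multiplicative.ofAdd h, fun h => Multiplicative.ofAdd.injective h⟩
  have h2 : Function.Surjective f := by
    intro c
    obtain ⟨σ, hσ⟩ := exists_chi ind hs (Multiplicative.toAdd c)
    exact ⟨σ, congrArg Multiplicative.ofAdd hσ⟩
  rw [h1, Subgroup.index_ker, MonoidHom.range_eq_top.mpr h2]
  rw [Nat.card_congr Subgroup.topEquiv.toEquiv, Nat.card_congr Multiplicative.toAdd, Nat.card_zmod]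

/-- `F₀ / ℚ` is cyclic of degree `p` -/
theorem cycExt (ind : (ZMod m)ˣ →* Multiplicative (ZMod p)) (hs : Function.Surjective ind) :
    CC.CycExt p ⊥ (F0 ind) where
  fK := inferInstance
  fF := inferInstance
  le := bot_le
  nor := by
    rw [fixing_F0]
    exact Subgroup.Normal.subgroupOf (CC.chiKer_normal (chi ind) (chi_mul ind)) _
  idx := by
    rw [fixing_F0, IntermediateField.fixingSubgroup_bot, Subgroup.relIndex_top_right]
    exact index_kerChi ind hs

section Local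

variable {A : ValuationSubring Qb} (ind : (ZMod m)ˣ →* Multiplicative (ZMod p))

theorem dec_eq : DK A (⊥ : IntermediateField ℚ Qb) = A.decompositionSubgroup ℚ := by
  unfold DK
  rw [IntermediateField.fixingSubgroup_bot, inf_top_eq]

/-- the values of `w` on `Z(A,ℚ)` are integers -/
theorem w_int {q : ℕ} (hq : q.Prime) (hA : A.LiesOverPrime q) {w : Qb → ℝ} (h : NVal A q w) {z : Qb}
    (hz : z ∈ ZK A ⊥) (hz0 : z ≠ 0) : ∃ n : ℤ, w z = n := by
  obtain ⟨π, u⟩ := LKum.exists_unif hq hA h (⊥ : IntermediateField ℚ Qb)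
  have h1 := LKum.exp_eq A hq hA h u
  have h2 := locDeg_bot hq hA
  unfold LKum.locDeg at h2
  have h3 : (Unr.primeOf A (⊥ : IntermediateField ℚ Qb)).ramificationIdx ℤ = 1 :=
    Nat.eq_one_of_mul_eq_one_right h2
  rw [h3, Nat.cast_one, one_mul] at h1
  obtain ⟨n, hn⟩ := u.val z hz hz0
  exact ⟨n, by rw [hn, h1, mul_one]⟩

theorem chi_ne (hA : A.LiesOverPrime m) (hs : Function.Surjective ind) :
    ∃ t ∈ DK A (⊥ : IntermediateField ℚ Qb), chi ind t ≠ 0 := by
  by_contra hcon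
  push Not at hcon
  have hm : m.Prime := Fact.out
  have hp : p.Prime := Fact.out
  obtain ⟨w, h⟩ := exists_NVal hm hA
  obtain ⟨ζ, hζ⟩ := exists_root m
  obtain ⟨h1, h2⟩ := w_etaT ind hs h hζ 0
  have h3 : etaT ind ζ 0 ∈ ZK A ⊥ := by
    rw [mem_ZK]
    intro σ hσ
    rw [smul_etaT ind hζ, hcon σ hσ, add_zero]
  obtain ⟨n, hn⟩ := w_int hm hA h h3 h1
  rw [h2] at hn
  have hp0 : (p : ℝ) ≠ 0 := Nat.cast_ne_zero.mpr hp.ne_zero
  have h4 : (1 : ℝ) = n * p := by
    rw [← hn, one_div, inv_mul_cancel₀ hp0]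
  have h5 : (1 : ℤ) = n * p := by exact_mod_cast h4
  have h6 : (p : ℤ) ∣ 1 := ⟨n, by rw [h5]; ring⟩
  exact hp.one_lt.ne' (by exact_mod_cast Int.eq_one_of_dvd_one (by positivity) h6)

theorem etaT_mem_F0 {ζ : Qb} (hζ : IsPrimitiveRoot ζ m) (c : ZMod p) : etaT ind ζ c ∈ F0 ind := by
  rw [F0, IntermediateField.mem_fixedField_iff]
  intro σ hσ
  rw [smul_etaT ind hζ, mem_kerChi.mp hσ, zero_add]

theorem chi_pow (t : GQ) (i : ℕ) : chi ind (t ^ i) = i * chi ind t := by
  induction i with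
  | zero =>
    rw [pow_zero, Nat.cast_zero, zero_mul]
    have := chi_mul ind 1 1
    rw [mul_one] at this
    simpa using this
  | succ i ih => rw [pow_succ, chi_mul, ih]; push_cast; ring

/-- `m` is a local norm -/
theorem norm_m {w : Qb → ℝ} (h : NVal A m w) (hs : Function.Surjective ind) {t : GQ}
    (ht : chi ind t ≠ 0) : CC.IsLocNorm p A (F0 ind) t (m : Qb) := by
  obtain ⟨ζ, hζ⟩ := exists_root m
  refine ⟨etaT ind ζ 0, (w_etaT ind hs h hζ 0).1, ?_, ?_⟩
  · intro σ hσ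
    exact (IntermediateField.mem_fixingSubgroup_iff _ σ).mp hσ.2 _ (etaT_mem_F0 ind hζ 0)
  · rw [← prod_etaT ind hζ]
    have h1 : ∀ i : ℕ, (t ^ i) (etaT ind ζ 0) = etaT ind ζ (i * chi ind t) := by
      intro i
      rw [smul_etaT ind hζ, chi_pow, add_zero]
    rw [Finset.prod_congr rfl fun i _ => h1 i]
    symm
    refine Finset.prod_bij (fun (i : ℕ) _ => (i : ZMod p) * chi ind t) ?_ ?_ ?_ ?_
    · intro i _; exact Finset.mem_univ _
    · intro i hi j hj hij
      rw [Finset.mem_range] at hi hj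
      have h2 := mul_right_cancel₀ ht hij
      rw [ZMod.natCast_eq_natCast_iff'] at h2
      rwa [Nat.mod_eq_of_lt hi, Nat.mod_eq_of_lt hj] at h2
    · intro c _
      refine ⟨(c * (chi ind t)⁻¹).val, ?_, ?_⟩
      · rw [Finset.mem_range]; exact ZMod.val_lt _
      · rw [ZMod.natCast_zmod_val, inv_mul_cancel_right₀ ht]
    · intro i _; rfl

variable {ind}

theorem norm_mul {F : IntermediateField ℚ Qb} {t : GQ} {a b : Qb} (ha : CC.IsLocNorm p A F t a)
    (hb : CC.IsLocNorm p A F t b) : CC.IsLocNorm p A F t (a * b) := by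
  obtain ⟨x, hx0, hx, rfl⟩ := ha
  obtain ⟨y, hy0, hy, rfl⟩ := hb
  refine ⟨x * y, mul_ne_zero hx0 hy0, fun σ hσ => by rw [map_mul, hx σ hσ, hy σ hσ], ?_⟩
  rw [← Finset.prod_mul_distrib]
  exact Finset.prod_congr rfl fun i _ => (map_mul _ _ _).symm

theorem norm_inv {F : IntermediateField ℚ Qb} {t : GQ} {a : Qb} (ha : CC.IsLocNorm p A F t a) :
    CC.IsLocNorm p A F t a⁻¹ := by
  obtain ⟨x, hx0, hx, rfl⟩ := ha
  refine ⟨x⁻¹, inv_ne_zero hx0, fun σ hσ => by rw [map_inv₀, hx σ hσ], ?_⟩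
  rw [← Finset.prod_inv_distrib]
  exact Finset.prod_congr rfl fun i _ => (map_inv₀ _ _).symm

theorem norm_one {F : IntermediateField ℚ Qb} {t : GQ} : CC.IsLocNorm p A F t 1 :=
  ⟨1, one_ne_zero, fun σ _ => map_one σ, by simp⟩

theorem norm_pow {F : IntermediateField ℚ Qb} {t : GQ} {a : Qb} (ha : CC.IsLocNorm p A F t a)
    (n : ℕ) : CC.IsLocNorm p A F t (a ^ n) := by
  induction n with
  | zero => rw [pow_zero]; exact norm_one
  | succ n ih => rw [pow_succ]; exact norm_mul ih ha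

theorem norm_zpow {F : IntermediateField ℚ Qb} {t : GQ} {a : Qb} (ha : CC.IsLocNorm p A F t a)
    (n : ℤ) : CC.IsLocNorm p A F t (a ^ n) := by
  obtain ⟨k, rfl | rfl⟩ := n.eq_nat_or_neg
  · rw [zpow_natCast]; exact norm_pow ha k
  · rw [zpow_neg, zpow_natCast]; exact norm_inv (norm_pow ha k)

/-- `p`-th powers are local norms -/
theorem norm_of_pow {K F : IntermediateField ℚ Qb} (hKF : K ≤ F) {t : GQ} (ht : t ∈ DK A K) {z : Qb}
    (hz : z ∈ ZK A K) (hz0 : z ≠ 0) : CC.IsLocNorm p A F t (z ^ p) := by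
  refine ⟨z, hz0, fun σ hσ => mem_ZK.mp hz σ (DK_mono hKF hσ), ?_⟩
  have h1 : ∀ i : ℕ, (t ^ i) z = z := fun i => mem_ZK.mp hz _ (pow_mem ht i)
  rw [Finset.prod_congr rfl fun i _ => h1 i, Finset.prod_const, Finset.card_range]

/-- one-units at `m ≠ p` are local norms -/
theorem norm_of_unit {K F : IntermediateField ℚ Qb} (hKF : K ≤ F) {t : GQ} (ht : t ∈ DK A K)
    {q : ℕ} (hq : q.Prime) (hA : A.LiesOverPrime q) {w : Qb → ℝ} (h : NVal A q w) (hqp : q ≠ p) {z : Qb}
    (hz : z ∈ ZK A K) (hz1 : Bs w 0 (z - 1)) : CC.IsLocNorm p A F t z := by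
  have hp : p.Prime := Fact.out
  obtain ⟨y, hy1, hy2, hy3⟩ := LKum.exists_root' h hq hA hp hqp (H := DK A K) DK_le_dec
    (y := z) (fun σ hσ => mem_ZK.mp hz σ hσ) hz1
  have hy0 : y ≠ 0 := by
    rintro rfl
    rcases hy3 with h3 | h3
    · rw [zero_sub, neg_eq_zero] at h3; exact one_ne_zero h3
    · rw [zero_sub, h.w_neg, h.log.one] at h3; exact lt_irrefl _ h3
  rw [← hy1]
  exact norm_of_pow hKF ht (mem_ZK.mpr hy2) hy0

end Local

end Fermat.Agent.L00.Recip
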