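import Fermat.Agent.L00.Recip3
set_option autoImplicit false
set_option linter.unusedSectionVars false
set_option linter.style.haveILetI false

/-!
# Local norms from the auxiliary field at `m`, II (lead, Program C [6])
-/

noncomputable section

open Fermat.Agent.H05 Fermat.Agent.TW Fermat.Agent.LF
open scoped NumberField Pointwise

namespace Fermat.Agent.L00.Recip

variable {p m : ℕ} [Fact p.Prime] [Fact m.Prime]

/-- integral elements of `Z(A,ℚ)` are congruent to rational integers -/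
theorem exists_int_approx {A : ValuationSubring Qb} {q : ℕ} (hq : q.Prime)
    (hA : A.LiesOverPrime q) {w : Qb → ℝ} (h : NVal A q w) {z : Qb} (hz : z ∈ ZK A ⊥)
    (hz0 : Bl w 0 z) : ∃ b : ℤ, Bs w 0 (z - b) := by
  obtain ⟨π, u⟩ := LKum.exists_unif hq hA h (⊥ : IntermediateField ℚ Qb)
  obtain ⟨c, hc⟩ := LKum.exists_approx hq hA h u hz hz0 1
  obtain ⟨r, hr⟩ := IntermediateField.mem_bot.mp (c : (⊥ : IntermediateField ℚ Qb)).2
  have h1 : IsIntegral ℤ (c : (⊥ : IntermediateField ℚ Qb)) := c.2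
  have h2 : IsIntegral ℤ (algebraMap ℚ Qb r) := by
    rw [hr]
    exact h1.map ((⊥ : IntermediateField ℚ Qb).val.restrictScalars ℤ)
  have h3 : IsIntegral ℤ r := (isIntegral_algebraMap_iff (algebraMap ℚ Qb).injective).mp h2
  obtain ⟨b, hb⟩ := IsIntegrallyClosed.isIntegral_iff.mp h3
  refine ⟨b, ?_⟩
  have h4 : ((c : (⊥ : IntermediateField ℚ Qb)) : Qb) = (b : Qb) := by
    rw [← hr, ← hb]; simp
  rw [h4, Nat.cast_one, one_mul] at hc
  exact h.Bs_comm (NVal.Bs_of hc u.pos)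

theorem bs_int_dvd {A : ValuationSubring Qb} {q : ℕ} (hq : q.Prime)
    (hA : A.LiesOverPrime q) {w : Qb → ℝ} (h : NVal A q w) {b : ℤ} (hb : Bs w 0 (b : Qb)) :
    (q : ℤ) ∣ b := by
  by_contra hcon
  have h1 := h.w_intCast hq hA hcon
  rcases hb with hb | hb
  · have : b = 0 := by exact_mod_cast hb
    exact hcon (this ▸ dvd_zero _)
  · rw [h1] at hb; exact lt_irrefl _ hb

/-- unit of `ZMod m` attached to an integer prime to `m` -/
def uz (b : ℤ) (hb : ¬ (m : ℤ) ∣ b) : (ZMod m)ˣ :=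
  Units.mk0 (b : ZMod m) (by rwa [Ne, ZMod.intCast_zmod_eq_zero_iff_dvd])

variable {ind : (ZMod m)ˣ →* Multiplicative (ZMod p)}

/-- an element congruent modulo `m` to a `p`-th power is a local norm -/
theorem norm_of_ind {A : ValuationSubring Qb} (hA : A.LiesOverPrime m) {w : Qb → ℝ}
    (h : NVal A m w) (hmp : m ≠ p)
    (hk : ∀ u, ind u = 1 ↔ ∃ y, y ^ p = u) {F : IntermediateField ℚ Qb} {t : GQ}
    (ht : t ∈ DK A (⊥ : IntermediateField ℚ Qb)) {z : Qb} (hz : z ∈ ZK A ⊥)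
    {b : ℤ} (hb : ¬ (m : ℤ) ∣ b) (hzb : Bs w 0 (z - b)) (hi : ind (uz b hb) = 1) :
    CC.IsLocNorm p A F t z := by
  have hm : m.Prime := Fact.out
  have hp : p.Prime := Fact.out
  obtain ⟨y, hy⟩ := (hk _).mp hi
  set Y : ℤ := ((y : ZMod m).val : ℤ) with hY
  have hYm : ((Y : ℤ) : ZMod m) = (y : ZMod m) := by
    rw [hY]; push_cast
    exact ZMod.natCast_zmod_val _
  have hY0 : ¬ (m : ℤ) ∣ Y := by
    rw [← ZMod.intCast_zmod_eq_zero_iff_dvd, hYm]
    exact y.ne_zero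
  have h1 : (m : ℤ) ∣ b - Y ^ p := by
    rw [← ZMod.intCast_zmod_eq_zero_iff_dvd]
    push_cast
    rw [hYm]
    have := congrArg Units.val hy
    push_cast at this
    rw [this]
    change ((b : ZMod m)) - (b : ZMod m) = 0
    rw [sub_self]
  obtain ⟨k, hk'⟩ := h1
  have hYw : w (Y : Qb) = 0 := h.w_intCast hm hA hY0
  have hYne : (Y : Qb) ≠ 0 := by
    rw [Int.cast_ne_zero]
    rintro h0
    exact hY0 (h0 ▸ dvd_zero _)
  have h2 : Bs w 0 (z - (Y : Qb) ^ p) := by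
    have e : z - (Y : Qb) ^ p = (z - b) + (m : Qb) * (k : Qb) := by
      have : ((b - Y ^ p : ℤ) : Qb) = ((m * k : ℤ) : Qb) := by rw [hk']
      push_cast at this
      rw [← this]; ring
    rw [e]
    refine h.Bs_add hzb (NVal.Bs_of (h.mul_right (t := 1) (Or.inr h.norm.ge) (h.intCast k)) one_pos)
  have hYp0 : (Y : Qb) ^ p ≠ 0 := pow_ne_zero _ hYne
  have h3 : Bs w 0 (z * ((Y : Qb) ^ p)⁻¹ - 1) := by
    have e : z * ((Y : Qb) ^ p)⁻¹ - 1 = (z - (Y : Qb) ^ p) * ((Y : Qb) ^ p)⁻¹ := by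
      rw [sub_mul, mul_inv_cancel₀ hYp0]
    rw [e]
    rcases h2 with h2 | h2
    · left; rw [h2, zero_mul]
    · by_cases h4 : z - (Y : Qb) ^ p = 0
      · left; rw [h4, zero_mul]
      · right
        rw [h.log.map_mul _ _ h4 (inv_ne_zero hYp0), LKum.w_inv h hYp0, h.log.pow hYne, hYw]
        linarith
  have hYZ : (Y : Qb) ∈ ZK A ⊥ := intCast_mem _ Y
  have h4 : CC.IsLocNorm p A F t (z * ((Y : Qb) ^ p)⁻¹) :=
    norm_of_unit bot_le ht hm hA h hmp (mul_mem hz (inv_mem (pow_mem hYZ p))) h3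
  have h5 : CC.IsLocNorm p A F t ((Y : Qb) ^ p) := norm_of_pow bot_le ht hYZ hYne
  have h6 := norm_mul h4 h5
  rwa [inv_mul_cancel_right₀ hYp0] at h6

theorem ind_zpow_exists (v : Multiplicative (ZMod p)) (hv : v ≠ 1) (c : Multiplicative (ZMod p)) :
    ∃ e : ℕ, c * v ^ e = 1 := by
  have hv0 : Multiplicative.toAdd v ≠ 0 := fun h0 => hv (Multiplicative.toAdd.injective h0)
  refine ⟨(-(Multiplicative.toAdd c) * (Multiplicative.toAdd v)⁻¹).val, ?_⟩
  apply Multiplicative.toAdd.injective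
  rw [toAdd_mul, toAdd_pow, toAdd_one, nsmul_eq_mul, ZMod.natCast_zmod_val, mul_assoc,
    inv_mul_cancel₀ hv0]
  ring

/-- **local norms at `m`**: the residue index of a local norm vanishes -/
theorem ind_of_norm (hGe : CC.NormIndexGe p) (hs : Function.Surjective ind)
    (hk : ∀ u, ind u = 1 ↔ ∃ y, y ^ p = u) (hmp : m ≠ p)
    {A : ValuationSubring Qb} (hA : A.LiesOverPrime m) {w : Qb → ℝ} (h : NVal A m w)
    {t : GQ} (ht : t ∈ DK A (⊥ : IntermediateField ℚ Qb)) (hchi : chi ind t ≠ 0)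
    {z : Qb} (hz : z ∈ ZK A ⊥)
    {b : ℤ} (hb : ¬ (m : ℤ) ∣ b) (hzb : Bs w 0 (z - b))
    (hn : CC.IsLocNorm p A (F0 ind) t z) : ind (uz b hb) = 1 := by
  by_contra hcon
  have hm : m.Prime := Fact.out
  have hp : p.Prime := Fact.out
  have htF : t ∉ (F0 ind).fixingSubgroup := by
    rw [fixing_F0, mem_kerChi]; exact hchi
  obtain ⟨s, hsK, hs0, hsn⟩ := hGe A m hm hA ⊥ (F0 ind) (cycExt ind hs) t ht htF
  apply hsn
  have hsZ : s ∈ ZK A ⊥ := le_ZK hsK
  obtain ⟨j, hj⟩ := w_int hm hA h hsZ hs0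
  have hm0 : (m : Qb) ≠ 0 := Nat.cast_ne_zero.mpr hm.ne_zero
  have hmZ : (m : Qb) ∈ ZK A ⊥ := natCast_mem _ m
  set s' : Qb := s * (m : Qb) ^ (-j) with hs'
  have hs'Z : s' ∈ ZK A ⊥ := mul_mem hsZ (zpow_mem hmZ _)
  have hs'0 : s' ≠ 0 := mul_ne_zero hs0 (zpow_ne_zero _ hm0)
  have hws' : w s' = 0 := by
    rw [hs', h.log.map_mul _ _ hs0 (zpow_ne_zero _ hm0), LKum.w_zpow h hm0, h.norm, hj]
    push_cast; ring
  obtain ⟨c, hc⟩ := exists_int_approx hm hA h hs'Z (Or.inr hws'.ge)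
  have hcm : ¬ (m : ℤ) ∣ c := by
    rintro ⟨k, hk'⟩
    have h1 : Bs w 0 ((c : ℤ) : Qb) := by
      rw [hk']
      push_cast
      exact NVal.Bs_of (h.mul_right (t := 1) (Or.inr h.norm.ge) (h.intCast k)) one_pos
    have h2 := h.Bs_add hc h1
    rw [sub_add_cancel] at h2
    rcases h2 with h2 | h2
    · exact hs'0 h2
    · rw [hws'] at h2; exact lt_irrefl _ h2
  obtain ⟨e, he⟩ := ind_zpow_exists (ind (uz b hb)) hcon (ind (uz c hcm))
  -- `s' z ^ e` is a local norm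
  have hbc : ¬ (m : ℤ) ∣ c * b ^ e := by
    intro hd
    rcases (Nat.prime_iff_prime_int.mp hm).dvd_or_dvd hd with h1 | h1
    · exact hcm h1
    · exact hb ((Nat.prime_iff_prime_int.mp hm).dvd_of_dvd_pow h1)
  have hzw : Bl w 0 z := by
    have h1 := h.add (NVal.Bs_bl hzb) (h.intCast b)
    rwa [sub_add_cancel] at h1
  have hpow : ∀ e : ℕ, Bs w 0 (z ^ e - (b : Qb) ^ e) ∧ Bl w 0 (z ^ e) := by
    intro e
    induction e with
    | zero =>
      rw [pow_zero, pow_zero, sub_self]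
      exact ⟨NVal.Bs_zero 0, h.one⟩
    | succ e ih =>
      refine ⟨?_, ?_⟩
      · have e1 : z ^ (e + 1) - (b : Qb) ^ (e + 1) =
            z ^ e * (z - b) + (z ^ e - (b : Qb) ^ e) * b := by ring
        rw [e1]
        refine h.Bs_add ?_ ?_
        · rw [NVal.Bs_iff] at hzb ⊢
          obtain ⟨s, hs1, hs2⟩ := hzb
          exact ⟨s, hs1, h.mul_left ih.2 hs2⟩
        · have h7 := ih.1
          rw [NVal.Bs_iff] at h7 ⊢
          obtain ⟨s, hs1, hs2⟩ := h7
          exact ⟨s, hs1, h.mul_right hs2 (h.intCast b)⟩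
      · rw [pow_succ]
        have := h.mul ih.2 hzw
        rwa [add_zero] at this
  have h8 : Bs w 0 (s' * z ^ e - ((c * b ^ e : ℤ) : Qb)) := by
    have e1 : s' * z ^ e - ((c * b ^ e : ℤ) : Qb) =
        s' * (z ^ e - (b : Qb) ^ e) + (s' - c) * (b : Qb) ^ e := by push_cast; ring
    rw [e1]
    refine h.Bs_add ?_ ?_
    · have h7 := (hpow e).1
      rw [NVal.Bs_iff] at h7 ⊢
      obtain ⟨s, hs1, hs2⟩ := h7
      exact ⟨s, hs1, h.mul_left (Or.inr hws'.ge) hs2⟩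
    · rw [NVal.Bs_iff] at hc ⊢
      obtain ⟨s, hs1, hs2⟩ := hc
      refine ⟨s, hs1, h.mul_right hs2 ?_⟩
      have := h.pow (h.intCast b) e
      rwa [mul_zero] at this
  have hind : ind (uz (c * b ^ e) hbc) = 1 := by
    have h9 : uz (c * b ^ e) hbc = uz c hcm * uz b hb ^ e := by
      apply Units.ext
      simp [uz]
    rw [h9, map_mul, map_pow, he]
  have h9 : CC.IsLocNorm p A (F0 ind) t (s' * z ^ e) :=
    norm_of_ind hA h hmp hk ht (mul_mem hs'Z (pow_mem hz e)) hbc h8 hind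
  have hz0 : z ≠ 0 := by
    obtain ⟨x, hx0, -, hx⟩ := hn
    rw [hx, Finset.prod_ne_zero_iff]
    intro i _
    exact (map_ne_zero _).mpr hx0
  have h10 : CC.IsLocNorm p A (F0 ind) t s' := by
    have := norm_mul h9 (norm_inv (norm_pow hn e))
    rwa [mul_inv_cancel_right₀ (pow_ne_zero _ hz0)] at this
  have h11 := norm_mul h10 (norm_zpow (norm_m ind h hs hchi) j)
  have h12 : s' * (m : Qb) ^ j = s := by
    rw [hs', mul_assoc, ← zpow_add₀ hm0, neg_add_cancel, zpow_zero, mul_one]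
  rwa [h12] at h11

end Fermat.Agent.L00.Recip
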