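import Fermat.Agent.CFT.HasseP
import Fermat.Agent.CC.LocInv
set_option autoImplicit false
set_option linter.unusedSectionVars false
set_option linter.style.haveILetI false
set_option maxHeartbeats 400000

/-!
# Reciprocity: killing local classes (lead, Program C [6])
-/

noncomputable section

namespace Fermat.Agent.L00.Recip

open Fermat.Agent.CC Fermat.Agent.CFT
open Fermat.Agent.LF (DK ZK mem_ZK)
open Fermat.Agent.TW (NVal Bl Bs)

/-- functoriality of restrictions -/
theorem resH2_of_factor {G G' A : Type*} [Group G] [Group G'] [AddCommGroup A]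
    [DistribMulAction G A] [DistribMulAction G' A] {𝓛 : Lev G} {𝓛' : Lev G'}
    (i : G' →* G) (hi : Lev.Cont i 𝓛' 𝓛) (hc : Compat i (AddMonoidHom.id A)) (N : Subgroup G)
    (ψ : N →* G') (hψ : Lev.Cont ψ (𝓛.sub N) 𝓛') (hcomp : ∀ n, i (ψ n) = n)
    (x : H2 𝓛 A) (hx : H2map i hi (AddMonoidHom.id A) hc x = 0) : resH2 𝓛 N A x = 0 := by
  have hc' : Compat ψ (AddMonoidHom.id A) := by
    intro g a
    have h1 := hc (ψ g) a
    change i (ψ g) • a = ψ g • a at h1
    change ψ g • a = g • a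
    rw [← h1, hcomp]
    rfl
  have h1 : resH2 𝓛 N A x = H2map ψ hψ (AddMonoidHom.id A) hc'
      (H2map i hi (AddMonoidHom.id A) hc x) := by
    obtain ⟨f, rfl⟩ := H2.mk_surjective x
    change H2.mk _ _ _ = H2.mk _ _ _
    congr 1
    apply Subtype.ext
    funext g h
    change f.1 (g : G) (h : G) = f.1 (i (ψ g)) (i (ψ h))
    rw [hcomp, hcomp]
  rw [h1, hx, map_zero]

/-- **a local class dies in every cyclic extension of degree `p`** -/
theorem loc_res_zero {p : ℕ} [Fact p.Prime] {A : ValuationSubring Qb} {q : ℕ}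
    (hq : q.Prime) (hA : A.LiesOverPrime q) (hLe : NormIndexLe p) (hGe : NormIndexGe p)
    {K : IntermediateField ℚ Qb} (hK : FiniteDimensional ℚ K)
    {G : Type} [Group G] [MulSemiringAction G Qb] {𝓛 : Lev G} {φ : G →* GQ}
    (h : Act (DK A K) G 𝓛 φ)
    (χ : G → ZMod p) (hχ : ∀ g h, χ (g * h) = χ g + χ h) (hc : 𝓛.Const1 χ) (g₀ : G)
    (hg₀ : χ g₀ ≠ 0) (z : H2 𝓛 (TorP p (UL Qb))) : resH2 𝓛 (chiKer χ hχ) _ z = 0 := by
  have hp : p.Prime := Fact.out
  obtain ⟨H, hH, hcop, hHζ⟩ := h.exists_cop p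
  have hint : IsIntegral ℚ (zetaT p) := Algebra.IsIntegral.isIntegral _
  have hEfd : FiniteDimensional ℚ (IntermediateField.adjoin ℚ {zetaT p}) :=
    IntermediateField.adjoin.finiteDimensional hint
  have hHE : H.map φ ≤ (IntermediateField.adjoin ℚ {zetaT p}).fixingSubgroup := by
    rintro _ ⟨s, hs, rfl⟩
    rw [IntermediateField.mem_fixingSubgroup_iff]
    intro x hx
    have h2 : IntermediateField.adjoin ℚ {zetaT p} ≤
        IntermediateField.fixedField (Subgroup.zpowers (φ s)) := by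
      rw [IntermediateField.adjoin_simple_le_iff, IntermediateField.mem_fixedField_iff]
      intro f hf
      obtain ⟨k, rfl⟩ := Subgroup.mem_zpowers_iff.mp hf
      have h3 : φ s ∈ MulAction.stabilizer GQ (zetaT p) := hHζ s hs
      exact (MulAction.stabilizer GQ (zetaT p)).zpow_mem h3 k
    have h4 := h2 hx
    rw [IntermediateField.mem_fixedField_iff] at h4
    exact h4 _ (Subgroup.mem_zpowers _)
  obtain ⟨K', hK', hKK, hEK, hHK⟩ := h.exists_DK' rfl hK H hH _ hEfd hHE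
  have hAct' : Act (DK A K') H (𝓛.sub H) (φ.comp H.subtype) := by rw [← hHK]; exact h.sub H
  -- the character is nonzero on `H`
  have hindex : (chiKer χ hχ).index = p := by
    let ψ : G →* Multiplicative (ZMod p) :=
      { toFun := fun g => Multiplicative.ofAdd (χ g)
        map_one' := by rw [chi_one χ hχ]; rfl
        map_mul' := fun g g' => by rw [hχ]; rfl }
    have h6 : ψ.ker = chiKer χ hχ := by
      ext g
      rw [MonoidHom.mem_ker]
      exact ofAdd_eq_one
    have h7 : Function.Surjective ψ := by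
      intro y
      refine ⟨g₀ ^ ((Multiplicative.toAdd y) * (χ g₀)⁻¹).val, ?_⟩
      change Multiplicative.ofAdd (χ _) = y
      rw [CC.chi_pow χ hχ]
      simp [hg₀]
    rw [← h6, Subgroup.index_ker, MonoidHom.range_eq_top.mpr h7,
      Nat.card_congr (Subgroup.topEquiv (G := Multiplicative (ZMod p))).toEquiv,
      Nat.card_congr Multiplicative.toAdd, Nat.card_zmod]
  have hHχ : ∃ s ∈ H, χ s ≠ 0 := by
    by_contra hcon
    push Not at hcon
    have hle : H ≤ chiKer χ hχ := fun s hs => hcon s hs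
    have h8 : (chiKer χ hχ).index ∣ H.index := Subgroup.index_dvd_of_le hle
    rw [hindex] at h8
    have h9 : H.index.Coprime p := hcop
    exact hp.one_lt.ne' (Nat.eq_one_of_dvd_coprimes h9 h8 dvd_rfl)
  obtain ⟨s, hs, hχs⟩ := hHχ
  let χ' : H → ZMod p := χ ∘ Subtype.val
  have hχ' : ∀ g h : H, χ' (g * h) = χ' g + χ' h := fun g h => hχ g h
  have hc' : (𝓛.sub H).Const1 χ' := hc.precomp (𝓛.cont_subtype H)
  -- local class field theory on `H`
  have F := locLCF hq hA hLe hGe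
  have hQ : QLoc p A H (𝓛.sub H) :=
    ⟨inferInstance, K', φ.comp H.subtype, hK',
      ⟨zetaT p, hEK (IntermediateField.mem_adjoin_simple_self ℚ _), zetaT_prim p⟩, hAct', rfl⟩
  have htriv : ∀ (g : H) (t : TorP p (UL Qb)), g • t = t := F.trivT hQ
  let f : Z1 (𝓛.sub H) (TorP p (UL Qb)) :=
    ⟨fun g => (tauT p).symm (χ' g), hc'.comp _, fun g h => by
      change (tauT p).symm (χ' (g * h)) = (tauT p).symm (χ' g) + g • (tauT p).symm (χ' h)
      rw [htriv, hχ', map_add]⟩
  have hf0 : f ≠ 0 := by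
    intro h0
    have h1 : (tauT p).symm (χ' ⟨s, hs⟩) = 0 := congrFun (congrArg Subtype.val h0) ⟨s, hs⟩
    rw [EmbeddingLike.map_eq_zero_iff] at h1
    exact hχs h1
  have hz := F.mem_CC_all (tauT p) hQ hf0 (resH2 𝓛 H _ z)
  obtain ⟨x, hx⟩ := (F.mem_CC (tauT p) hQ).mp hz
  obtain ⟨x0, rfl⟩ := H1.mk_surjective x
  have hzero : resH2 (𝓛.sub H) (chiKer χ' hχ') _ (resH2 𝓛 H _ z) = 0 := by
    rw [← hx]
    change resH2 (𝓛.sub H) (chiKer χ' hχ') _ (H2.mk _ _ _) = 0
    change H2.mk _ _ _ = 0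
    rw [H2.mk_eq_zero]
    refine ⟨fun _ => 0, ((𝓛.sub H).sub (chiKer χ' hχ')).const1_const 0, fun g h => ?_⟩
    change mulPair (tauT p) (x0.1 (g : H)) ((g : H) • (tauT p).symm (χ' (h : H))) = d1 _ g h
    have h1 : χ' (h : H) = 0 := h.2
    rw [h1, map_zero, smul_zero, map_zero]
    simp [d1]
  -- back to `chiKer χ`
  have hH1 : resH2 𝓛 (H ⊓ chiKer χ hχ) _ z = 0 := by
    let ψ : (H ⊓ chiKer χ hχ : Subgroup G) →* chiKer χ' hχ' :=
      { toFun := fun n => ⟨⟨(n : G), n.2.1⟩, n.2.2⟩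
        map_one' := rfl
        map_mul' := fun _ _ => rfl }
    have hψ : Lev.Cont ψ (𝓛.sub (H ⊓ chiKer χ hχ)) ((𝓛.sub H).sub (chiKer χ' hχ')) := by
      rintro U ⟨V, ⟨W, hW, hWV⟩, hVU⟩
      exact ⟨W, hW, fun n hn => hVU (hWV hn)⟩
    have h1 : resH2 𝓛 (H ⊓ chiKer χ hχ) (TorP p (UL Qb)) z =
        H2map ψ hψ (AddMonoidHom.id _) (fun _ _ => rfl)
          (resH2 (𝓛.sub H) (chiKer χ' hχ') _ (resH2 𝓛 H _ z)) := by
      obtain ⟨f, rfl⟩ := H2.mk_surjective z
      rfl
    rw [h1, hzero, map_zero]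
  have h2 := resH2_subgroupOf (inf_le_right : H ⊓ chiKer χ hχ ≤ chiKer χ hχ) z hH1
  have hopen : (𝓛.sub (chiKer χ hχ)).isOpen ((H ⊓ chiKer χ hχ).subgroupOf (chiKer χ hχ)) :=
    ⟨H, hH, fun n hn => ⟨hn, n.2⟩⟩
  refine resH2_injective hopen (p := p) TorP.killed ?_ (by rw [h2, map_zero])
  -- the index
  have hHi : H.index ≠ 0 := by
    have := 𝓛.fin H hH
    exact Subgroup.FiniteIndex.index_ne_zero
  have hrel1 : (H ⊓ chiKer χ hχ).relIndex (chiKer χ hχ) * (chiKer χ hχ).index =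
      (H ⊓ chiKer χ hχ).index := Subgroup.relIndex_mul_index inf_le_right
  have hrel2 : (H ⊓ chiKer χ hχ).relIndex H * H.index = (H ⊓ chiKer χ hχ).index :=
    Subgroup.relIndex_mul_index inf_le_left
  have hrel3 : (H ⊓ chiKer χ hχ).relIndex H ∣ p := by
    have h5 := Subgroup.relIndex_dvd_index_of_normal (chiKer χ hχ) H
    rw [hindex] at h5
    rw [Subgroup.inf_relIndex_left]
    exact h5
  have h3 : (H ⊓ chiKer χ hχ).relIndex (chiKer χ hχ) ∣ H.index := by
    have h4 : (H ⊓ chiKer χ hχ).relIndex (chiKer χ hχ) * p ∣ H.index * p := by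
      rw [hindex] at hrel1
      rw [hrel1, ← hrel2, mul_comm]
      exact mul_dvd_mul_left _ hrel3
    exact Nat.dvd_of_mul_dvd_mul_right hp.pos h4
  exact Nat.Coprime.coprime_dvd_left h3 hcop

end Fermat.Agent.L00.Recip
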