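import Fermat.Agent.L00.Recip4
import Fermat.Agent.L00.Recip5
import Fermat.Agent.CC.Iface3
set_option autoImplicit false
set_option linter.unusedSectionVars false
set_option linter.style.haveILetI false
set_option maxHeartbeats 400000

/-!
# Reciprocity: the global class is a symbol (lead, Program C [6])
-/

noncomputable section

namespace Fermat.Agent.L00.Recip

open Fermat.Agent.CC Fermat.Agent.CFT Fermat.Agent.H05
open Fermat.Agent.LF (DK ZK mem_ZK)
open Fermat.Agent.TW (NVal Bl Bs)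
open scoped Pointwise

/-- inflation to all levels -/
def toG (S : Finset Nat.Primes) (p : ℕ) : H2 (levS S) (Mu p) →+ H2 lev (Mu p) :=
  H2map (MonoidHom.id GQ) (cont_levS S) (AddMonoidHom.id _) (fun _ _ => rfl)

theorem resH2_toG (S : Finset Nat.Primes) (p : ℕ) (A : ValuationSubring Qb)
    (x : H2 (levS S) (Mu p)) :
    resH2 lev (DK A ⊥) (Mu p) (toG S p x) = loc2 (cont_D S A ⊥) (Mu p) x := by
  obtain ⟨f, rfl⟩ := H2.mk_surjective x
  rfl

theorem inertia_trivial {p : ℕ} [Fact p.Prime] {A : ValuationSubring Qb} {q : ℕ}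
    (hq : q.Prime) (hA : A.LiesOverPrime q) (hqp : q ≠ p) {σ : GQ}
    (hσ : σ ∈ A.inertiaSubgroupIn ℚ) (t : Mu p) : σ • t = t := by
  have hp : p.Prime := Fact.out
  apply TorP.incl_injective
  rw [TorP.incl_smul]
  apply UL.ext
  rw [UL.val_smul]
  have h1 : p • (TorP.incl p (UL Qb) t) = 0 := TorP.incl_mem _
  have h2 := congrArg UL.val h1
  rw [UL.val_nsmul, UL.val_zero] at h2
  have hqd : ¬ q ∣ p := fun hd => hqp ((Nat.prime_dvd_prime_iff_eq hq hp).mp hd)
  exact inertia_apply_rootOfUnity hq hA hqd hσ h2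

/-- classes unramified outside `S` die at places outside `S` -/
theorem unr_vanish {p : ℕ} [Fact p.Prime] {S : Finset Nat.Primes} (x : H2 (levS S) (Mu p))
    {A : ValuationSubring Qb} {q : ℕ} (hq : q.Prime) (hA : A.LiesOverPrime q) (hqp : q ≠ p)
    (hqS : ∀ ℓ ∈ S, ((ℓ : Nat.Primes) : ℕ) ≠ q) : loc2 (cont_D S A ⊥) (Mu p) x = 0 := by
  have hp : p.Prime := Fact.out
  obtain ⟨f, rfl⟩ := H2.mk_surjective x
  obtain ⟨φ, P⟩ := exists_procyc hq hA (⊥ : IntermediateField ℚ Qb)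
  have hfin : Finite (Mu p) := Finite.of_equiv _ (tauT p).symm.toEquiv
  let f' : Z2 (lev.sub (DK A ⊥)) (Mu p) :=
    Z2map (DK A ⊥).subtype (cont_D S A ⊥) (AddMonoidHom.id _) (fun _ _ => rfl) f
  obtain ⟨U, ⟨F, hF, hFU⟩, hU⟩ := f.2.1
  have hI : A.inertiaSubgroupIn ℚ ≤ U :=
    (hF.2 ⟨q, hq⟩ (fun h => hqS _ h rfl) A hA).trans hFU
  obtain ⟨ψ, hψ, -, h⟩ := P.ur2 hp.pos TorP.killed (TorP.smooth (Act.self (DK A ⊥)).smooth)
    (fun i hi m => inertia_trivial hq hA hqp hi.1 m) f'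
    (fun g h i hi j hj => hU g h i (hI hi.1) j (hI hj.1))
  exact H2.mk_eq_zero.mpr ⟨ψ, hψ, h⟩

theorem res_factor {G' M : Type*} [Group G'] [AddCommGroup M] [DistribMulAction GQ M]
    [DistribMulAction G' M] {𝓛' : Lev G'} (i : G' →* GQ) (hi : Lev.Cont i 𝓛' lev)
    (hc : Compat i (AddMonoidHom.id M)) (H : Subgroup GQ) (N : Subgroup H) (ψ : N →* G')
    (hψ : Lev.Cont ψ ((lev.sub H).sub N) 𝓛') (hcomp : ∀ n, i (ψ n) = ((n : H) : GQ))
    (x : H2 lev M) (hx : H2map i hi (AddMonoidHom.id M) hc x = 0) :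
    resH2 (lev.sub H) N M (resH2 lev H M x) = 0 := by
  have hc' : Compat ψ (AddMonoidHom.id M) := by
    intro g a
    have h1 := hc (ψ g) a
    change i (ψ g) • a = ψ g • a at h1
    change ψ g • a = g • a
    rw [← h1, hcomp]
    rfl
  have h1 : resH2 (lev.sub H) N M (resH2 lev H M x) = H2map ψ hψ (AddMonoidHom.id M) hc'
      (H2map i hi (AddMonoidHom.id M) hc x) := by
    obtain ⟨f, rfl⟩ := H2.mk_surjective x
    change H2.mk _ _ _ = H2.mk _ _ _
    congr 1
    apply Subtype.ext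
    funext g h
    change f.1 ((g : H) : GQ) ((h : H) : GQ) = f.1 (i (ψ g)) (i (ψ h))
    rw [hcomp, hcomp]
  rw [h1, hx, map_zero]

theorem actG : Act ⊤ GQ lev (MonoidHom.id GQ) where
  inj := Function.injective_id
  act _ _ := rfl
  range := MonoidHom.range_eq_top.mpr Function.surjective_id
  levEq := by
    have h2 : ∀ 𝓜 𝓝 : Lev GQ, 𝓜.isOpen = 𝓝.isOpen → 𝓜 = 𝓝 := by
      intro 𝓜 𝓝 h
      cases 𝓜; cases 𝓝
      congr
    refine h2 _ _ (funext fun V => propext ⟨fun hV => ⟨V, hV, le_rfl⟩, ?_⟩)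
    rintro ⟨W, hW, hWV⟩
    exact lev.mono _ _ hW hWV

variable {p m : ℕ} [Fact p.Prime] [Fact m.Prime]

theorem chi_const (ind : (ZMod m)ˣ →* Multiplicative (ZMod p)) : lev.Const1 (chi ind) := by
  refine ⟨kerChi ind, ⟨F0 ind, inferInstance, (fixing_F0 ind).le⟩, fun g s hs => ?_⟩
  rw [chi_mul, mem_kerChi.mp hs, add_zero]

theorem frob_nonunits {A : ValuationSubring Qb} {q : ℕ} {φ : GQ} (hφ : A.IsFrobeniusAt φ q) (x : Qb)
    (hx : x ∈ A) : φ x - x ^ q ∈ A.nonunits := by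
  obtain ⟨h1, h2⟩ := hφ
  have h3 := h2 (IsLocalRing.residue A ⟨x, hx⟩)
  have hσx : φ x ∈ A := by
    have h5 : φ • A = A := h1
    rw [← h5]
    exact ValuationSubring.smul_mem_pointwise_smul φ x A hx
  have h4 : IsLocalRing.residue A ⟨φ x, hσx⟩ = IsLocalRing.residue A (⟨x, hx⟩ ^ q) := by
    rw [map_pow]
    exact h3
  rw [← sub_eq_zero, ← map_sub, IsLocalRing.residue_eq_zero_iff,
    ← ValuationSubring.coe_mem_nonunits_iff] at h4
  exact h4

/-- the global class is a symbol -/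
theorem exists_a (hHN : HasseNorm p) (hLe : NormIndexLe p) (hGe : NormIndexGe p)
    {S : Finset Nat.Primes} (hpS : pP p ∈ S) (x : H2 (levS S) (Mu p))
    (ind : (ZMod m)ˣ →* Multiplicative (ZMod p)) (hs : Function.Surjective ind)
    (hmS : ∀ ℓ ∈ S, ((ℓ : Nat.Primes) : ℕ) ≠ m)
    (hind : ∀ ℓ ∈ S, ∀ u : (ZMod m)ˣ, (u : ZMod m) = (((ℓ : Nat.Primes) : ℕ) : ZMod m) →
      ind u ≠ 1) :
    ∃ a : H0 GQ (UL Qb), toG S p x =
      kc actG.smooth (ULdiv p) (chi ind) (chi_mul ind) (chi_const ind) a := by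
  obtain ⟨t, ht⟩ := exists_chi ind hs 1
  refine exists_kc actG.smooth (ULdiv p) (chi ind) (chi_mul ind) (chi_const ind) t ht actG.h90
    (Act.self _).h90 _ ?_
  have hker : chiKer (chi ind) (chi_mul ind) = (F0 ind).fixingSubgroup := by
    rw [fixing_F0]; rfl
  have hAct : Act (F0 ind).fixingSubgroup (chiKer (chi ind) (chi_mul ind))
      (lev.sub (chiKer (chi ind) (chi_mul ind))) (chiKer (chi ind) (chi_mul ind)).subtype := by
    rw [← hker]; exact Act.self _
  refine hasse_principle hHN (cycExt ind hs).fF hAct _ fun A q hq hA => ?_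
  by_cases hqS : ∃ ℓ ∈ S, ((ℓ : Nat.Primes) : ℕ) = q
  · obtain ⟨ℓ, hℓ, rfl⟩ := hqS
    obtain ⟨φ, hφ⟩ := exists_isFrobeniusAt hq hA
    have hφD : φ ∈ DK A (⊥ : IntermediateField ℚ Qb) := by rw [dec_eq]; exact hφ.1
    have hunit : IsUnit (((ℓ : ℕ)) : ZMod m) := by
      rw [isUnit_iff_ne_zero]
      intro h0
      rw [ZMod.natCast_eq_zero_iff] at h0
      exact hmS ℓ hℓ ((Nat.prime_dvd_prime_iff_eq (Fact.out : m.Prime) hq).mp h0).symm
    have hχφ : chi ind φ ≠ 0 := by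
      rw [chi_frob ind hq hA (hmS ℓ hℓ) (frob_nonunits hφ) hunit.unit hunit.unit_spec]
      intro h0
      exact hind ℓ hℓ hunit.unit hunit.unit_spec (toAdd_eq_zero.mp h0)
    let χ' : DK A (⊥ : IntermediateField ℚ Qb) → ZMod p := chi ind ∘ Subtype.val
    have hχ' : ∀ g h, χ' (g * h) = χ' g + χ' h := fun g h => chi_mul ind _ _
    have hc' : (lev.sub (DK A ⊥)).Const1 χ' := (chi_const ind).precomp (lev.cont_subtype _)
    have hz := loc_res_zero hq hA hLe hGe (K := ⊥) inferInstance (Act.self (DK A ⊥)) χ' hχ' hc'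
      ⟨φ, hφD⟩ hχφ (resH2 lev (DK A ⊥) _ (toG S p x))
    let N := (A.decompositionSubgroup ℚ).comap (chiKer (chi ind) (chi_mul ind)).subtype
    let ψ : N →* chiKer χ' hχ' :=
      { toFun := fun n => ⟨⟨((n : chiKer (chi ind) (chi_mul ind)) : GQ), by
          rw [dec_eq]; exact n.2⟩, n.1.2⟩
        map_one' := rfl
        map_mul' := fun _ _ => rfl }
    have hψ : Lev.Cont ψ ((lev.sub (chiKer (chi ind) (chi_mul ind))).sub N)
        ((lev.sub (DK A ⊥)).sub (chiKer χ' hχ')) := by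
      rintro U ⟨V, ⟨W, hW, hWV⟩, hVU⟩
      exact ⟨W.comap (chiKer (chi ind) (chi_mul ind)).subtype, ⟨W, hW, le_rfl⟩,
        fun n hn => hVU (hWV hn)⟩
    refine res_factor ((DK A ⊥).subtype.comp (chiKer χ' hχ').subtype) ?_ (fun _ _ => rfl) _ N ψ hψ
      (fun _ => rfl) _ ?_
    · exact (lev.cont_subtype (DK A ⊥)).comp ((lev.sub (DK A ⊥)).cont_subtype _)
    · rw [← hz]
      obtain ⟨f, hf⟩ := H2.mk_surjective (toG S p x)
      rw [← hf]
      rfl
  · push Not at hqS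
    have hqp : q ≠ p := fun h => hqS _ hpS h.symm
    have h1 := unr_vanish x hq hA hqp hqS
    rw [← resH2_toG] at h1
    let N := (A.decompositionSubgroup ℚ).comap (chiKer (chi ind) (chi_mul ind)).subtype
    let ψ : N →* DK A (⊥ : IntermediateField ℚ Qb) :=
      { toFun := fun n => ⟨((n : chiKer (chi ind) (chi_mul ind)) : GQ), by
          rw [dec_eq]; exact n.2⟩
        map_one' := rfl
        map_mul' := fun _ _ => rfl }
    have hψ : Lev.Cont ψ ((lev.sub (chiKer (chi ind) (chi_mul ind))).sub N)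
        (lev.sub (DK A ⊥)) := by
      rintro U ⟨W, hW, hWU⟩
      exact ⟨W.comap (chiKer (chi ind) (chi_mul ind)).subtype, ⟨W, hW, le_rfl⟩,
        fun n hn => hWU hn⟩
    exact res_factor (DK A ⊥).subtype (lev.cont_subtype _) (fun _ _ => rfl) _ N ψ hψ
      (fun _ => rfl) _ h1

end Fermat.Agent.L00.Recip
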