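import Fermat.Agent.L00.Recip6
set_option autoImplicit false
set_option linter.unusedSectionVars false
set_option linter.style.haveILetI false
set_option maxHeartbeats 400000

/-!
# Reciprocity: local consequences (lead, Program C [6])
-/

noncomputable section

namespace Fermat.Agent.L00.Recip

open Fermat.Agent.CC Fermat.Agent.CFT Fermat.Agent.H05
open Fermat.Agent.LF (DK ZK mem_ZK)
open Fermat.Agent.TW (NVal Bl Bs exists_NVal)
open scoped Pointwise

/-- values of `w` on natural numbers -/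
theorem w_nat {A : ValuationSubring Qb} {q : ℕ} (hq : q.Prime) (hA : A.LiesOverPrime q)
    {w : Qb → ℝ} (h : NVal A q w) {n : ℕ} (hn : n ≠ 0) : w (n : Qb) = padicValNat q n := by
  have hfact : Fact q.Prime := ⟨hq⟩
  obtain ⟨e, n', hn', rfl⟩ := Nat.exists_eq_pow_mul_and_not_dvd hn q hq.ne_one
  have h0 : n' ≠ 0 := by rintro rfl; exact hn' (dvd_zero _)
  rw [padicValNat.mul (pow_ne_zero _ hq.ne_zero) h0, padicValNat.prime_pow,
    padicValNat.eq_zero_of_not_dvd hn', add_zero]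
  push_cast
  rw [h.log.map_mul _ _ (pow_ne_zero _ (Nat.cast_ne_zero.mpr hq.ne_zero))
    (Nat.cast_ne_zero.mpr h0), h.log.pow (Nat.cast_ne_zero.mpr hq.ne_zero), h.norm, mul_one]
  have h1 := h.w_intCast hq hA (n := (n' : ℤ)) (by exact_mod_cast hn')
  rw [Int.cast_natCast] at h1
  rw [h1, add_zero]

/-- values of `w` on rational numbers -/
theorem w_rat {A : ValuationSubring Qb} {q : ℕ} (hq : q.Prime) (hA : A.LiesOverPrime q)
    {w : Qb → ℝ} (h : NVal A q w) {r : ℚ} (hr : r ≠ 0) : w (r : Qb) = padicValRat q r := by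
  have hfact : Fact q.Prime := ⟨hq⟩
  have hnum : (r.num.natAbs : ℕ) ≠ 0 := by simpa using hr
  have h1 : ((r.num : ℤ) : Qb) = (r.num.natAbs : Qb) ∨ ((r.num : ℤ) : Qb) = -(r.num.natAbs : Qb) := by
    rcases Int.natAbs_eq r.num with h1 | h1
    · left; conv_lhs => rw [h1]
      simp
    · right; conv_lhs => rw [h1]
      simp
  have h2 : w ((r.num : ℤ) : Qb) = padicValNat q r.num.natAbs := by
    rcases h1 with h1 | h1
    · rw [h1, w_nat hq hA h hnum]
    · rw [h1, h.w_neg, w_nat hq hA h hnum]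
  have h3 : ((r : ℚ) : Qb) = ((r.num : ℤ) : Qb) / ((r.den : ℕ) : Qb) := by
    conv_lhs => rw [← Rat.num_div_den r]
    push_cast
    rfl
  have h4 : ((r.num : ℤ) : Qb) ≠ 0 := by
    rw [Int.cast_ne_zero]; exact Rat.num_ne_zero.mpr hr
  have h5 : ((r.den : ℕ) : Qb) ≠ 0 := Nat.cast_ne_zero.mpr r.den_ne_zero
  rw [h3, div_eq_mul_inv, h.log.map_mul _ _ h4 (inv_ne_zero h5), LKum.w_inv h h5, h2,
    w_nat hq hA h r.den_ne_zero, padicValRat_def, padicValInt, Int.cast_sub, Int.cast_natCast,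
    Int.cast_natCast, sub_eq_add_neg]

variable {p m : ℕ} [Fact p.Prime] [Fact m.Prime]

/-- `χ` restricted to the decomposition group -/
def chiD (ind : (ZMod m)ˣ →* Multiplicative (ZMod p)) (A : ValuationSubring Qb) :
    DK A (⊥ : IntermediateField ℚ Qb) → ZMod p := chi ind ∘ Subtype.val

theorem chiD_mul (ind : (ZMod m)ˣ →* Multiplicative (ZMod p)) (A : ValuationSubring Qb)
    (g h : DK A (⊥ : IntermediateField ℚ Qb)) :
    chiD ind A (g * h) = chiD ind A g + chiD ind A h := chi_mul ind _ _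

theorem chiD_const (ind : (ZMod m)ˣ →* Multiplicative (ZMod p)) (A : ValuationSubring Qb) :
    (lev.sub (DK A ⊥)).Const1 (chiD ind A) := (chi_const ind).precomp (lev.cont_subtype _)

/-- restriction of invariants -/
def resD (A : ValuationSubring Qb) (a : H0 GQ (UL Qb)) :
    H0 (DK A (⊥ : IntermediateField ℚ Qb)) (UL Qb) := ⟨a.1, fun g => a.2 g⟩

theorem kc_resD (ind : (ZMod m)ˣ →* Multiplicative (ZMod p)) (A : ValuationSubring Qb)
    (a : H0 GQ (UL Qb)) :
    resH2 lev (DK A ⊥) _ (kc actG.smooth (ULdiv p) (chi ind) (chi_mul ind) (chi_const ind) a) =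
      kc (Act.self (DK A ⊥)).smooth (ULdiv p) (chiD ind A) (chiD_mul ind A) (chiD_const ind A)
        (resD A a) :=
  kc_res actG.smooth (ULdiv p) (chi ind) (chi_mul ind) (chi_const ind) (DK A ⊥) a (resD A a) rfl
    (chiD_mul ind A) (chiD_const ind A)

/-- the local symbol vanishes at an unramified place: divisibility of the valuation -/
theorem val_ind {q : ℕ} (hq : q.Prime) {A : ValuationSubring Qb} (hA : A.LiesOverPrime q)
    (hqm : q ≠ m) (ind : (ZMod m)ˣ →* Multiplicative (ZMod p)) {w : Qb → ℝ} (hw : NVal A q w)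
    (a : H0 (DK A (⊥ : IntermediateField ℚ Qb)) (UL Qb))
    (hkc : kc (Act.self (DK A ⊥)).smooth (ULdiv p) (chiD ind A) (chiD_mul ind A)
      (chiD_const ind A) a = 0) {n : ℤ} (hn : w a.1.val = n) (u : (ZMod m)ˣ)
    (hu : (u : ZMod m) = (q : ZMod m)) :
    (n : ZMod p) * Multiplicative.toAdd (ind u) = 0 := by
  by_cases hc : Multiplicative.toAdd (ind u) = 0
  · rw [hc, mul_zero]
  obtain ⟨φ, hφ⟩ := exists_isFrobeniusAt hq hA
  have hφD : φ ∈ DK A (⊥ : IntermediateField ℚ Qb) := by rw [dec_eq]; exact hφ.1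
  have hχφ : chi ind φ = Multiplicative.toAdd (ind u) :=
    chi_frob ind hq hA hqm (frob_nonunits hφ) u hu
  set t : DK A (⊥ : IntermediateField ℚ Qb) := ⟨φ, hφD⟩ ^ ((chi ind φ)⁻¹).val with ht
  have ht1 : chiD ind A t = 1 := by
    rw [ht, CC.chi_pow (chiD ind A) (chiD_mul ind A)]
    change (((chi ind φ)⁻¹).val : ZMod p) * chi ind φ = 1
    rw [← hχφ] at hc
    simp [hc]
  have hopen := chiKer_open (chiD ind A) (chiD_mul ind A) (chiD_const ind A)
  haveI := CC.finite_quot hopen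
  rw [kc_eq_zero_iff (Act.self (DK A ⊥)).smooth (ULdiv p) (chiD ind A) (chiD_mul ind A)
    (chiD_const ind A) t ht1 (Act.self (DK A ⊥)).h90 ((Act.self (DK A ⊥)).sub _).h90] at hkc
  obtain ⟨b, hb⟩ := hkc
  obtain ⟨ϖ, hϖ⟩ := exists_isUnif hq hA hw (⊥ : IntermediateField ℚ Qb)
  have hϖZ : ϖ ∈ ZK A (⊥ : IntermediateField ℚ Qb) := by
    rw [mem_ZK]
    intro σ hσ
    exact (IntermediateField.mem_fixingSubgroup_iff _ σ).mp hσ.2 _ hϖ.1
  obtain ⟨j, hj⟩ := w_int hq hA hw hϖZ hϖ.2.1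
  obtain ⟨n', hn'⟩ := unr_val (Act.self (DK A ⊥)) (chiD ind A) (chiD_mul ind A) t ht1 hw hϖ
    (fun g hg => chi_inertia ind hq hA hqm hg.1) b
  have h1 : (cores0 (G := DK A (⊥ : IntermediateField ℚ Qb)) b : UL Qb).val = a.1.val := by
    rw [← hb]; rfl
  rw [h1, hn, hj] at hn'
  have h2 : n = p * n' * j := by exact_mod_cast hn'
  rw [h2]
  push_cast
  rw [ZMod.natCast_self, zero_mul, zero_mul, zero_mul]

theorem not_dvd_of_val {r : ℚ} (hr : r ≠ 0) (hrm : padicValRat m r = 0) :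
    ¬ (m : ℤ) ∣ r.num ∧ ¬ m ∣ r.den := by
  have hm : m.Prime := Fact.out
  have hco : Nat.Coprime r.num.natAbs r.den := r.reduced
  have hnum : r.num.natAbs ≠ 0 := by simpa using hr
  rw [padicValRat_def, padicValInt, sub_eq_zero, Nat.cast_inj] at hrm
  by_cases h1 : m ∣ r.den
  · exfalso
    have h2 : ¬ m ∣ r.num.natAbs := fun h3 =>
      hm.one_lt.ne' (Nat.eq_one_of_dvd_coprimes hco h3 h1)
    rw [padicValNat.eq_zero_of_not_dvd h2] at hrm
    have h3 := one_le_padicValNat_of_dvd r.den_ne_zero h1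
    omega
  · refine ⟨fun h2 => ?_, h1⟩
    have h3 : m ∣ r.num.natAbs := Int.natCast_dvd.mp h2
    rw [padicValNat.eq_zero_of_not_dvd h1] at hrm
    have h4 := one_le_padicValNat_of_dvd hnum h3
    omega

theorem rat_mem_ZK (A : ValuationSubring Qb) (r : ℚ) :
    (r : Qb) ∈ ZK A (⊥ : IntermediateField ℚ Qb) := by
  rw [mem_ZK]
  intro σ _
  exact map_ratCast σ r

/-- the local symbol vanishes at `m` -/
theorem ind_at_m (hGe : NormIndexGe p) (ind : (ZMod m)ˣ →* Multiplicative (ZMod p))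
    (hs : Function.Surjective ind) (hk : ∀ u, ind u = 1 ↔ ∃ y, y ^ p = u) (hmp : m ≠ p)
    {A : ValuationSubring Qb} (hA : A.LiesOverPrime m)
    (a : H0 (DK A (⊥ : IntermediateField ℚ Qb)) (UL Qb))
    (hkc : kc (Act.self (DK A ⊥)).smooth (ULdiv p) (chiD ind A) (chiD_mul ind A)
      (chiD_const ind A) a = 0) {r : ℚ} (hr : r ≠ 0) (n : ℤ)
    (har : a.1.val = (r : Qb) * (m : Qb) ^ n) (hrm : padicValRat m r = 0) :
    ∃ (b : ℤ) (hb : ¬ (m : ℤ) ∣ b), (m : ℤ) ∣ r.num - b * r.den ∧ ind (uz b hb) = 1 := by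
  have hm : m.Prime := Fact.out
  obtain ⟨w, hw⟩ := exists_NVal hm hA
  obtain ⟨t0, ht0, hchi0⟩ := chi_ne ind hA hs
  set t : DK A (⊥ : IntermediateField ℚ Qb) := ⟨t0, ht0⟩ ^ ((chi ind t0)⁻¹).val with ht
  have ht1 : chiD ind A t = 1 := by
    rw [ht, CC.chi_pow (chiD ind A) (chiD_mul ind A)]
    change (((chi ind t0)⁻¹).val : ZMod p) * chi ind t0 = 1
    simp [hchi0]
  have hopen := chiKer_open (chiD ind A) (chiD_mul ind A) (chiD_const ind A)
  haveI := CC.finite_quot hopen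
  rw [kc_eq_zero_iff (Act.self (DK A ⊥)).smooth (ULdiv p) (chiD ind A) (chiD_mul ind A)
    (chiD_const ind A) t ht1 (Act.self (DK A ⊥)).h90 ((Act.self (DK A ⊥)).sub _).h90] at hkc
  have hF : DK A (F0 ind) = (chiKer (chiD ind A) (chiD_mul ind A)).map
      (DK A (⊥ : IntermediateField ℚ Qb)).subtype := by
    ext σ
    constructor
    · rintro ⟨hσA, hσF⟩
      change σ ∈ (F0 ind).fixingSubgroup at hσF
      rw [fixing_F0] at hσF
      exact ⟨⟨σ, by rw [dec_eq]; exact hσA⟩, hσF, rfl⟩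
    · rintro ⟨τ, hτ, rfl⟩
      refine ⟨τ.2.1, ?_⟩
      change (τ : GQ) ∈ (F0 ind).fixingSubgroup
      rw [fixing_F0]
      exact hτ
  have hn0 := (mem_range_cores0h (Act.self (DK A ⊥)) (chiD ind A) (chiD_mul ind A) t ht1 hF a).mp
    hkc
  rw [har] at hn0
  have htchi : chi ind (t : GQ) ≠ 0 := by
    change chiD ind A t ≠ 0
    rw [ht1]; exact one_ne_zero
  have hnm := norm_zpow (norm_m ind hw hs htchi) (-n)
  have hn1 := norm_mul hn0 hnm
  have hm0 : (m : Qb) ≠ 0 := Nat.cast_ne_zero.mpr hm.ne_zero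
  have hz1 : (r : Qb) * (m : Qb) ^ n * (m : Qb) ^ (-n) = r := by
    rw [mul_assoc, ← zpow_add₀ hm0, add_neg_cancel, zpow_zero, mul_one]
  rw [hz1] at hn1
  have hwz : w (r : Qb) = 0 := by rw [w_rat hm hA hw hr, hrm, Int.cast_zero]
  obtain ⟨b, hb⟩ := exists_int_approx hm hA hw (rat_mem_ZK A r) (Or.inr hwz.ge)
  obtain ⟨hnum, hden⟩ := not_dvd_of_val hr hrm
  have hden0 : ((r.den : ℕ) : Qb) ≠ 0 := Nat.cast_ne_zero.mpr r.den_ne_zero
  have hwden : w ((r.den : ℕ) : Qb) = 0 := by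
    rw [w_nat hm hA hw r.den_ne_zero, padicValNat.eq_zero_of_not_dvd hden, Nat.cast_zero]
  have hdvd : (m : ℤ) ∣ r.num - b * r.den := by
    apply bs_int_dvd hm hA hw
    have h1 := NVal.Bs_mul_right hw hb (Or.inr hwden.ge : Bl w 0 ((r.den : ℕ) : Qb))
    have h2 : ((r : Qb) - b) * ((r.den : ℕ) : Qb) = ((r.num - b * r.den : ℤ) : Qb) := by
      have h3 : ((r : ℚ) : Qb) * ((r.den : ℕ) : Qb) = ((r.num : ℤ) : Qb) := by
        have := Rat.mul_den_eq_num r
        exact_mod_cast congrArg (fun x : ℚ => (x : Qb)) this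
      rw [sub_mul, h3]
      push_cast
      ring
    rwa [h2] at h1
  have hb' : ¬ (m : ℤ) ∣ b := fun h1 => hnum (by
    have h2 := dvd_add hdvd (h1.mul_right (r.den : ℤ))
    rwa [sub_add_cancel] at h2)
  exact ⟨b, hb', hdvd, ind_of_norm hGe hs hk hmp hA hw t.2 htchi (rat_mem_ZK A r) hb' hb hn1⟩

end Fermat.Agent.L00.Recip
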