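import Fermat.Agent.L00.Recip7
set_option autoImplicit false
set_option linter.unusedSectionVars false
set_option linter.style.haveILetI false
set_option maxHeartbeats 400000

/-!
# Reciprocity: the sum formula (lead, Program C [6])
-/

noncomputable section

namespace Fermat.Agent.L00.Recip

open Fermat.Agent.CC Fermat.Agent.CFT Fermat.Agent.H05
open Fermat.Agent.LF (DK ZK mem_ZK)
open Fermat.Agent.TW (NVal Bl Bs exists_NVal)
open scoped Pointwise

variable {p m : ℕ} [Fact p.Prime] [Fact m.Prime]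

/-- the residue symbol on integers -/
def cc (ind : (ZMod m)ˣ →* Multiplicative (ZMod p)) (b : ℤ) : ZMod p :=
  if h : (m : ℤ) ∣ b then 0 else Multiplicative.toAdd (ind (uz b h))

theorem cc_of_not {ind : (ZMod m)ˣ →* Multiplicative (ZMod p)} {b : ℤ} (h : ¬ (m : ℤ) ∣ b) :
    cc ind b = Multiplicative.toAdd (ind (uz b h)) := dif_neg h

theorem cc_of_dvd {ind : (ZMod m)ˣ →* Multiplicative (ZMod p)} {b : ℤ} (h : (m : ℤ) ∣ b) :
    cc ind b = 0 := dif_pos h

theorem cc_mul (ind : (ZMod m)ˣ →* Multiplicative (ZMod p)) {a b : ℤ} (ha : ¬ (m : ℤ) ∣ a)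
    (hb : ¬ (m : ℤ) ∣ b) : cc ind (a * b) = cc ind a + cc ind b := by
  have hm : Prime (m : ℤ) := Nat.prime_iff_prime_int.mp Fact.out
  have hab : ¬ (m : ℤ) ∣ a * b := fun h => (hm.dvd_or_dvd h).elim ha hb
  rw [cc_of_not ha, cc_of_not hb, cc_of_not hab, ← toAdd_mul, ← map_mul]
  congr 2
  apply Units.ext
  change ((a * b : ℤ) : ZMod m) = (a : ZMod m) * (b : ZMod m)
  push_cast
  rfl

theorem cc_congr (ind : (ZMod m)ˣ →* Multiplicative (ZMod p)) {a b : ℤ}
    (hab : (m : ℤ) ∣ a - b) : cc ind a = cc ind b := by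
  by_cases hb : (m : ℤ) ∣ b
  · rw [cc_of_dvd hb, cc_of_dvd ((dvd_iff_dvd_of_dvd_sub hab).mpr hb)]
  · have ha : ¬ (m : ℤ) ∣ a := fun h => hb ((dvd_iff_dvd_of_dvd_sub hab).mp h)
    rw [cc_of_not ha, cc_of_not hb]
    congr 2
    apply Units.ext
    change ((a : ℤ) : ZMod m) = (b : ZMod m)
    rw [← sub_eq_zero, ← Int.cast_sub, ZMod.intCast_zmod_eq_zero_iff_dvd]
    exact hab

theorem not_dvd_one' : ¬ (m : ℤ) ∣ 1 := by
  have hm : Prime (m : ℤ) := Nat.prime_iff_prime_int.mp Fact.out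
  exact hm.not_dvd_one

theorem cc_one (ind : (ZMod m)ˣ →* Multiplicative (ZMod p)) : cc ind 1 = 0 := by
  have h := cc_mul ind (m := m) (a := 1) (b := 1) not_dvd_one' not_dvd_one'
  rw [mul_one, left_eq_add] at h
  exact h

theorem cc_neg (h2 : p ≠ 2) (ind : (ZMod m)ˣ →* Multiplicative (ZMod p)) (a : ℤ) :
    cc ind (-a) = cc ind a := by
  have hp : p.Prime := Fact.out
  have hn1 : ¬ (m : ℤ) ∣ -1 := by rw [dvd_neg]; exact not_dvd_one'
  have h1 : cc ind (-1) = 0 := by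
    have h := cc_mul ind hn1 hn1
    rw [show (-1 : ℤ) * -1 = 1 by norm_num, cc_one] at h
    have h3 : (2 : ZMod p) * cc ind (-1) = 0 := by rw [two_mul]; exact h.symm
    rcases mul_eq_zero.mp h3 with h4 | h4
    · exfalso
      have h5 : ((2 : ℕ) : ZMod p) = 0 := by exact_mod_cast h4
      rw [ZMod.natCast_eq_zero_iff] at h5
      exact h2 ((Nat.prime_dvd_prime_iff_eq hp Nat.prime_two).mp h5)
    · exact h4
  by_cases ha : (m : ℤ) ∣ a
  · rw [cc_of_dvd ha, cc_of_dvd (by rwa [dvd_neg])]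
  · rw [← neg_one_mul, cc_mul ind hn1 ha, h1, zero_add]

theorem cc_pow (ind : (ZMod m)ˣ →* Multiplicative (ZMod p)) {a : ℤ} (ha : ¬ (m : ℤ) ∣ a) (k : ℕ) :
    cc ind (a ^ k) = k * cc ind a := by
  have hm : Prime (m : ℤ) := Nat.prime_iff_prime_int.mp Fact.out
  induction k with
  | zero => rw [pow_zero, cc_one, Nat.cast_zero, zero_mul]
  | succ k ih =>
    rw [pow_succ, cc_mul ind (fun h => ha (hm.dvd_of_dvd_pow h)) ha, ih]
    push_cast
    ring

/-- the value of the symbol in terms of the factorisation -/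
theorem cc_nat (ind : (ZMod m)ˣ →* Multiplicative (ZMod p)) (T : Finset ℕ)
    (hT : ∀ ℓ ∈ T, ℓ.Prime) {n : ℕ} (hn : ¬ m ∣ n) (hnT : n.primeFactors ⊆ T) :
    cc ind n = ∑ ℓ ∈ T, (padicValNat ℓ n : ZMod p) * cc ind ℓ := by
  classical
  have hm : m.Prime := Fact.out
  have hn0 : n ≠ 0 := by rintro rfl; exact hn (dvd_zero _)
  have h1 : n = ∏ ℓ ∈ T, ℓ ^ (padicValNat ℓ n) := by
    conv_lhs => rw [← Nat.prod_factorization_pow_eq_self hn0]
    rw [Finsupp.prod_of_support_subset _ (s := T) (by rwa [Nat.support_factorization]) _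
      (fun _ _ => pow_zero _)]
    refine Finset.prod_congr rfl fun ℓ hℓ => ?_
    rw [Nat.factorization_def n (hT ℓ hℓ)]
  have h2 : ∀ U ⊆ T, cc ind ((∏ ℓ ∈ U, ℓ ^ (padicValNat ℓ n) : ℕ) : ℤ) =
      ∑ ℓ ∈ U, (padicValNat ℓ n : ZMod p) * cc ind ℓ ∧
      ¬ (m : ℤ) ∣ ((∏ ℓ ∈ U, ℓ ^ (padicValNat ℓ n) : ℕ) : ℤ) := by
    intro U
    induction U using Finset.induction_on with
    | empty =>
      intro _
      rw [Finset.prod_empty, Finset.sum_empty, Nat.cast_one]
      exact ⟨cc_one ind, not_dvd_one'⟩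
    | insert a U ha ih =>
      intro hU
      obtain ⟨ih1, ih2⟩ := ih ((Finset.subset_insert a U).trans hU)
      have haT : a ∈ T := hU (Finset.mem_insert_self a U)
      have h3 : ¬ (m : ℤ) ∣ ((a : ℤ) ^ (padicValNat a n)) ∧
          cc ind ((a : ℤ) ^ (padicValNat a n)) = (padicValNat a n : ZMod p) * cc ind a := by
        by_cases ham : a = m
        · rw [ham, padicValNat.eq_zero_of_not_dvd hn, pow_zero, Nat.cast_zero, zero_mul]
          exact ⟨not_dvd_one', cc_one ind⟩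
        · have h4 : ¬ (m : ℤ) ∣ (a : ℤ) := by
            rw [Int.natCast_dvd_natCast]
            exact fun h => ham ((Nat.prime_dvd_prime_iff_eq hm (hT a haT)).mp h).symm
          have hmZ : Prime (m : ℤ) := Nat.prime_iff_prime_int.mp Fact.out
          exact ⟨fun h => h4 (hmZ.dvd_of_dvd_pow h), cc_pow ind h4 _⟩
      rw [Finset.prod_insert ha, Finset.sum_insert ha]
      push_cast at ih1 ih2 ⊢
      refine ⟨?_, ?_⟩
      · rw [cc_mul ind h3.1 ih2, h3.2, ih1]
      · have hmZ : Prime (m : ℤ) := Nat.prime_iff_prime_int.mp Fact.out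
        exact fun h => (hmZ.dvd_or_dvd h).elim h3.1 ih2
  have h5 := (h2 T subset_rfl).1
  rw [← h1] at h5
  exact h5

/-- the sum formula for a rational number prime to `m` -/
theorem cc_rat (h2 : p ≠ 2) (ind : (ZMod m)ˣ →* Multiplicative (ZMod p)) (T : Finset ℕ)
    (hT : ∀ ℓ ∈ T, ℓ.Prime) {r : ℚ} (hr : r ≠ 0) (hrm : padicValRat m r = 0)
    (hrT : r.num.natAbs.primeFactors ⊆ T) (hrT' : r.den.primeFactors ⊆ T) :
    ∑ ℓ ∈ T, ((padicValRat ℓ r : ℤ) : ZMod p) * cc ind ℓ = cc ind r.num - cc ind r.den := by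
  obtain ⟨hnum, hden⟩ := not_dvd_of_val hr hrm
  have h1 : cc ind r.num = cc ind r.num.natAbs := by
    rcases Int.natAbs_eq r.num with h | h
    · rw [← h]
    · conv_lhs => rw [h]
      exact cc_neg h2 ind _
  rw [h1, cc_nat ind T hT (by rwa [← Int.natCast_dvd]) hrT,
    cc_nat ind T hT hden hrT', ← Finset.sum_sub_distrib]
  refine Finset.sum_congr rfl fun ℓ _ => ?_
  rw [padicValRat_def, padicValInt, Int.cast_sub, Int.cast_natCast, Int.cast_natCast, sub_mul]

end Fermat.Agent.L00.Recip
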