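import Fermat.Agent.L00.LocSurj
import Fermat.Agent.CC.Iface4
import Fermat.Agent.L00.Recip6
import Fermat.Prelude.Def_GroupCohomology_ContinuousUnramified
set_option autoImplicit false
set_option linter.unusedSectionVars false

/-!
# Translation of `Ш` (lead, Program C (E)): abstract lemmas
-/

noncomputable section

namespace Fermat.Agent.L00.Tr

open Fermat.Agent.CC

section Dense

variable {G Γ : Type*} [Group G] [Group Γ] (𝓛 : Lev G) (loc : Γ →* G)

/-- density -/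
def Dn : Prop := ∀ V, 𝓛.isOpen V → ∀ d : G, ∃ γ : Γ, (loc γ)⁻¹ * d ∈ V

variable {𝓛 loc} {M : Type*} [AddCommGroup M] [DistribMulAction G M]

theorem dn_H1 (hd : Dn 𝓛 loc) (sm : 𝓛.Smooth M) (f : Z1 𝓛 M) (a : M)
    (h : ∀ γ, f.1 (loc γ) = loc γ • a - a) : H1.mk 𝓛 M f = 0 := by
  rw [H1.mk_eq_zero]
  refine ⟨a, fun d => ?_⟩
  obtain ⟨U, hU, hf⟩ := f.2.1
  obtain ⟨V, hV, ha⟩ := sm a
  obtain ⟨γ, hγ⟩ := hd (U ⊓ V) (𝓛.inf _ _ hU hV) d
  have h1 : d = loc γ * ((loc γ)⁻¹ * d) := by group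
  rw [h1, hf _ _ hγ.1, h, mul_smul, ha _ hγ.2]

theorem dn_H2 [Finite M] (hd : Dn 𝓛 loc) (sm : 𝓛.Smooth M) (f : Z2 𝓛 M) (x : Γ → M)
    {U : Subgroup G} (hU : 𝓛.isOpen U) (hx : ∀ γ s, loc s ∈ U → x (γ * s) = x γ)
    (h : ∀ γ γ', f.1 (loc γ) (loc γ') = loc γ • x γ' - x (γ * γ') + x γ) :
    H2.mk 𝓛 M f = 0 := by
  obtain ⟨W, hW, hf⟩ := f.2.1
  obtain ⟨V, hV, hM⟩ := sm.finite (Set.toFinite (Set.univ : Set M))
  obtain ⟨N, hNn, hN, hNle⟩ := 𝓛.nor _ (𝓛.inf _ _ hU (𝓛.inf _ _ hW hV))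
  choose c hc using hd N hN
  have hcU : ∀ γ γ', (loc γ)⁻¹ * loc γ' ∈ N → x γ = x γ' := by
    intro γ γ' h1
    have h2 : γ' = γ * (γ⁻¹ * γ') := by group
    rw [h2, hx]
    rw [map_mul, map_inv]
    exact (hNle h1).1
  rw [H2.mk_eq_zero]
  refine ⟨fun d => x (c d), ⟨N, hN, fun d s hs => ?_⟩, fun d e => ?_⟩
  · refine hcU _ _ ?_
    have h1 : (loc (c (d * s)))⁻¹ * loc (c d) = ((loc (c (d * s)))⁻¹ * (d * s)) * s⁻¹ *
        ((loc (c d))⁻¹ * d)⁻¹ := by group
    rw [h1]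
    exact mul_mem (mul_mem (hc _) (inv_mem hs)) (inv_mem (hc d))
  · have hd1 : d = loc (c d) * ((loc (c d))⁻¹ * d) := by group
    have he1 : e = loc (c e) * ((loc (c e))⁻¹ * e) := by group
    have h1 : f.1 d e = f.1 (loc (c d)) (loc (c e)) := by
      conv_lhs => rw [hd1, he1]
      exact hf _ _ _ (hNle (hc d)).2.1 _ (hNle (hc e)).2.1
    have h2 : ∀ m : M, d • m = loc (c d) • m := by
      intro m
      conv_lhs => rw [hd1]
      rw [mul_smul, hM m trivial _ (hNle (hc d)).2.2]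
    have h3 : x (c (d * e)) = x (c d * c e) := by
      refine hcU _ _ ?_
      rw [map_mul]
      have h4 : (loc (c (d * e)))⁻¹ * (loc (c d) * loc (c e)) =
          ((loc (c (d * e)))⁻¹ * (d * e)) * (e⁻¹ * ((loc (c d))⁻¹ * d)⁻¹ * e) *
            ((loc (c e))⁻¹ * e)⁻¹ := by group
      rw [h4]
      refine mul_mem (mul_mem (hc _) ?_) (inv_mem (hc e))
      have := hNn.conj_mem _ (inv_mem (hc d)) e⁻¹
      rwa [inv_inv] at this
    rw [h1, h]
    simp only [d1]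
    rw [h2, h3]

end Dense

section Avg

variable {Γ : Type*} [Group Γ] [Fintype Γ] {M : Type*} [AddCommGroup M] [DistribMulAction Γ M]

theorem avg_H1 (u : ℕ) (hu : ∀ m : M, (u * Fintype.card Γ) • m = m) (c : Γ → M)
    (hc : ∀ g h, c (g * h) = c g + g • c h) : ∃ a : M, ∀ g, c g = g • a - a := by
  refine ⟨-(u • ∑ h, c h), fun g => ?_⟩
  have h1 : ∑ h, c h = Fintype.card Γ • c g + g • ∑ h, c h := by
    have h2 : ∑ h, c h = ∑ h, c (g * h) :=
      (Fintype.sum_bijective (fun h => g * h) (Group.mulLeft_bijective g) _ _ fun _ => rfl).symm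
    conv_lhs => rw [h2]
    simp only [hc, Finset.sum_add_distrib, Finset.sum_const, Finset.card_univ, ← Finset.smul_sum]
  have h3 : c g = u • (Fintype.card Γ • c g) := by rw [smul_smul, hu]
  have h4 : Fintype.card Γ • c g = ∑ h, c h - g • ∑ h, c h := by
    rw [eq_sub_iff_add_eq]; exact h1.symm
  rw [h3, h4, smul_sub, smul_neg, smul_comm g u]
  abel

theorem avg_H2 (u : ℕ) (hu : ∀ m : M, (u * Fintype.card Γ) • m = m) (f : Γ → Γ → M)
    (hf : IsCocycle2 f) : ∀ g h, f g h = d1 (fun g => u • ∑ j, f g j) g h := by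
  intro g h
  have h1 : g • ∑ j, f h j + ∑ j, f g j = ∑ j, f (g * h) j + Fintype.card Γ • f g h := by
    have h2 : ∑ j, f g j = ∑ j, f g (h * j) :=
      (Fintype.sum_bijective (fun j => h * j) (Group.mulLeft_bijective h) _ _ fun _ => rfl).symm
    conv_lhs => rw [h2]
    rw [Finset.smul_sum, ← Finset.sum_add_distrib]
    simp only [fun j => hf g h j, Finset.sum_add_distrib, Finset.sum_const, Finset.card_univ]
  have h3 : f g h = u • (Fintype.card Γ • f g h) := by rw [smul_smul, hu]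
  have h4 : Fintype.card Γ • f g h = g • ∑ j, f h j + ∑ j, f g j - ∑ j, f (g * h) j := by
    rw [h1]; abel
  rw [h3, h4]
  simp only [d1]
  rw [smul_sub, smul_add, smul_comm g u]
  abel

end Avg

/-- openness in `levS` -/
theorem levS_open {S : Finset Nat.Primes} {U : Subgroup GQ} (hU : lev.isOpen U)
    (hI : ∀ q : Nat.Primes, q ∉ S → ∀ A : ValuationSubring Qb, A.LiesOverPrime (q : ℕ) →
      A.inertiaSubgroupIn ℚ ≤ U) : (levS S).isOpen U := by
  obtain ⟨K, hK, rfl⟩ := exists_field_of_open hU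
  exact ⟨K, ⟨hK, hI⟩, le_rfl⟩

theorem smooth_Mu {p : ℕ} [Fact p.Prime] {S : Finset Nat.Primes} (hpS : pP p ∈ S) :
    (levS S).Smooth (Mu p) := by
  intro t
  refine ⟨MulAction.stabilizer GQ t, levS_open ?_ fun q hq A hA g hg => ?_, fun s hs => hs⟩
  · obtain ⟨U, hU, h⟩ := (TorP.smooth (p := p) Recip.actG.smooth) t
    exact lev.mono _ _ hU fun s hs => h s hs
  · have hqp : (q : ℕ) ≠ p := by
      intro h
      apply hq
      have : q = pP p := Subtype.ext h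
      rwa [this]
    exact Recip.inertia_trivial q.2 hA hqp hg t

end Fermat.Agent.L00.Tr
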