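import Fermat.Agent.L00.S55A
set_option autoImplicit false
set_option linter.unusedSectionVars false
set_option maxHeartbeats 400000
set_option synthInstance.maxHeartbeats 400000

/-!
# Translation of `Ш` (lead, Program C (E)): cochains
-/

noncomputable section

namespace Fermat.Agent.L00.Tr

open Fermat.Agent.CC CategoryTheory groupCohomology ExtCitation
open Fermat.Agent.LF (DK)

variable {k : Type} [CommRing k]

/-- underlying module of a representation -/
def MT (A : Rep k GQ) : Type := A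

instance (A : Rep k GQ) : AddCommGroup (MT A) := inferInstanceAs (AddCommGroup A)

instance (A : Rep k GQ) : Module k (MT A) := inferInstanceAs (Module k A)

instance (A : Rep k GQ) : DistribMulAction GQ (MT A) where
  smul g m := A.ρ g m
  one_smul m := by change A.ρ 1 m = m; rw [map_one]; rfl
  mul_smul g h m := by change A.ρ (g * h) m = A.ρ g (A.ρ h m); rw [map_mul]; rfl
  smul_zero g := map_zero (A.ρ g)
  smul_add g := map_add (A.ρ g)

theorem MT.smul_def (A : Rep k GQ) (g : GQ) (m : MT A) : g • m = A.ρ g m := rfl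

variable (S : Finset Nat.Primes) (A : Rep k GQ)

/-- underlying function of a two-cocycle -/
def toL2 (f : Z2 (levS S) (MT A)) : ↥(levelCocyclesS₂ S A) :=
  ⟨fun x => f.1 x.1 x.2, (mem_levelCocyclesS₂_iff S A _).mpr
    ⟨(mem_cocycles₂_iff _).mpr fun g h j => (f.2.2 g h j).symm, by
      obtain ⟨U, ⟨F, hF, hFU⟩, h⟩ := f.2.1
      exact ⟨F, hF, fun g g' s s' hs hs' => h g g' s (hFU hs) s' (hFU hs')⟩⟩⟩

theorem d12_apply (x : GQ → A) (g h : GQ) :
    (d₁₂ A).hom x (g, h) = A.ρ g (x h) - x (g * h) + x g := by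
  rw [d₁₂_hom_apply]

/-- comparison in degree two -/
def Psi2 : H2 (levS S) (MT A) →+ continuousH2S S A :=
  QuotientAddGroup.lift (B2 (levS S) (MT A))
    { toFun := fun f => continuousH2Sπ S A (toL2 S A f)
      map_zero' := by
        rw [show toL2 S A 0 = 0 from rfl, map_zero]
      map_add' := fun f g => by
        rw [show toL2 S A (f + g) = toL2 S A f + toL2 S A g from rfl, map_add] } (by
    rintro f ⟨x, ⟨U, ⟨F, hF, hFU⟩, hx⟩, h⟩
    change continuousH2Sπ S A (toL2 S A f) = 0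
    rw [continuousH2Sπ_eq_zero_iff, mem_levelCoboundariesS₂_iff]
    refine ⟨x, ⟨F, hF, fun g s hs => hx g s (hFU hs)⟩, ?_⟩
    funext ⟨g, g'⟩
    exact (d12_apply A x g g').trans (h g g').symm)

theorem Psi2_mk (f : Z2 (levS S) (MT A)) :
    Psi2 S A (H2.mk _ _ f) = continuousH2Sπ S A (toL2 S A f) := rfl

theorem Psi2_bijective : Function.Bijective (Psi2 S A) := by
  constructor
  · rw [injective_iff_map_eq_zero]
    intro x hx
    obtain ⟨f, rfl⟩ := H2.mk_surjective x
    rw [Psi2_mk, continuousH2Sπ_eq_zero_iff, mem_levelCoboundariesS₂_iff] at hx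
    obtain ⟨x, ⟨F, hF, hx⟩, hd⟩ := hx
    rw [H2.mk_eq_zero]
    refine ⟨x, ⟨F.fixingSubgroup, ⟨F, hF, le_rfl⟩, fun g s hs => hx g s hs⟩, fun g h => ?_⟩
    have h1 := congrFun hd (g, h)
    rw [d12_apply] at h1
    exact h1.symm
  · intro y
    obtain ⟨⟨f, hf⟩, rfl⟩ := Submodule.mkQ_surjective _ y
    rw [mem_levelCocyclesS₂_iff] at hf
    obtain ⟨hc, F, hF, hl⟩ := hf
    rw [mem_cocycles₂_iff] at hc
    refine ⟨H2.mk _ _ ⟨fun g h => f (g, h), ⟨F.fixingSubgroup, ⟨F, hF, le_rfl⟩,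
      fun g h s hs t ht => hl g h s t hs ht⟩, fun g h j => (hc g h j).symm⟩, ?_⟩
    rfl

/-- comparison in degree one -/
def toC1 (f : Z1 (levS S) (MT A)) : cocycles₁ A :=
  ⟨f.1, (mem_cocycles₁_iff _).mpr fun g h => (f.2.2 g h).trans (add_comm _ _)⟩

def Psi1 : H1 (levS S) (MT A) →+ groupCohomology.H1 A :=
  QuotientAddGroup.lift (B1 (levS S) (MT A))
    { toFun := fun f => (H1π A).hom (toC1 S A f)
      map_zero' := by
        rw [show toC1 S A 0 = 0 from rfl, map_zero]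
      map_add' := fun f g => by
        rw [show toC1 S A (f + g) = toC1 S A f + toC1 S A g from rfl, map_add] } (by
    rintro f ⟨a, h⟩
    change (H1π A).hom (toC1 S A f) = 0
    exact (H1π_eq_zero_iff _).mpr ⟨a, funext fun g => (h g).symm⟩)

theorem Psi1_mk (f : Z1 (levS S) (MT A)) :
    Psi1 S A (H1.mk _ _ f) = (H1π A).hom (toC1 S A f) := rfl

theorem Psi1_injective : Function.Injective (Psi1 S A) := by
  rw [injective_iff_map_eq_zero]
  intro x hx
  obtain ⟨f, rfl⟩ := H1.mk_surjective x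
  rw [Psi1_mk] at hx
  obtain ⟨a, ha⟩ := (H1π_eq_zero_iff (toC1 S A f)).mp hx
  rw [H1.mk_eq_zero]
  exact ⟨a, fun g => (congrFun ha g).symm⟩

theorem mem_range_Psi1 (y : groupCohomology.H1 A) :
    y ∈ continuousH1S S A ↔ ∃ x, Psi1 S A x = y := by
  rw [mem_continuousH1S_iff]
  constructor
  · rintro ⟨c, ⟨F, hF, hc⟩, rfl⟩
    have h1 := (mem_cocycles₁_iff c.1).mp c.2
    refine ⟨H1.mk _ _ ⟨c.1, ⟨F.fixingSubgroup, ⟨F, hF, le_rfl⟩, fun g s hs => hc g s hs⟩,
      fun g h => ?_⟩, rfl⟩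
    rw [h1, add_comm]
    rfl
  · rintro ⟨x, rfl⟩
    obtain ⟨f, rfl⟩ := H1.mk_surjective x
    obtain ⟨U, ⟨F, hF, hFU⟩, h⟩ := f.2.1
    exact ⟨toC1 S A f, ⟨F, hF, fun g s hs => h g s (hFU hs)⟩, rfl⟩

end Fermat.Agent.L00.Tr
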