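import Fermat.Agent.L00.S55B
set_option autoImplicit false
set_option linter.unusedSectionVars false
set_option maxHeartbeats 400000
set_option synthInstance.maxHeartbeats 400000

/-!
# Translation of `Ш` (lead, Program C (E)): local conditions
-/

noncomputable section

namespace Fermat.Agent.L00.Tr

open Fermat.Agent.CC CategoryTheory groupCohomology ExtCitation
open Fermat.Agent.LF (DK)

variable {k : Type} [CommRing k] (S : Finset Nat.Primes) (A : Rep k GQ)

/-- the restricted cocycle -/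
def rc2 {H : Type} [Group H] (r : H →* GQ) (f : Z2 (levS S) (MT A)) :
    ↥(levelCocycles₂ r (Rep.res r A)) :=
  levelCocycles₂Map (rH := MonoidHom.id _) (rG := r) r (fun _ => rfl)
    (LinearMap.id : A →ₗ[k] Rep.res r A) (fun _ _ => rfl)
    (levelCocyclesS₂ToLevelCocycles₂ S A (toL2 S A f))

theorem locRes2_eq {H : Type} [Group H] (r : H →* GQ) (f : Z2 (levS S) (MT A)) :
    locRes₂S S A r (Psi2 S A (H2.mk _ _ f)) = continuousH2π r (Rep.res r A) (rc2 S A r f) := rfl

theorem d12_res {H : Type} [Group H] (r : H →* GQ) (x : H → A) (g h : H) :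
    (d₁₂ (Rep.res r A)).hom x (g, h) = A.ρ (r g) (x h) - x (g * h) + x g := by
  rw [d₁₂_hom_apply]
  rfl

theorem locRes2_zero_iff {H : Type} [Group H] (r : H →* GQ) (f : Z2 (levS S) (MT A)) :
    locRes₂S S A r (Psi2 S A (H2.mk _ _ f)) = 0 ↔
      ∃ x : H → A, IsLevelConstant₁ r x ∧
        ∀ g h, f.1 (r g) (r h) = A.ρ (r g) (x h) - x (g * h) + x g := by
  constructor
  · intro h0
    have h1 : continuousH2π r (Rep.res r A) (rc2 S A r f) = 0 := (locRes2_eq S A r f).symm.trans h0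
    have h2 := (continuousH2π_eq_zero_iff r (Rep.res r A) (rc2 S A r f)).mp h1
    obtain ⟨x, hx, hd⟩ := (mem_levelCoboundaries₂_iff r (Rep.res r A) _).mp h2
    exact ⟨x, hx, fun g h => (congrFun hd (g, h)).symm.trans (d12_res A r x g h)⟩
  · rintro ⟨x, hx, hd⟩
    refine (locRes2_eq S A r f).trans ((continuousH2π_eq_zero_iff r (Rep.res r A)
      (rc2 S A r f)).mpr ((mem_levelCoboundaries₂_iff r (Rep.res r A) _).mpr ⟨x, hx, ?_⟩))
    funext ⟨g, h⟩
    exact (d12_res A r x g h).trans (hd g h).symm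

section One

variable {p : ℕ} [Fact p.Prime] (B : Rep (ZMod p) GQ)

theorem map1_zero_iff {H : Type} [Group H] (r : H →* GQ) (f : Z1 (levS S) (MT B)) :
    (groupCohomology.map r (𝟙 (Rep.res r B)) 1).hom (Psi1 S B (H1.mk _ _ f)) = 0 ↔
      ∃ a : B, ∀ g, f.1 (r g) = B.ρ (r g) a - a := by
  have h1 : (groupCohomology.map r (𝟙 (Rep.res r B)) 1).hom (Psi1 S B (H1.mk _ _ f)) =
      (H1π (Rep.res r B)).hom
        (mapCocycles₁ r (𝟙 (Rep.res r B)) (toC1 S B f)) :=
    H1π_comp_map_apply r (𝟙 (Rep.res r B)) (toC1 S B f)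
  constructor
  · intro h0
    obtain ⟨a, ha⟩ := (H1π_eq_zero_iff _).mp (h1.symm.trans h0)
    exact ⟨a, fun g => (congrFun ha g).symm⟩
  · rintro ⟨a, ha⟩
    exact h1.trans ((H1π_eq_zero_iff _).mpr ⟨a, funext fun g => (ha g).symm⟩)

end One

end Fermat.Agent.L00.Tr
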