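import Fermat.Agent.L00.S55C
set_option autoImplicit false
set_option linter.unusedSectionVars false
set_option linter.style.haveILetI false
set_option maxHeartbeats 400000
set_option synthInstance.maxHeartbeats 400000

/-!
# Translation of `Ш` (lead, Program C (E)): comparison of cardinalities
-/

noncomputable section

namespace Fermat.Agent.L00.Tr

open Fermat.Agent.CC CategoryTheory groupCohomology ExtCitation
open Fermat.Agent.LF (DK)

theorem padicPlace_over (q : ℕ) [Fact q.Prime] : (padicPlace q).LiesOverPrime q := by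
  have hq0 : (q : PadicAlgCl q) ≠ 0 := Nat.cast_ne_zero.mpr (Fact.out : q.Prime).ne_zero
  change (q : AlgebraicClosure ℚ) ∈ (padicPlace q).nonunits
  rw [ValuationSubring.mem_nonunits_iff_or]
  right
  rw [mem_padicPlace_iff, map_inv₀, map_natCast, ← NNReal.coe_le_coe, coe_nnnorm, norm_inv,
    NNReal.coe_one, not_le]
  have h6 : ‖(q : PadicAlgCl q)‖ = ‖(q : ℚ_[q])‖ := by
    have := norm_algebraMap' (PadicAlgCl q) (q : ℚ_[q])
    rwa [map_natCast] at this
  rw [h6]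
  exact (one_lt_inv₀ (norm_pos_iff.mpr (Nat.cast_ne_zero.mpr (Fact.out : q.Prime).ne_zero))).mpr
    Padic.norm_p_lt_one

/-- the chosen places -/
def plc (S : Finset Nat.Primes) (q : S) : ValuationSubring Qb :=
  haveI : Fact ((q : Nat.Primes) : ℕ).Prime := ⟨(q : Nat.Primes).2⟩
  padicPlace ((q : Nat.Primes) : ℕ)

theorem plc_over (S : Finset Nat.Primes) (q : S) :
    (plc S q).LiesOverPrime ((q : Nat.Primes) : ℕ) := by
  haveI : Fact ((q : Nat.Primes) : ℕ).Prime := ⟨(q : Nat.Primes).2⟩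
  exact padicPlace_over _

/-- the local Galois group maps to the decomposition group -/
def toD (S : Finset Nat.Primes) (q : S) :
    primeLocalGaloisGroup q.1 →* DK (plc S q) (⊥ : IntermediateField ℚ Qb) :=
  (primeLocalToGlobal q.1).codRestrict _ fun τ => by
    haveI : Fact ((q : Nat.Primes) : ℕ).Prime := ⟨(q : Nat.Primes).2⟩
    rw [Recip.dec_eq]
    exact localGaloisToGlobal_mem_decompositionSubgroup _ τ

theorem toD_val (S : Finset Nat.Primes) (q : S) (τ : primeLocalGaloisGroup q.1) :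
    ((toD S q τ : DK (plc S q) (⊥ : IntermediateField ℚ Qb)) : GQ) = primeLocalToGlobal q.1 τ :=
  rfl

theorem toD_dense (S : Finset Nat.Primes) (q : S) :
    Dn (lev.sub (DK (plc S q) (⊥ : IntermediateField ℚ Qb))) (toD S q) := by
  haveI : Fact ((q : Nat.Primes) : ℕ).Prime := ⟨(q : Nat.Primes).2⟩
  rintro V ⟨W, ⟨F, hF, hFW⟩, hWV⟩ d
  have hd : (d : GQ) ∈ (padicPlace ((q : Nat.Primes) : ℕ)).decompositionSubgroup ℚ := by
    have h0 : (d : GQ) ∈ DK (plc S q) (⊥ : IntermediateField ℚ Qb) := d.2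
    exact h0.1
  obtain ⟨τ, hτ⟩ := LocSurj.exists_local_lift ((q : Nat.Primes) : ℕ) hd F
  exact ⟨τ, hWV (hFW hτ)⟩

variable {p : ℕ} [Fact p.Prime] (S : Finset Nat.Primes) (B : Rep (ZMod p) GQ)

theorem smul_zmod (n : ℕ) (hn : (n : ZMod p) = 1) (m : MT B) : n • m = m := by
  rw [← Nat.cast_smul_eq_nsmul (ZMod p), hn, one_smul]

instance : Finite ↥archimedeanDecomposition := by
  have h : IsOfFinOrder complexConjugation :=
    isOfFinOrder_iff_pow_eq_one.mpr ⟨2, two_pos, complexConjugation_sq⟩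
  exact h.finite_zpowers

theorem card_arch : Nat.card ↥archimedeanDecomposition ∣ 2 := by
  rw [archimedeanDecomposition, Nat.card_zpowers]
  exact orderOf_dvd_of_pow_eq_one complexConjugation_sq

theorem exists_u (hp2 : p ≠ 2) [Fintype ↥archimedeanDecomposition] :
    ∃ u : ℕ, ((u * Fintype.card ↥archimedeanDecomposition : ℕ) : ZMod p) = 1 := by
  have hp : p.Prime := Fact.out
  have h1 : ((Fintype.card ↥archimedeanDecomposition : ℕ) : ZMod p) ≠ 0 := by
    rw [Ne, ZMod.natCast_eq_zero_iff]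
    intro h
    have h2 := h.trans (Nat.card_eq_fintype_card (α := ↥archimedeanDecomposition) ▸ card_arch)
    exact hp2 ((Nat.prime_dvd_prime_iff_eq hp Nat.prime_two).mp h2)
  refine ⟨(((Fintype.card ↥archimedeanDecomposition : ℕ) : ZMod p)⁻¹).val, ?_⟩
  push_cast
  rw [ZMod.natCast_zmod_val, inv_mul_cancel₀ h1]

theorem arch1 (hp2 : p ≠ 2) (f : Z1 (levS S) (MT B)) :
    (groupCohomology.map archimedeanLoc (𝟙 (Rep.res archimedeanLoc B)) 1).hom
      (Psi1 S B (H1.mk _ _ f)) = 0 := by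
  rw [map1_zero_iff]
  letI := Fintype.ofFinite ↥archimedeanDecomposition
  obtain ⟨u, hu⟩ := exists_u (p := p) hp2
  obtain ⟨a, ha⟩ := avg_H1 (Γ := ↥archimedeanDecomposition) (M := MT B) u
    (smul_zmod B _ hu) (fun g => f.1 (g : GQ)) (fun g h => f.2.2 g h)
  exact ⟨a, ha⟩

theorem prime1 (sm : (levS S).Smooth (MT B)) (q : S) (f : Z1 (levS S) (MT B)) :
    loc1 (cont_D S (plc S q) ⊥) (MT B) (H1.mk _ _ f) = 0 ↔
    (groupCohomology.map (primeLocalToGlobal q.1) (𝟙 (Rep.res (primeLocalToGlobal q.1) B)) 1).hom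
      (Psi1 S B (H1.mk _ _ f)) = 0 := by
  rw [map1_zero_iff]
  constructor
  · intro h1
    have h2 : H1.mk (lev.sub (DK (plc S q) ⊥)) (MT B) (Z1map (DK (plc S q) ⊥).subtype
        (cont_D S (plc S q) ⊥) (AddMonoidHom.id (MT B)) (fun _ _ => rfl) f) = 0 := h1
    rw [H1.mk_eq_zero] at h2
    obtain ⟨a, ha⟩ := h2
    exact ⟨a, fun g => ha (toD S q g)⟩
  · rintro ⟨a, ha⟩
    exact dn_H1 (toD_dense S q) (smooth_loc (cont_D S (plc S q) ⊥) sm)
      (Z1map (DK (plc S q) ⊥).subtype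
          (cont_D S (plc S q) ⊥) (AddMonoidHom.id (MT B)) (fun _ _ => rfl) f) a (fun γ => ha γ)

/-- comparison of local conditions in degree one -/
theorem loc1_iff (hp2 : p ≠ 2) (sm : (levS S).Smooth (MT B)) (f : Z1 (levS S) (MT B)) :
    (∀ q : S, loc1 (cont_D S (plc S q) ⊥) (MT B) (H1.mk _ _ f) = 0) ↔
      ∀ v, (locRes (extArithLoc S) B v).hom (Psi1 S B (H1.mk _ _ f)) = 0 :=
  ⟨fun h v => match v with
    | Sum.inl _ => arch1 S B hp2 f
    | Sum.inr q => (prime1 S B sm q f).mp (h q),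
   fun h q => (prime1 S B sm q f).mpr (h (Sum.inr q))⟩

theorem arch2 (hp2 : p ≠ 2) (f : Z2 (levS S) (MT B)) :
    locRes₂S S B archimedeanLoc (Psi2 S B (H2.mk _ _ f)) = 0 := by
  rw [locRes2_zero_iff]
  letI := Fintype.ofFinite ↥archimedeanDecomposition
  obtain ⟨u, hu⟩ := exists_u (p := p) hp2
  have h1 := avg_H2 (Γ := ↥archimedeanDecomposition) (M := MT B) u
    (smul_zmod B _ hu) (fun g h => f.1 (g : GQ) (h : GQ)) (fun g h j => f.2.2 g h j)
  obtain ⟨U, ⟨F, hF, hFU⟩, hU⟩ := f.2.1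
  refine ⟨fun g => u • ∑ j : ↥archimedeanDecomposition, f.1 (g : GQ) (j : GQ),
    ⟨F, hF.1, fun g s hs => ?_⟩, fun g h => h1 g h⟩
  change u • ∑ j : ↥archimedeanDecomposition, f.1 ((g : GQ) * (s : GQ)) (j : GQ) =
    u • ∑ j : ↥archimedeanDecomposition, f.1 (g : GQ) (j : GQ)
  congr 1
  refine Finset.sum_congr rfl fun j _ => ?_
  have h2 := hU (g : GQ) (j : GQ) (s : GQ) (hFU hs) 1 (one_mem _)
  rw [mul_one] at h2
  exact h2

theorem prime2 [Finite (MT B)] (sm : (levS S).Smooth (MT B)) (q : S) (f : Z2 (levS S) (MT B)) :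
    loc2 (cont_D S (plc S q) ⊥) (MT B) (H2.mk _ _ f) = 0 ↔
      locRes₂S S B (primeLocalToGlobal q.1) (Psi2 S B (H2.mk _ _ f)) = 0 := by
  rw [locRes2_zero_iff]
  constructor
  · intro h1
    have h2 : H2.mk (lev.sub (DK (plc S q) ⊥)) (MT B) (Z2map (DK (plc S q) ⊥).subtype
        (cont_D S (plc S q) ⊥) (AddMonoidHom.id (MT B)) (fun _ _ => rfl) f) = 0 := h1
    rw [H2.mk_eq_zero] at h2
    obtain ⟨x, ⟨U, ⟨W, ⟨F, hF, hFW⟩, hWU⟩, hx⟩, hd⟩ := h2
    refine ⟨fun g => x (toD S q g), ⟨F, hF, fun g s hs => ?_⟩, fun g h => ?_⟩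
    · change x (toD S q (g * s)) = x (toD S q g)
      rw [map_mul]
      exact hx _ _ (hWU (hFW hs))
    · have h3 := hd (toD S q g) (toD S q h)
      have h5 : f.1 (primeLocalToGlobal q.1 g) (primeLocalToGlobal q.1 h) =
          (toD S q g) • x (toD S q h) - x (toD S q g * toD S q h) + x (toD S q g) := h3
      rw [← map_mul] at h5
      exact h5
  · rintro ⟨x, ⟨F, hF, hx⟩, hd⟩
    exact dn_H2 (toD_dense S q) (smooth_loc (cont_D S (plc S q) ⊥) sm)
      (Z2map (DK (plc S q) ⊥).subtype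
          (cont_D S (plc S q) ⊥) (AddMonoidHom.id (MT B)) (fun _ _ => rfl) f) x
      (U := F.fixingSubgroup.comap (DK (plc S q) (⊥ : IntermediateField ℚ Qb)).subtype)
      ⟨F.fixingSubgroup, ⟨F, hF, le_rfl⟩, le_rfl⟩ (fun γ s hs => hx γ s hs) (fun γ γ' => hd γ γ')

/-- comparison of local conditions in degree two -/
theorem loc2_iff (hp2 : p ≠ 2) [Finite (MT B)] (sm : (levS S).Smooth (MT B))
    (f : Z2 (levS S) (MT B)) :
    (∀ q : S, loc2 (cont_D S (plc S q) ⊥) (MT B) (H2.mk _ _ f) = 0) ↔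
      ∀ v, locRes₂S S B (extArithLoc S v) (Psi2 S B (H2.mk _ _ f)) = 0 :=
  ⟨fun h v => match v with
    | Sum.inl _ => arch2 S B hp2 f
    | Sum.inr q => (prime2 S B sm q f).mp (h q),
   fun h q => (prime2 S B sm q f).mpr (h (Sum.inr q))⟩

/-- `Ш¹` -/
theorem card_sha1 (hp2 : p ≠ 2) (sm : (levS S).Smooth (MT B)) :
    Nat.card (sha₁ S B) = Nat.card (Sh1S S (plc S) (MT B)) := by
  symm
  have key : ∀ x : H1 (levS S) (MT B), x ∈ Sh1S S (plc S) (MT B) ↔ Psi1 S B x ∈ sha₁ S B := by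
    intro x
    obtain ⟨f, rfl⟩ := H1.mk_surjective x
    have h1 : (H1.mk _ _ f ∈ Sh1S S (plc S) (MT B)) ↔
        ∀ q : S, loc1 (cont_D S (plc S q) ⊥) (MT B) (H1.mk _ _ f) = 0 := by
      rw [Sh1S, AddSubgroup.mem_iInf]; rfl
    rw [h1, loc1_iff S B hp2 sm f]
    constructor
    · intro h
      refine ⟨(mem_range_Psi1 S B _).mpr ⟨_, rfl⟩, ?_⟩
      exact LinearMap.mem_ker.mpr (funext h)
    · rintro ⟨-, h⟩ v
      exact congrFun (LinearMap.mem_ker.mp h) v
  refine Nat.card_eq_of_bijective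
    (fun x : Sh1S S (plc S) (MT B) => (⟨Psi1 S B x, (key _).mp x.2⟩ : sha₁ S B)) ⟨?_, ?_⟩
  · intro x y h
    exact Subtype.ext (Psi1_injective S B (congrArg Subtype.val h))
  · rintro ⟨y, hy⟩
    obtain ⟨x, rfl⟩ := (mem_range_Psi1 S B y).mp hy.1
    exact ⟨⟨x, (key x).mpr hy⟩, rfl⟩

/-- `Ш²` -/
theorem card_sha2 (hp2 : p ≠ 2) [Finite (MT B)] (sm : (levS S).Smooth (MT B)) :
    Nat.card (sha₂ S B) = Nat.card (Sh2S S (plc S) (MT B)) := by
  symm
  have key : ∀ x : H2 (levS S) (MT B), x ∈ Sh2S S (plc S) (MT B) ↔ Psi2 S B x ∈ sha₂ S B := by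
    intro x
    obtain ⟨f, rfl⟩ := H2.mk_surjective x
    have h1 : (H2.mk _ _ f ∈ Sh2S S (plc S) (MT B)) ↔
        ∀ q : S, loc2 (cont_D S (plc S q) ⊥) (MT B) (H2.mk _ _ f) = 0 := by
      rw [Sh2S, AddSubgroup.mem_iInf]; rfl
    rw [h1, loc2_iff S B hp2 sm f]
    constructor
    · intro h
      exact LinearMap.mem_ker.mpr (funext h)
    · intro h v
      exact congrFun (LinearMap.mem_ker.mp h) v
  refine Nat.card_eq_of_bijective
    (fun x : Sh2S S (plc S) (MT B) => (⟨Psi2 S B x, (key _).mp x.2⟩ : sha₂ S B)) ⟨?_, ?_⟩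
  · intro x y h
    exact Subtype.ext ((Psi2_bijective S B).1 (congrArg Subtype.val h))
  · rintro ⟨y, hy⟩
    obtain ⟨x, rfl⟩ := (Psi2_bijective S B).2 y
    exact ⟨⟨x, (key x).mpr hy⟩, rfl⟩

end Fermat.Agent.L00.Tr
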