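import Mathlib
import Fermat.Agent.H12.InertiaVal

set_option autoImplicit false

/-!
# The inertia field over a number field `K` is unramified: valuations of elements fixed by inertia
-/

namespace Fermat.Agent.L00.Unr

open scoped NumberField Pointwise
open Fermat.Agent.H05 Fermat.Agent.H09

theorem perfect_residue (R : Type*) [Field R] [NumberField R] (Q : Ideal (𝓞 R)) [Q.IsPrime]
    (hQ0 : Q ≠ ⊥) : PerfectField Q.ResidueField := by
  have : Q.IsMaximal := Ideal.IsPrime.isMaximal inferInstance hQ0
  have : Finite (𝓞 R ⧸ Q) := Ideal.finiteQuotientOfFreeOfNeBot _ hQ0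
  have : Finite Q.ResidueField := by
    apply Finite.of_surjective (algebraMap (𝓞 R ⧸ Q) Q.ResidueField)
    exact (Ideal.bijective_algebraMap_quotient_residueField _).surjective
  infer_instance

theorem under_ne_bot (R F : Type*) [Field R] [NumberField R] [Field F] [NumberField F]
    [Algebra R F] (P : Ideal (𝓞 F)) [P.IsPrime] (hP0 : P ≠ ⊥) : P.under (𝓞 R) ≠ ⊥ := by
  intro h
  exact hP0 (Ideal.eq_bot_of_comap_eq_bot h)

/-- In the inertia field of a prime `P` of `F/K` the prime below `P` is unramified over `K`. -/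
theorem ramificationIdx_inertia (K F : Type*) [Field K] [NumberField K] [Field F] [NumberField F]
    [Algebra K F] [IsGalois K F]
    (P : Ideal (𝓞 F)) [P.IsPrime] (hP0 : P ≠ ⊥)
    (E : IntermediateField K F)
    (hE : E = FixedPoints.intermediateField (P.inertia Gal(F/K))) :
    (P.under (𝓞 E)).ramificationIdx (𝓞 K) = 1 := by
  have : FiniteDimensional K F := Module.Finite.right ℚ K F
  have : IsGaloisGroup (P.inertia Gal(F/K)) E F :=
    IsGaloisGroup.of_fixedPoints_eq Gal(F/K) K F _ E hE.symm
  have : NumberField E := NumberField.of_intermediateField E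
  have : IsGaloisGroup (P.inertia Gal(F/K)) (𝓞 E) (𝓞 F) :=
    IsGaloisGroup.of_isFractionRing (P.inertia Gal(F/K)) (𝓞 E) (𝓞 F) E F
  have : IsGaloisGroup Gal(F/K) (𝓞 K) (𝓞 F) :=
    IsGaloisGroup.of_isFractionRing Gal(F/K) (𝓞 K) (𝓞 F) K F
  have hE0 := under_ne_bot E F P hP0
  have hK0 := under_ne_bot K F P hP0
  have : PerfectField (P.under (𝓞 E)).ResidueField := perfect_residue E _ hE0
  have : PerfectField (P.under (𝓞 K)).ResidueField := perfect_residue K _ hK0
  have : (P.under (𝓞 E)).IsMaximal := Ideal.IsPrime.isMaximal inferInstance hE0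
  have : (P.under (𝓞 K)).IsMaximal := Ideal.IsPrime.isMaximal inferInstance hK0
  have h1 := Ideal.card_inertia_eq_ramificationIdxIn (G := Gal(F/K)) (P.under (𝓞 K)) P
  have h2 := Ideal.card_inertia_eq_ramificationIdxIn (G := P.inertia Gal(F/K)) (P.under (𝓞 E)) P
  rw [Ideal.ramificationIdxIn_eq_ramificationIdx (P.under (𝓞 K)) P Gal(F/K)] at h1
  rw [Ideal.ramificationIdxIn_eq_ramificationIdx (P.under (𝓞 E)) P (P.inertia Gal(F/K))] at h2
  have h3 : Nat.card (P.inertia (P.inertia Gal(F/K))) = Nat.card (P.inertia Gal(F/K)) := by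
    have : P.inertia (P.inertia Gal(F/K)) = ⊤ := by
      rw [Subgroup.eq_top_iff']
      intro x
      exact x.2
    rw [this]
    simp
  have h4 := Ideal.ramificationIdx_tower (R := 𝓞 K) (P.under (𝓞 E)) P
  rw [← h1, ← h2, h3] at h4
  have h5 : 0 < Nat.card (P.inertia Gal(F/K)) := Nat.card_pos
  exact Nat.eq_of_mul_eq_mul_right h5 (by rw [one_mul]; exact h4.symm)

/-- a local uniformizer -/
def IsUnif {R : Type*} [CommRing R] (w : Ideal R) [w.IsPrime] (π : R) : Prop :=
  (Ideal.span {π}).map (algebraMap R (Localization.AtPrime w)) =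
      IsLocalRing.maximalIdeal (Localization.AtPrime w)

theorem exists_isUnif {R : Type*} [CommRing R] [IsDedekindDomain R] (w : Ideal R)
    [w.IsPrime] (hw : w ≠ ⊥) : ∃ π ∈ w, IsUnif w π := by
  have : IsDiscreteValuationRing (Localization.AtPrime w) :=
    IsLocalization.AtPrime.isDiscreteValuationRing_of_dedekind_domain R hw _
  obtain ⟨ϖ, hϖ⟩ := IsDiscreteValuationRing.exists_irreducible (Localization.AtPrime w)
  obtain ⟨⟨x, s⟩, hxs⟩ := IsLocalization.surj w.primeCompl ϖ
  simp only at hxs
  have hu : IsUnit (algebraMap R (Localization.AtPrime w) s) := IsLocalization.map_units _ s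
  have hirr : Irreducible (algebraMap R (Localization.AtPrime w) x) := by
    rw [← hxs, irreducible_mul_isUnit hu]
    exact hϖ
  refine ⟨x, ?_, ?_⟩
  · by_contra hx
    exact hirr.not_isUnit ((IsLocalization.AtPrime.isUnit_to_map_iff _ w x).mpr hx)
  · unfold IsUnif
    rw [Ideal.map_span, Set.image_singleton]
    exact ((IsDiscreteValuationRing.irreducible_iff_uniformizer _).mp hirr).symm

theorem isUnif_of_unram {R S : Type*} [CommRing R] [IsDomain R] [CommRing S] [Algebra R S]
    (w : Ideal R) [w.IsPrime] (Q : Ideal S) [Q.IsPrime] (hQ : Q.under R = w) (π : R) (hπP : π ∈ w)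
    (hπ : IsUnif w π)
    (h1 : (w.map (algebraMap R S)).map (algebraMap S (Localization.AtPrime Q)) =
      IsLocalRing.maximalIdeal (Localization.AtPrime Q)) :
    IsUnif Q (algebraMap R S π) := by
  unfold IsUnif
  apply le_antisymm
  · rw [← h1]
    apply Ideal.map_mono
    rw [Ideal.span_le, Set.singleton_subset_iff, SetLike.mem_coe]
    exact Ideal.mem_map_of_mem _ hπP
  · rw [← h1, Ideal.map_le_iff_le_comap, Ideal.map_le_iff_le_comap]
    intro x hx
    rw [Ideal.mem_comap, Ideal.mem_comap]
    have hx' : algebraMap R (Localization.AtPrime w) x ∈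
        (Ideal.span {π}).map (algebraMap R (Localization.AtPrime w)) := by
      rw [show (Ideal.span {π}).map (algebraMap R (Localization.AtPrime w)) =
        IsLocalRing.maximalIdeal (Localization.AtPrime w) from hπ]
      exact (IsLocalization.AtPrime.to_map_mem_maximal_iff _ w x).mpr hx
    rw [Ideal.map_span, Set.image_singleton, Ideal.mem_span_singleton] at hx'
    obtain ⟨t, ht⟩ := hx'
    obtain ⟨⟨y, s⟩, hys⟩ := IsLocalization.surj w.primeCompl t
    simp only at hys
    have hinj : Function.Injective (algebraMap R (Localization.AtPrime w)) :=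
      IsLocalization.injective _ (Ideal.primeCompl_le_nonZeroDivisors w)
    have hxs : x * s = π * y := by
      apply hinj
      rw [map_mul, map_mul, ht, ← hys]; ring
    have hs : (s : R) ∉ w := s.2
    have hsQ : algebraMap R S s ∉ Q := by
      intro h
      apply hs
      have h' : (s : R) ∈ Q.under R := h
      rw [hQ] at h'
      exact h'
    have hunit : IsUnit (algebraMap S (Localization.AtPrime Q) (algebraMap R S s)) :=
      (IsLocalization.AtPrime.isUnit_to_map_iff _ Q _).mpr hsQ
    have h3 : algebraMap S (Localization.AtPrime Q) (algebraMap R S x) *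
        algebraMap S (Localization.AtPrime Q) (algebraMap R S s) =
        algebraMap S (Localization.AtPrime Q) (algebraMap R S π) *
        algebraMap S (Localization.AtPrime Q) (algebraMap R S y) := by
      rw [← map_mul, ← map_mul, hxs, map_mul, map_mul]
    rw [← Ideal.mul_unit_mem_iff_mem _ hunit, h3, Ideal.map_span, Set.image_singleton]
    exact Ideal.mul_mem_right _ _ (Ideal.mem_span_singleton_self _)

/-- Elements of a number field `F`, Galois over `K`, fixed by the inertia group of `P` are powers of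
a uniformizer of `K` times `P`-units. -/
theorem exists_zpow_of_fixed (K F : Type*) [Field K] [NumberField K] [Field F] [NumberField F]
    [Algebra K F] [IsGalois K F] (P : Ideal (𝓞 F)) [P.IsPrime] (hP0 : P ≠ ⊥)
    (π : 𝓞 K) (hπP : π ∈ P.under (𝓞 K)) (hπ : IsUnif (P.under (𝓞 K)) π)
    (z : F) (hz0 : z ≠ 0) (hz : ∀ τ ∈ P.inertia Gal(F/K), τ z = z) :
    ∃ n : ℤ, ∃ c d : 𝓞 F, c ∉ P ∧ d ∉ P ∧
      z * (c : F) = (algebraMap K F (π : K)) ^ n * (d : F) := by
  let E : IntermediateField K F := FixedPoints.intermediateField (P.inertia Gal(F/K))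
  have : NumberField E := NumberField.of_intermediateField E
  have hzE : z ∈ E := fun τ => hz τ.1 τ.2
  have h1 := ramificationIdx_inertia K F P hP0 E rfl
  set Q := P.under (𝓞 E) with hQ
  have hQ0 : Q ≠ ⊥ := under_ne_bot E F P hP0
  have hQK : Q.under (𝓞 K) = P.under (𝓞 K) := by
    rw [hQ, Ideal.under_under]
  set w := P.under (𝓞 K) with hw
  rw [Ideal.ramificationIdx_def, ENat.toNat_eq_iff_eq_natCast, Nat.cast_one,
    Module.length_eq_one_iff, isSimpleModule_iff_isCoatom, ← Ideal.isMaximal_def,
    IsLocalRing.isMaximal_iff, hQK] at h1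
  set πE : 𝓞 E := algebraMap (𝓞 K) (𝓞 E) π with hπE
  have h2 : (Ideal.span {πE}).map (algebraMap (𝓞 E) (Localization.AtPrime Q)) =
      IsLocalRing.maximalIdeal (Localization.AtPrime Q) :=
    isUnif_of_unram w Q hQK π hπP hπ (by
      rw [Ideal.map_map, ← IsScalarTower.algebraMap_eq]
      exact h1)
  obtain ⟨a, b, hb, hab⟩ := IsFractionRing.div_surjective (A := 𝓞 E) (⟨z, hzE⟩ : E)
  have hb0 : b ≠ 0 := nonZeroDivisors.ne_zero hb
  have ha0 : a ≠ 0 := by
    rintro rfl
    rw [map_zero, zero_div] at hab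
    exact hz0 (congrArg Subtype.val hab.symm)
  obtain ⟨n, c, d, hc, hd, h3⟩ := H12.exists_mul_eq_pow_mul Q hQ0 πE h2 a ha0
  obtain ⟨m, c', d', hc', hd', h4⟩ := H12.exists_mul_eq_pow_mul Q hQ0 πE h2 b hb0
  let ι := algebraMap (𝓞 E) (𝓞 F)
  have hι : ∀ x : 𝓞 E, ((ι x : 𝓞 F) : F) = ((x : E) : F) := fun x => rfl
  have hmem : ∀ x : 𝓞 E, ι x ∈ P ↔ x ∈ Q := fun x => Iff.rfl
  refine ⟨(n : ℤ) - m, ι (c * d'), ι (c' * d), ?_, ?_, ?_⟩
  · rw [hmem]
    intro h
    exact (Ideal.IsPrime.mem_or_mem inferInstance h).elim hc hd'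
  · rw [hmem]
    intro h
    exact (Ideal.IsPrime.mem_or_mem inferInstance h).elim hc' hd
  · have hπ0 : π ≠ 0 := by
      rintro rfl
      unfold IsUnif at hπ
      rw [Ideal.map_span, Set.image_singleton, map_zero, Ideal.span_singleton_zero] at hπ
      have hK0 := under_ne_bot K F P hP0
      have := IsLocalization.AtPrime.isDiscreteValuationRing_of_dedekind_domain (𝓞 K) hK0
        (Localization.AtPrime w)
      exact IsDiscreteValuationRing.not_a_field _ hπ.symm
    have hℓF : (algebraMap K F (π : K)) ≠ 0 := by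
      rw [Ne, map_eq_zero_iff _ (algebraMap K F).injective]
      exact_mod_cast hπ0
    have ez : z = ((a : E) : F) / ((b : E) : F) := by
      have := congrArg Subtype.val hab
      exact this.symm
    have hbF : ((b : E) : F) ≠ 0 := by
      intro h
      apply hb0
      have : (b : E) = 0 := Subtype.ext h
      exact_mod_cast this
    have hπEF : ((πE : E) : F) = algebraMap K F (π : K) := rfl
    have e3 : ((a : E) : F) * ((c : E) : F) = (algebraMap K F (π : K)) ^ n * ((d : E) : F) := by
      have := congrArg (fun x : 𝓞 E => ((x : E) : F)) h3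
      simpa [hπEF] using this
    have e4 : ((b : E) : F) * ((c' : E) : F) = (algebraMap K F (π : K)) ^ m * ((d' : E) : F) := by
      have := congrArg (fun x : 𝓞 E => ((x : E) : F)) h4
      simpa [hπEF] using this
    rw [ez, hι, hι, zpow_sub₀ hℓF, zpow_natCast, zpow_natCast]
    push_cast
    field_simp
    linear_combination ((algebraMap K F (π : K)) ^ m * ((d' : E) : F)) * e3 -
      ((algebraMap K F (π : K)) ^ n * ((d : E) : F)) * e4

end Fermat.Agent.L00.Unr
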