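import Fermat.Agent.L00.Unr2

set_option autoImplicit false

/-!
# Frobenius elements over a number field `K`
-/

namespace Fermat.Agent.L00.Unr

open scoped NumberField Pointwise
open Fermat.Agent.H05 Fermat.Agent.H09

variable {L : Type*} [Field L] [CharZero L] [IsGalois ℚ L]

/-- the norm of the prime of `K` below `A` -/
noncomputable def nrm (A : ValuationSubring L) (K : IntermediateField ℚ L) : ℕ :=
  Nat.card (𝓞 K ⧸ primeOf A K)

theorem smul_mem_nonunits {A : ValuationSubring L} {σ : L ≃ₐ[ℚ] L}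
    (hσ : σ ∈ A.decompositionSubgroup ℚ) {x : L} (hx : x ∈ A.nonunits) : σ x ∈ A.nonunits := by
  have h1 : σ • A = A := hσ
  rw [ValuationSubring.mem_nonunits_iff_or] at hx ⊢
  rcases hx with h | h
  · left
    rw [h, map_zero]
  · right
    intro h2
    apply h
    rw [← map_inv₀, ← h1, ValuationSubring.mem_pointwise_smul_iff_inv_smul_mem] at h2
    have : σ⁻¹ • σ x⁻¹ = x⁻¹ := inv_smul_smul σ x⁻¹
    rwa [this] at h2

theorem pow_nrm_sub {A : ValuationSubring L} {ℓ : ℕ} (hℓ : ℓ.Prime) (hA : A.LiesOverPrime ℓ)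
    (K : IntermediateField ℚ L) [FiniteDimensional ℚ K] (x : 𝓞 K) (n : ℕ) :
    x ^ (nrm A K ^ n) - x ∈ primeOf A K := by
  have hKn : NumberField K := { to_charZero := inferInstance, to_finiteDimensional := inferInstance }
  have hmax : (primeOf A K).IsMaximal :=
    Ideal.IsPrime.isMaximal inferInstance (primeOf_ne_bot hℓ hA K)
  have hfin : Finite (𝓞 K ⧸ primeOf A K) :=
    Ideal.finiteQuotientOfFreeOfNeBot _ (primeOf_ne_bot hℓ hA K)
  let _ : Field (𝓞 K ⧸ primeOf A K) := Ideal.Quotient.field _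
  have := Fintype.ofFinite (𝓞 K ⧸ primeOf A K)
  rw [← Ideal.Quotient.eq, map_pow]
  have h1 := FiniteField.pow_card_pow n (Ideal.Quotient.mk (primeOf A K) x)
  unfold nrm
  rw [Nat.card_eq_fintype_card]
  exact h1

theorem one_lt_nrm {A : ValuationSubring L} {ℓ : ℕ} (hℓ : ℓ.Prime) (hA : A.LiesOverPrime ℓ)
    (K : IntermediateField ℚ L) [FiniteDimensional ℚ K] : 1 < nrm A K := by
  have hKn : NumberField K := { to_charZero := inferInstance, to_finiteDimensional := inferInstance }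
  have hfin : Finite (𝓞 K ⧸ primeOf A K) :=
    Ideal.finiteQuotientOfFreeOfNeBot _ (primeOf_ne_bot hℓ hA K)
  have : Nontrivial (𝓞 K ⧸ primeOf A K) :=
    Ideal.Quotient.nontrivial_iff.mpr (Ideal.IsPrime.ne_top inferInstance)
  exact Finite.one_lt_card

/-- the norm is a power of the residue characteristic -/
theorem exists_nrm_eq {A : ValuationSubring L} {ℓ : ℕ} (hℓ : ℓ.Prime) (hA : A.LiesOverPrime ℓ)
    (K : IntermediateField ℚ L) [FiniteDimensional ℚ K] : ∃ f : ℕ, 0 < f ∧ nrm A K = ℓ ^ f := by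
  have hKn : NumberField K := { to_charZero := inferInstance, to_finiteDimensional := inferInstance }
  have hmax : (primeOf A K).IsMaximal :=
    Ideal.IsPrime.isMaximal inferInstance (primeOf_ne_bot hℓ hA K)
  have hfin : Finite (𝓞 K ⧸ primeOf A K) :=
    Ideal.finiteQuotientOfFreeOfNeBot _ (primeOf_ne_bot hℓ hA K)
  let _ : Field (𝓞 K ⧸ primeOf A K) := Ideal.Quotient.field _
  have := Fintype.ofFinite (𝓞 K ⧸ primeOf A K)
  have : Fact ℓ.Prime := ⟨hℓ⟩
  have hch : CharP (𝓞 K ⧸ primeOf A K) ℓ := by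
    refine (CharP.charP_iff_prime_eq_zero hℓ).mpr ?_
    rw [← map_natCast (Ideal.Quotient.mk (primeOf A K)), Ideal.Quotient.eq_zero_iff_mem]
    unfold primeOf
    rw [Ideal.mem_comap, map_natCast]
    exact natCast_mem_center hA
  obtain ⟨n, -, hn⟩ := FiniteField.card (𝓞 K ⧸ primeOf A K) ℓ
  exact ⟨n, n.pos, by unfold nrm; rw [Nat.card_eq_fintype_card, hn]⟩

/-- a Frobenius element over `K` at `A`: acts on the residue field by `x ↦ x ^ nrm A K` -/
theorem exists_frob {A : ValuationSubring L} {ℓ : ℕ} (hℓ : ℓ.Prime) (hA : A.LiesOverPrime ℓ)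
    (K : IntermediateField ℚ L) [FiniteDimensional ℚ K] :
    ∃ φ : L ≃ₐ[ℚ] L, φ ∈ K.fixingSubgroup ∧ A.IsFrobeniusAt φ (nrm A K) := by
  classical
  obtain ⟨f, hf0, hf⟩ := exists_nrm_eq hℓ hA K
  let H : Subgroup (L ≃ₐ[ℚ] L) := K.fixingSubgroup
  have hH : IsClosed (H : Set (L ≃ₐ[ℚ] L)) := InfiniteGalois.fixingSubgroup_isClosed K
  have : Fact ℓ.Prime := ⟨hℓ⟩
  let B := integralClosure ℤ L
  letI : TopologicalSpace B := ⊥
  haveI : DiscreteTopology B := ⟨rfl⟩
  haveI : ContinuousSMul (L ≃ₐ[ℚ] L) B := by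
    rw [continuousSMul_iff_stabilizer_isOpen]
    intro x
    have h1 := stabilizer_isOpen_of_isIntegral (K := ℚ) (L := L) (x : L)
    convert h1 using 1
    ext σ
    simp only [SetLike.mem_coe, MulAction.mem_stabilizer_iff, Subtype.ext_iff]
    rfl
  let B' : Subalgebra ℤ B := FixedPoints.subalgebra ℤ B H
  haveI : CompactSpace H := isCompact_iff_compactSpace.mp hH.isCompact
  haveI : ContinuousSMul H B := by
    constructor
    exact (continuous_smul (M := L ≃ₐ[ℚ] L) (X := B)).comp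
      ((continuous_subtype_val.comp continuous_fst).prodMk continuous_snd)
  haveI : SMulCommClass H B' B := by
    constructor
    intro h b x
    rw [Subalgebra.smul_def, Subalgebra.smul_def, smul_eq_mul, smul_eq_mul, smul_mul',
      b.2 h]
  haveI : Algebra.IsInvariant B' B H := by
    constructor
    intro b hb
    exact ⟨⟨b, hb⟩, rfl⟩
  have hB' : ∀ x : B, x ∈ B' → ∃ y : 𝓞 K, iota K y = x := by
    intro x hx
    have hxK : (x : L) ∈ K := by
      have h1 : (x : L) ∈ IntermediateField.fixedField H := by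
        rw [IntermediateField.mem_fixedField_iff]
        intro g hg
        exact congrArg Subtype.val (hx ⟨g, hg⟩)
      rwa [InfiniteGalois.fixedField_fixingSubgroup] at h1
    have hxint : IsIntegral ℤ (⟨(x : L), hxK⟩ : K) := by
      have h2 : IsIntegral ℤ (x : L) := x.2
      exact (isIntegral_algHom_iff (K.val.restrictScalars ℤ) K.val.injective).mp h2
    exact ⟨⟨⟨(x : L), hxK⟩, hxint⟩, rfl⟩
  let Q : Ideal B := center A
  let P' : Ideal B' := Q.under B'
  haveI : Q.LiesOver P' := ⟨rfl⟩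
  haveI hQ : Q.IsMaximal := center_isMaximal hℓ hA
  letI : Field (B ⧸ Q) := Ideal.Quotient.field Q
  haveI : CharP (B ⧸ Q) ℓ := by
    have h0 : ((ℓ : ℕ) : B ⧸ Q) = 0 := by
      have h := natCast_mem_center hA
      rw [← Ideal.Quotient.eq_zero_iff_mem, map_natCast] at h
      exact h
    exact (CharP.charP_iff_prime_eq_zero hℓ).mpr h0
  -- the residue field is algebraic over the prime field, hence perfect
  haveI : PerfectRing (B ⧸ Q) ℓ := by
    obtain ⟨σ, hσ1, hσ2⟩ := exists_isFrobeniusAt hℓ hA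
    refine PerfectRing.ofSurjective _ ℓ ?_
    intro y
    obtain ⟨y, rfl⟩ := Ideal.Quotient.mk_surjective y
    refine ⟨Ideal.Quotient.mk Q (σ⁻¹ • y), ?_⟩
    rw [frobenius_def, ← map_pow, Ideal.Quotient.eq]
    -- (σ⁻¹ y)^ℓ ≡ σ (σ⁻¹ y) = y
    have h3 := hσ2 (IsLocalRing.residue A (toA A (σ⁻¹ • y)))
    have h4 : IsLocalRing.residue A (toA A y) = IsLocalRing.residue A (toA A ((σ⁻¹ • y) ^ ℓ)) := by
      rw [map_pow, map_pow, ← h3]
      have : IsLocalRing.residue A (toA A (σ • (σ⁻¹ • y))) = IsLocalRing.residue A (toA A y) := by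
        rw [smul_inv_smul]
      rw [← this]
      rfl
    have h5 : IsLocalRing.residue A (toA A ((σ⁻¹ • y) ^ ℓ - y)) = 0 := by
      rw [map_sub, map_sub, h4, sub_self]
    rw [IsLocalRing.residue_eq_zero_iff] at h5
    exact h5
  let l : (B ⧸ Q) ≃ₐ[B' ⧸ P'] (B ⧸ Q) :=
    { iterateFrobeniusEquiv (B ⧸ Q) ℓ f with
      commutes' := by
        intro r
        obtain ⟨⟨r, hr⟩, rfl⟩ := Ideal.Quotient.mk_surjective r
        obtain ⟨y, rfl⟩ := hB' r hr
        change iterateFrobeniusEquiv (B ⧸ Q) ℓ f (Ideal.Quotient.mk Q (iota K y)) =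
          Ideal.Quotient.mk Q (iota K y)
        rw [iterateFrobeniusEquiv_def, ← map_pow, Ideal.Quotient.eq, ← map_pow, ← map_sub]
        have h1 := pow_nrm_sub hℓ hA K y 1
        rw [pow_one, hf] at h1
        exact h1 }
  obtain ⟨⟨⟨φ, hφH⟩, hφQ⟩, hφ⟩ := Ideal.Quotient.stabilizerHom_surjective_of_profinite
    (A := B') (B := B) (G := H) P' Q l
  refine ⟨φ, hφH, ?_⟩
  have hφA : φ • A = A := by
    apply eq_of_center_eq hℓ ((liesOverPrime_smul_iff φ A ℓ).mpr hA)
    rw [center_smul]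
    exact hφQ
  refine ⟨hφA, ?_⟩
  intro x
  obtain ⟨z, rfl⟩ := residue_toA_surjective hℓ hA x
  have h1 := AlgEquiv.congr_fun hφ (Ideal.Quotient.mk Q z)
  rw [Ideal.Quotient.stabilizerHom_apply] at h1
  have h2 : Ideal.Quotient.mk Q (φ • z) = Ideal.Quotient.mk Q (z ^ (nrm A K)) := by
    rw [hf]
    refine Eq.trans h1 ?_
    change iterateFrobeniusEquiv (B ⧸ Q) ℓ f (Ideal.Quotient.mk Q z) = _
    rw [iterateFrobeniusEquiv_def, ← map_pow]
  rw [Ideal.Quotient.eq] at h2
  have h3 : IsLocalRing.residue A (toA A (φ • z)) = IsLocalRing.residue A (toA A (z ^ (nrm A K))) := by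
    rw [← sub_eq_zero, ← map_sub, ← map_sub, IsLocalRing.residue_eq_zero_iff]
    exact h2
  rw [RingHom.comp_apply, ← map_pow, ← map_pow, ← h3]
  rfl

end Fermat.Agent.L00.Unr
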